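import Mathlib

/-!
# S55, layer T (finite-group cohomology toolkit): frozen interface (Spec pattern)

Architect: helper53.  Everything in this file is a *definition* or a `def XxxSpec : Prop`.
Producers prove `theorem xxx : XxxSpec`; consumers take `(h : XxxSpec)` as a hypothesis.

Conventions.
* `G : Type` is a finite group, `k : Type` a commutative ring, `A : Rep.{0} k G`.
  Every statement is GENERIC in `k` (this avoids the `Module ℤ` instance diamond: inside a
  generic statement the only `Module k A.V` instance is `A.hV2`).  Consumers use `k := ℤ`.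
* `Hⁿ(G, A) = groupCohomology A n : ModuleCat k` (Mathlib).
* restriction to `H ≤ G`: `resSub A H = Rep.res H.subtype A`, `resMap A H n : Hⁿ(G,A) ⟶ Hⁿ(H,A)`.
* inflation from `G ⧸ S`: `infMap A S n : Hⁿ(G ⧸ S, A^S) ⟶ Hⁿ(G,A)` (formula of Mathlib `H1InfRes`).
* Tate cohomology: Mathlib `tateCohomology A n` (`n : ℤ`); it needs `[Fintype G]`, which is
  universally quantified in the specs (so any instance may be plugged in).
-/

set_option autoImplicit false

open CategoryTheory groupCohomology

namespace Fermat.Agent.S55.T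

/-! ## 0. Vocabulary -/

section Vocabulary

variable {k G : Type} [CommRing k] [Group G]

/-- `A` restricted to a subgroup `H ≤ G`. -/
noncomputable abbrev resSub (A : Rep.{0} k G) (H : Subgroup G) : Rep.{0} k H :=
  Rep.res H.subtype A

/-- The restriction map `Hⁿ(G, A) ⟶ Hⁿ(H, A)`. -/
noncomputable abbrev resMap (A : Rep.{0} k G) (H : Subgroup G) (n : ℕ) :
    groupCohomology A n ⟶ groupCohomology (resSub A H) n :=
  groupCohomology.map H.subtype (𝟙 (resSub A H)) n

/-- The inflation map `Hⁿ(G ⧸ S, A^S) ⟶ Hⁿ(G, A)` (same formula as Mathlib's `H1InfRes`). -/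
noncomputable abbrev infMap (A : Rep.{0} k G) (S : Subgroup G) [S.Normal] (n : ℕ) :
    groupCohomology (A.quotientToInvariants S) n ⟶ groupCohomology A n :=
  groupCohomology.map (QuotientGroup.mk' S) (Rep.ofHom <| A.ρ.quotientToInvariants_lift S) n

/-- The map induced on `Hⁿ(G, -)` by a morphism of representations. -/
noncomputable abbrev coeffMap {A B : Rep.{0} k G} (f : A ⟶ B) (n : ℕ) :
    groupCohomology A n ⟶ groupCohomology B n :=
  groupCohomology.map (MonoidHom.id G) f n

/-- `Ĥ⁰`-index: the index of `N_G A` in `A^G` (`0` if infinite). -/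
noncomputable def hat0Card [Fintype G] (A : Rep.{0} k G) : ℕ :=
  (LinearMap.range A.ρ.norm).toAddSubgroup.relIndex A.ρ.invariants.toAddSubgroup

/-- `Ĥ⁻¹`-index: the index of `I_G A = ∑_g (g - 1) A` in `ker N_G` (`0` if infinite). -/
noncomputable def hatNeg1Card [Fintype G] (A : Rep.{0} k G) : ℕ :=
  (⨆ g : G, LinearMap.range (A.ρ g - 1)).toAddSubgroup.relIndex
    (LinearMap.ker A.ρ.norm).toAddSubgroup

/-- `Ĥ⁰(G, A) = A^G / N_G A` as a `k`-module (elementary form). -/
abbrev hat0 [Fintype G] (A : Rep.{0} k G) : Type :=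
  ↥A.ρ.invariants ⧸ (LinearMap.range A.ρ.norm).comap A.ρ.invariants.subtype

/-- The norm `N_G ψ = ∑_g g ∘ ψ ∘ g⁻¹` of an additive map `ψ : A → B` (as a function). -/
noncomputable def normAdd [Fintype G] {A B : Rep.{0} k G} (ψ : A.V →+ B.V) (a : A.V) : B.V :=
  ∑ g : G, B.ρ g (ψ (A.ρ g⁻¹ a))

/-- `A` is cohomologically trivial: all Tate cohomology groups of all subgroups vanish. -/
def IsCohTriv [Finite G] (A : Rep.{0} k G) : Prop :=
  ∀ (H : Subgroup G) [Fintype H] (n : ℤ), Limits.IsZero (tateCohomology (resSub A H) n)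

/-- `(C, γ)` is a *class module*: for every subgroup `H ≤ G`, `H¹(H, C) = 0`, and `H²(H, C)` is
generated by `res_H γ` with annihilator exactly `|H| • k`
(for `k = ℤ`: `H²(H, C)` is cyclic of order `|H|`, generated by `res_H γ`). -/
def IsClassModule [Finite G] (C : Rep.{0} k G) (γ : groupCohomology C 2) : Prop :=
  ∀ H : Subgroup G,
    Limits.IsZero (groupCohomology (resSub C H) 1) ∧
    (∀ x : groupCohomology (resSub C H) 2, ∃ c : k, x = c • (resMap C H 2).hom γ) ∧
    (∀ c : k, c • (resMap C H 2).hom γ = 0 → ∃ d : k, c = (Nat.card H : k) * d) ∧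
    ((Nat.card H : k) • (resMap C H 2).hom γ = 0)

/-- `Hⁿ(G, A)` is finite and its cardinality divides `m`. -/
def CardDvd (M : ModuleCat.{0} k) (m : ℕ) : Prop :=
  Finite M ∧ Nat.card M ∣ m

end Vocabulary

/-! ## T1. Restriction / corestriction -/

/-- **T1a.**  If `res_H x = 0` then `[G : H] • x = 0`  (all degrees `n ≥ 1`). -/
def ResIndexSpec : Prop :=
  ∀ (k G : Type) [CommRing k] [Group G] [Finite G] (A : Rep.{0} k G) (H : Subgroup G) (n : ℕ),
    0 < n → ∀ x : groupCohomology A n, (resMap A H n).hom x = 0 → H.index • x = 0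

/-- **T1b.**  `|G|` kills `Hⁿ(G, A)` for `n ≥ 1`. -/
def CardTorsionSpec : Prop :=
  ∀ (k G : Type) [CommRing k] [Group G] [Finite G] (A : Rep.{0} k G) (n : ℕ),
    0 < n → ∀ x : groupCohomology A n, Nat.card G • x = 0

/-- **T1c.**  Corestriction: a family `cor_A : Hⁿ(H, A) ⟶ Hⁿ(G, A)`, natural in `A`, with
`cor ∘ res = [G : H]`. -/
def CoresSpec : Prop :=
  ∀ (k G : Type) [CommRing k] [Group G] [Finite G] (H : Subgroup G) (n : ℕ),
    ∃ cor : ∀ A : Rep.{0} k G, groupCohomology (resSub A H) n ⟶ groupCohomology A n,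
      (∀ (A : Rep.{0} k G) (x : groupCohomology A n),
        (cor A).hom ((resMap A H n).hom x) = H.index • x) ∧
      (∀ (A B : Rep.{0} k G) (f : A ⟶ B) (y : groupCohomology (resSub A H) n),
        (cor B).hom ((coeffMap ((Rep.resFunctor H.subtype).map f) n).hom y) =
          (coeffMap f n).hom ((cor A).hom y))

/-! ## T2. Cyclic groups: Herbrand quotient in cohomological form -/

/-- **T2a.**  For a finite cyclic group, `|H²(G, A)| = [A^G : N_G A]` and
`|H¹(G, A)| = [ker N_G : I_G A]` (both sides `0` when infinite). -/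
def CyclicCardSpec : Prop :=
  ∀ (k G : Type) [CommRing k] [Group G] [Fintype G] [IsCyclic G] (A : Rep.{0} k G),
    Nat.card (groupCohomology A 2) = hat0Card A ∧
    Nat.card (groupCohomology A 1) = hatNeg1Card A

/-- **T2b.**  Herbrand quotient: for a short exact sequence `0 → A → B → C → 0` of
representations of a finite cyclic group, if two of the three have finite `H¹` and `H²`, so has
the third, and `|H²(B)| · |H¹(A)| · |H¹(C)| = |H¹(B)| · |H²(A)| · |H²(C)|`. -/
def HerbrandSpec : Prop :=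
  ∀ (k G : Type) [CommRing k] [Group G] [Finite G] [IsCyclic G]
    (S : ShortComplex (Rep.{0} k G)), S.ShortExact →
    let fin : Rep.{0} k G → Prop :=
      fun A => Finite (groupCohomology A 1) ∧ Finite (groupCohomology A 2)
    (fin S.X₁ → fin S.X₃ → fin S.X₂) ∧ (fin S.X₁ → fin S.X₂ → fin S.X₃) ∧
    (fin S.X₂ → fin S.X₃ → fin S.X₁) ∧
    (fin S.X₁ → fin S.X₂ → fin S.X₃ →
      Nat.card (groupCohomology S.X₂ 2) * Nat.card (groupCohomology S.X₁ 1) *
          Nat.card (groupCohomology S.X₃ 1) =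
        Nat.card (groupCohomology S.X₂ 1) * Nat.card (groupCohomology S.X₁ 2) *
          Nat.card (groupCohomology S.X₃ 2))

/-- **T2c.**  A finite module over a finite cyclic group has Herbrand quotient `1`. -/
def HerbrandFiniteSpec : Prop :=
  ∀ (k G : Type) [CommRing k] [Group G] [Finite G] [IsCyclic G] (A : Rep.{0} k G),
    Finite A.V →
    Finite (groupCohomology A 1) ∧ Finite (groupCohomology A 2) ∧
      Nat.card (groupCohomology A 1) = Nat.card (groupCohomology A 2)

/-! ## T3. Inflation–restriction in degree 2 -/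

/-- **T3.**  If `S ⊴ G` and `H¹(S, A) = 0`, then
`0 → H²(G ⧸ S, A^S) → H²(G, A) → H²(S, A)` is exact. -/
def InfRes2Spec : Prop :=
  ∀ (k G : Type) [CommRing k] [Group G] [Finite G] (A : Rep.{0} k G) (S : Subgroup G) [S.Normal],
    Limits.IsZero (groupCohomology (resSub A S) 1) →
    Function.Injective (infMap A S 2).hom ∧
    (∀ y, (resMap A S 2).hom ((infMap A S 2).hom y) = 0) ∧
    (∀ x, (resMap A S 2).hom x = 0 → ∃ y, (infMap A S 2).hom y = x)

/-! ## T3'. The "ugly lemma" (order of `H²` from the cyclic prime case) -/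

/-- **T3'.**  Let `H¹(H, A) = 0` for all `H ≤ G`.  If for all `K ⊴ H ≤ G` with `[H : K]` prime
`|H²(H ⧸ K, A^K)|` divides `[H : K]`, then `|H²(H, A)|` divides `|H|` for all `H ≤ G`. -/
def UglySpec : Prop :=
  ∀ (k G : Type) [CommRing k] [Group G] [Finite G] (A : Rep.{0} k G),
    (∀ H : Subgroup G, Limits.IsZero (groupCohomology (resSub A H) 1)) →
    (∀ (H : Subgroup G) (K : Subgroup H) [K.Normal], (Nat.card (H ⧸ K)).Prime →
      CardDvd (groupCohomology ((resSub A H).quotientToInvariants K) 2) (Nat.card (H ⧸ K))) →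
    ∀ H : Subgroup G, CardDvd (groupCohomology (resSub A H) 2) (Nat.card H)

/-! ## T4. Cohomological triviality -/

/-- **T4a.**  Twin vanishing: `H¹(H, A) = H²(H, A) = 0` for all `H ≤ G` implies that `A` is
cohomologically trivial. -/
def TwinVanishingSpec : Prop :=
  ∀ (k G : Type) [CommRing k] [Group G] [Finite G] (A : Rep.{0} k G),
    (∀ H : Subgroup G, Limits.IsZero (groupCohomology (resSub A H) 1) ∧
      Limits.IsZero (groupCohomology (resSub A H) 2)) →
    IsCohTriv A

/-- **T4b.**  Coinduced-from-trivial modules are cohomologically trivial. -/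
def CoindCohTrivSpec : Prop :=
  ∀ (k G : Type) [CommRing k] [Group G] [Finite G] (B : Rep.{0} k (⊥ : Subgroup G)),
    IsCohTriv (Rep.coind (⊥ : Subgroup G).subtype B)

/-! ## T5. Tate's theorem -/

/-- **T5a.**  Tate's theorem (generic `k`, assuming `H¹(H, k) = 0` for all `H ≤ G`, which holds
for `k = ℤ`): for a class module `(C, γ)` there are isomorphisms `Ĥⁿ(H, k) ≅ Ĥⁿ⁺²(H, C)` for all
`n : ℤ` and all `H ≤ G`. -/
def TateSpec : Prop :=
  ∀ (k G : Type) [CommRing k] [Group G] [Finite G] (C : Rep.{0} k G) (γ : groupCohomology C 2),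
    (∀ H : Subgroup G, Limits.IsZero (groupCohomology (Rep.trivial k H k) 1)) →
    IsClassModule C γ →
    ∀ (H : Subgroup G) [Fintype H] (n : ℤ),
      Nonempty (tateCohomology (Rep.trivial k H k) n ≅ tateCohomology (resSub C H) (n + 2))

/-- **T5a'.**  `H¹(G, ℤ) = 0` for a finite group `G`. -/
def H1TrivIntSpec : Prop :=
  ∀ (G : Type) [Group G] [Finite G], Limits.IsZero (groupCohomology (Rep.trivial ℤ G ℤ) 1)

/-- **T5b.**  `H³` of a class module over `ℤ` vanishes. -/
def TateH3Spec : Prop :=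
  ∀ (G : Type) [Group G] [Finite G] (C : Rep.{0} ℤ G) (γ : groupCohomology C 2),
    IsClassModule C γ → ∀ H : Subgroup G, Limits.IsZero (groupCohomology (resSub C H) 3)

/-- **T5c.**  Abstract reciprocity isomorphism of a class module over `ℤ`:
`H^ab ≃ C^H / N_H C` (as groups). -/
def TateReciprocitySpec : Prop :=
  ∀ (G : Type) [Group G] [Finite G] (C : Rep.{0} ℤ G) (γ : groupCohomology C 2),
    IsClassModule C γ → ∀ (H : Subgroup G) [Fintype H],
      Nonempty (Additive (Abelianization H) ≃+ hat0 (resSub C H))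

/-! ## T6. Tate–Nakayama for lattices (TENTATIVE: shape to be confirmed by the D-architect) -/

/-- **T6.**  Let `(C, γ)` be a class module over `ℤ` and `R` a `G`-lattice (f.g. free over `ℤ`).
Then `Hom_G(R, C) → Hom(H²(G, R), H²(G, C))`, `f ↦ f_*`, is surjective with kernel
`N_G Hom_ℤ(R, C)`; i.e. `Ĥ⁰(G, Hom(R, C)) ≅ Hom(H²(G, R), H²(G, C))`. -/
def TateNakayamaSpec : Prop :=
  ∀ (G : Type) [Group G] [Fintype G] (C : Rep.{0} ℤ G) (γ : groupCohomology C 2),
    IsClassModule C γ →
    ∀ (R : Rep.{0} ℤ G), @Module.Free ℤ R.V _ _ R.hV2 → @Module.Finite ℤ R.V _ _ R.hV2 →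
      (∀ φ : groupCohomology R 2 →+ groupCohomology C 2,
        ∃ f : R ⟶ C, ∀ x, (coeffMap f 2).hom x = φ x) ∧
      (∀ f : R ⟶ C, (∀ x, (coeffMap f 2).hom x = 0) ↔
        ∃ ψ : R.V →+ C.V, ∀ r, f.hom r = normAdd ψ r)

end Fermat.Agent.S55.T
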