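import Fermat.Agent.S55.T.Spec
import Fermat.Agent.S55.H954.Devissage
import Fermat.Agent.S55.H954.SylowCard

/-!
# T3': the "ugly lemma" — `UglySpec` (helper954)

If `H¹(H, A) = 0` for all `H ≤ G` and `|H²(H ⧸ K, A^K)|` divides `[H : K]` whenever `K ⊴ H ≤ G`
with `[H : K]` prime, then `|H²(H, A)|` divides `|H|` for all `H ≤ G`.
-/

set_option autoImplicit false
set_option linter.unusedSectionVars false
set_option linter.style.haveILetI false

namespace Fermat.Agent.S55.T.H954

open CategoryTheory groupCohomology Fermat.Agent.S55.H954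

section Transport

variable {k G : Type} [CommRing k] [Group G] (A : Rep.{0} k G) (H : Subgroup G) (K : Subgroup H)

/-- Transitivity of restriction, on cohomology: `Hⁿ(K, (A|_H)|_K) ≅ Hⁿ(K', A|_{K'})` where
`K' = K.map H.subtype` is `K` viewed as a subgroup of `G`. -/
noncomputable def resResIso (n : ℕ) :
    groupCohomology (resSub (resSub A H) K) n ≅ groupCohomology (resSub A (K.map H.subtype)) n :=
  groupCohomology.mapIso (K.equivMapOfInjective H.subtype H.subtype_injective)
    (LinearEquiv.refl k A.V) (fun g => by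
      ext x
      rfl) n

lemma card_map_subtype : Nat.card (K.map H.subtype) = Nat.card K :=
  (Nat.card_congr (K.equivMapOfInjective H.subtype H.subtype_injective).toEquiv).symm

end Transport

section Basic

variable {k : Type} [CommRing k]

lemma cardDvd_of_iso {M N : ModuleCat.{0} k} (e : M ≅ N) {m : ℕ} (h : CardDvd N m) :
    CardDvd M m := by
  obtain ⟨hf, hd⟩ := h
  have e' : M ≃ N := e.toLinearEquiv.toEquiv
  exact ⟨Finite.of_equiv N e'.symm, (Nat.card_congr e') ▸ hd⟩

lemma eq_zero_of_iso_of_isZero {M N : ModuleCat.{0} k} (e : M ≅ N) (h : Limits.IsZero N)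
    (x : M) : x = 0 := by
  have hs : Subsingleton N := ModuleCat.isZero_iff_subsingleton.1 h
  have e' : M ≃ N := e.toLinearEquiv.toEquiv
  exact e'.injective (Subsingleton.elim _ _)

end Basic

section Main

variable {k G : Type} [CommRing k] [Group G] [Finite G] (A : Rep.{0} k G)

/-- The `p`-group case of the ugly lemma, by induction on the order. -/
theorem ugly_pgroup
    (h1 : ∀ H : Subgroup G, Limits.IsZero (groupCohomology (resSub A H) 1))
    (h2 : ∀ (H : Subgroup G) (K : Subgroup H) [K.Normal], (Nat.card (H ⧸ K)).Prime →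
      CardDvd (groupCohomology ((resSub A H).quotientToInvariants K) 2) (Nat.card (H ⧸ K)))
    (p : ℕ) [hp : Fact p.Prime] :
    ∀ (n : ℕ) (H : Subgroup G), Nat.card H = p ^ n →
      CardDvd (groupCohomology (resSub A H) 2) (Nat.card H) := by
  intro n
  induction n with
  | zero =>
    intro H hH
    rw [pow_zero] at hH
    have hz : ∀ x : H2 (resSub A H), x = 0 := H2_eq_zero_of_card_eq_one (resSub A H) hH
    haveI : Subsingleton (H2 (resSub A H)) := ⟨fun a b => (hz a).trans (hz b).symm⟩
    refine ⟨inferInstance, ?_⟩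
    rw [Nat.card_unique]
    exact one_dvd _
  | succ n ih =>
    intro H hH
    obtain ⟨K, hK⟩ := Sylow.exists_subgroup_card_pow_prime (G := ↥H) p (n := n)
      (by rw [hH]; exact pow_dvd_pow p (Nat.le_succ n))
    have hidx : K.index = p := by
      have h := K.card_mul_index
      rw [hK, hH, pow_succ] at h
      exact Nat.eq_of_mul_eq_mul_left (pow_pos hp.out.pos n) h
    haveI hKn : K.Normal := Subgroup.normal_of_index_eq_minFac_card (by
      rw [hidx, hH, Nat.pow_minFac (Nat.succ_ne_zero n), hp.out.minFac_eq])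
    have hq : Nat.card (↥H ⧸ K) = p := by rw [← Subgroup.index_eq_card]; exact hidx
    have hQ := h2 H K (by rw [hq]; exact hp.out)
    rw [hq] at hQ
    have hK' : Nat.card (K.map H.subtype) = p ^ n := (card_map_subtype H K).trans hK
    have IH := ih (K.map H.subtype) hK'
    rw [hK'] at IH
    have hKc : CardDvd (groupCohomology (resSub (resSub A H) K) 2) (p ^ n) :=
      cardDvd_of_iso (resResIso A H K 2) IH
    have hK1 : ∀ x : H1 (Rep.res K.subtype (resSub A H)), x = 0 :=
      eq_zero_of_iso_of_isZero (resResIso A H K 1) (h1 (K.map H.subtype))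
    obtain ⟨hfin, hdvd⟩ := H2_card_dvd_mul_of_normal (resSub A H) K hK1 hKc.1 hQ.1 hKc.2 hQ.2
    refine ⟨hfin, ?_⟩
    rw [hH, pow_succ, mul_comm]
    exact hdvd

/-- **T3'** (`UglySpec`), unconditional. -/
theorem ugly : UglySpec := by
  intro k G _ _ _ A h1 h2 H
  refine card_H2_dvd_card_of_sylow (resSub A H) (fun p hp _ => ?_)
  haveI : Fact p.Prime := ⟨hp⟩
  obtain ⟨P⟩ : Nonempty (Sylow p H) := inferInstance
  refine ⟨P, ?_⟩
  have hP : Nat.card (P : Subgroup H) = p ^ ((Nat.card H).factorization p) :=
    Sylow.card_eq_multiplicity P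
  have hP' : Nat.card ((P : Subgroup H).map H.subtype) = p ^ ((Nat.card H).factorization p) :=
    (card_map_subtype H (P : Subgroup H)).trans hP
  have := ugly_pgroup A h1 h2 p _ ((P : Subgroup H).map H.subtype) hP'
  rw [card_map_subtype H (P : Subgroup H)] at this
  exact cardDvd_of_iso (resResIso A H (P : Subgroup H) 2) this

end Main

end Fermat.Agent.S55.T.H954
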