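import Fermat.Agent.S55.T.Spec
import Fermat.Agent.S55.Herbrand.RepBridge

/-!
# S55, layer T, leaves T2a / T2b / T2c (helper895)

* `cyclicCard : CyclicCardSpec`
* `herbrand : HerbrandSpec`
* `herbrandFinite : HerbrandFiniteSpec`

All three are unconditional.  They are deduced from the elementary Herbrand-quotient library
`Fermat.Agent.S55.Herbrand` (index calculus) and Mathlib's computation of the cohomology of a
finite cyclic group.
-/

set_option autoImplicit false

namespace Fermat.Agent.S55.T.H895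

open CategoryTheory groupCohomology Fermat.Agent.S55.Herbrand

section Basic

variable {k G : Type} [CommRing k] [Group G]

/-- additive endomorphism given by the action of `g`. -/
def act (A : Rep.{0} k G) (g : G) : AddMonoid.End A.V := (A.ρ g).toAddMonoidHom

@[simp] lemma act_apply (A : Rep.{0} k G) (g : G) (x : A.V) : act A g x = A.ρ g x := rfl

lemma act_pow_apply (A : Rep.{0} k G) (g : G) (i : ℕ) (x : A.V) :
    (act A g ^ i) x = A.ρ (g ^ i) x := by
  induction i generalizing x with
  | zero => simp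
  | succ i ih =>
    rw [pow_succ, pow_succ]
    change (act A g ^ i) (act A g x) = _
    rw [ih, act_apply, map_mul]
    rfl

lemma mul_comm_of_gen (g : G) (hg : ∀ x, x ∈ Subgroup.zpowers g) (a b : G) : a * b = b * a := by
  obtain ⟨m, rfl⟩ := Subgroup.mem_zpowers_iff.1 (hg a)
  obtain ⟨n, rfl⟩ := Subgroup.mem_zpowers_iff.1 (hg b)
  rw [← zpow_add, ← zpow_add, add_comm]

lemma act_pow_card [Finite G] (A : Rep.{0} k G) (g : G) : act A g ^ Nat.card G = 1 := by
  ext x
  rw [act_pow_apply, pow_card_eq_one', map_one]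
  rfl

/-- equivariance of a morphism of representations, in the form used by the Herbrand library. -/
lemma hom_act {A B : Rep.{0} k G} (f : A ⟶ B) (g : G) (x : A.V) :
    f.hom (act A g x) = act B g (f.hom x) := by
  simp only [act_apply]
  exact Rep.hom_comm_apply f g x

variable [Fintype G]

theorem card_H2 (A : Rep.{0} k G) (g : G) (hg : ∀ x, x ∈ Subgroup.zpowers g) :
    Nat.card (groupCohomology A 2) = h0 (act A g) (Nat.card G) := by
  let inst : CommGroup G := { (inferInstance : Group G) with mul_comm := mul_comm_of_gen g hg }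
  exact card_groupCohomology_even A g hg 2 (by decide)

theorem card_H1 (A : Rep.{0} k G) (g : G) (hg : ∀ x, x ∈ Subgroup.zpowers g) :
    Nat.card (groupCohomology A 1) = h1 (act A g) (Nat.card G) := by
  let inst : CommGroup G := { (inferInstance : Group G) with mul_comm := mul_comm_of_gen g hg }
  exact card_groupCohomology_odd A g hg 1 (by decide)

lemma normN_act_apply (A : Rep.{0} k G) (g : G) (hg : ∀ x, x ∈ Subgroup.zpowers g) (x : A.V) :
    normN (act A g) (Nat.card G) x = A.ρ.norm x := by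
  rw [normN_apply]
  have : A.ρ.norm x = ∑ h : G, A.ρ h x := by
    simp [Representation.norm]
  rw [this, sum_eq_sum_range_pow g hg]
  exact Finset.sum_congr rfl fun i _ => act_pow_apply A g i x

lemma range_normN_act (A : Rep.{0} k G) (g : G) (hg : ∀ x, x ∈ Subgroup.zpowers g) :
    AddMonoidHom.range (normN (act A g) (Nat.card G)) =
      (LinearMap.range A.ρ.norm).toAddSubgroup := by
  ext x
  constructor
  · rintro ⟨y, rfl⟩
    exact ⟨y, (normN_act_apply A g hg y).symm⟩
  · rintro ⟨y, rfl⟩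
    exact ⟨y, normN_act_apply A g hg y⟩

lemma ker_normN_act (A : Rep.{0} k G) (g : G) (hg : ∀ x, x ∈ Subgroup.zpowers g) :
    AddMonoidHom.ker (normN (act A g) (Nat.card G)) =
      (LinearMap.ker A.ρ.norm).toAddSubgroup := by
  ext x
  rw [AddMonoidHom.mem_ker, normN_act_apply A g hg]
  rfl

omit [Fintype G] in
lemma ker_delta_act (A : Rep.{0} k G) (g : G) (hg : ∀ x, x ∈ Subgroup.zpowers g) :
    AddMonoidHom.ker (delta (act A g)) = A.ρ.invariants.toAddSubgroup := by
  ext x
  rw [AddMonoidHom.mem_ker, delta_apply, sub_eq_zero, act_apply]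
  exact (Representation.mem_invariants_iff_of_forall_mem_zpowers A.ρ g hg x).symm

omit [Fintype G] in
lemma range_sub_one_le [Finite G] (A : Rep.{0} k G) (g : G)
    (hg : ∀ x, x ∈ Subgroup.zpowers g) (h : G) :
    LinearMap.range (A.ρ h - 1) ≤ LinearMap.range (A.ρ g - 1) := by
  classical
  obtain ⟨i, -, rfl⟩ :=
    Finset.mem_image.1 ((mem_zpowers_iff_mem_range_orderOf (x := g) (y := h)).1 (hg h))
  rintro _ ⟨x, rfl⟩
  have key : A.ρ (g ^ i) - 1 = (A.ρ g - 1) * ∑ j ∈ Finset.range i, A.ρ g ^ j := by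
    rw [mul_geom_sum, map_pow]
  rw [key]
  exact ⟨(∑ j ∈ Finset.range i, A.ρ g ^ j) x, rfl⟩

omit [Fintype G] in
lemma range_delta_act [Finite G] (A : Rep.{0} k G) (g : G)
    (hg : ∀ x, x ∈ Subgroup.zpowers g) :
    AddMonoidHom.range (delta (act A g)) =
      (⨆ h : G, LinearMap.range (A.ρ h - 1)).toAddSubgroup := by
  have hsup : (⨆ h : G, LinearMap.range (A.ρ h - 1)) = LinearMap.range (A.ρ g - 1) :=
    le_antisymm (iSup_le fun h => range_sub_one_le A g hg h)
      (le_iSup (fun h : G => LinearMap.range (A.ρ h - 1)) g)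
  rw [hsup]
  ext x
  constructor
  · rintro ⟨y, rfl⟩
    exact ⟨y, rfl⟩
  · rintro ⟨y, rfl⟩
    exact ⟨y, rfl⟩

theorem hat0Card_eq (A : Rep.{0} k G) (g : G) (hg : ∀ x, x ∈ Subgroup.zpowers g) :
    hat0Card A = h0 (act A g) (Nat.card G) := by
  rw [h0_eq_relIndex, ker_delta_act A g hg, range_normN_act A g hg]
  rfl

theorem hatNeg1Card_eq (A : Rep.{0} k G) (g : G) (hg : ∀ x, x ∈ Subgroup.zpowers g) :
    hatNeg1Card A = h1 (act A g) (Nat.card G) := by
  rw [h1_eq_relIndex, ker_normN_act A g hg, range_delta_act A g hg]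
  rfl

end Basic

/-- **T2a.** -/
theorem cyclicCard : CyclicCardSpec := by
  intro k G _ _ _ _ A
  obtain ⟨g, hg⟩ := IsCyclic.exists_generator (α := G)
  exact ⟨(card_H2 A g hg).trans (hat0Card_eq A g hg).symm,
    (card_H1 A g hg).trans (hatNeg1Card_eq A g hg).symm⟩

section Fin

variable {k G : Type} [CommRing k] [Group G] [Fintype G]

/-- finiteness of `H¹` and `H²` is the statement that the Herbrand quotient is defined. -/
lemma fin_iff (A : Rep.{0} k G) (g : G) (hg : ∀ x, x ∈ Subgroup.zpowers g) :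
    (Finite (groupCohomology A 1) ∧ Finite (groupCohomology A 2)) ↔
      HerbrandDefined (act A g) (Nat.card G) := by
  rw [herbrandDefined_iff, ← card_H2 A g hg, ← card_H1 A g hg]
  constructor
  · rintro ⟨h1, h2⟩
    exact ⟨Nat.card_pos.ne', Nat.card_pos.ne'⟩
  · rintro ⟨h2, h1⟩
    exact ⟨(Nat.card_ne_zero.1 h1).2, (Nat.card_ne_zero.1 h2).2⟩

end Fin

/-- **T2b.** -/
theorem herbrand : HerbrandSpec := by
  intro k G _ _ _ _ S hS
  let _ : Fintype G := Fintype.ofFinite G
  obtain ⟨g, hg⟩ := IsCyclic.exists_generator (α := G)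
  have hi : Function.Injective S.f.hom := (Rep.mono_iff_injective S.f).1 hS.2
  have hp : Function.Surjective S.g.hom := (Rep.epi_iff_surjective S.g).1 hS.3
  have hrk : LinearMap.range S.f.hom.toLinearMap = LinearMap.ker S.g.hom.toLinearMap :=
    (hS.exact.map (forget₂ (Rep k G) (ModuleCat k))).moduleCat_range_eq_ker
  set i : S.X₁.V →+ S.X₂.V := S.f.hom.toLinearMap.toAddMonoidHom with hi_def
  set p : S.X₂.V →+ S.X₃.V := S.g.hom.toLinearMap.toAddMonoidHom with hp_def
  have hi' : Function.Injective i := hi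
  have hp' : Function.Surjective p := hp
  have hex : p.ker = i.range := by
    ext x
    have := congrArg (fun M : Submodule k S.X₂.V => x ∈ M) hrk
    simp only [LinearMap.mem_range, LinearMap.mem_ker, eq_iff_iff] at this
    rw [AddMonoidHom.mem_ker, AddMonoidHom.mem_range]
    exact this.symm
  have hiσ : ∀ a, i (act S.X₁ g a) = act S.X₂ g (i a) := fun a => hom_act S.f g a
  have hpσ : ∀ b, p (act S.X₂ g b) = act S.X₃ g (p b) := fun b => hom_act S.g g b
  have hσ : act S.X₂ g ^ Nat.card G = 1 := act_pow_card S.X₂ g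
  intro fin
  have hfin : ∀ A : Rep.{0} k G, fin A ↔ HerbrandDefined (act A g) (Nat.card G) :=
    fun A => fin_iff A g hg
  refine ⟨?_, ?_, ?_, ?_⟩
  · intro h1 h3
    exact (hfin _).2 (herbrandDefined_mid hσ hi' hp' hex hiσ hpσ ((hfin _).1 h1) ((hfin _).1 h3))
  · intro h1 h2
    exact (hfin _).2
      (herbrandDefined_right hσ hi' hp' hex hiσ hpσ ((hfin _).1 h1) ((hfin _).1 h2))
  · intro h2 h3
    exact (hfin _).2
      (herbrandDefined_left hσ hi' hp' hex hiσ hpσ ((hfin _).1 h2) ((hfin _).1 h3))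
  · intro _ _ _
    rw [card_H2 S.X₂ g hg, card_H1 S.X₁ g hg, card_H1 S.X₃ g hg, card_H1 S.X₂ g hg,
      card_H2 S.X₁ g hg, card_H2 S.X₃ g hg]
    have hex6 := hexagon_of_exact (fA := delta (act S.X₁ g)) (gA := normN (act S.X₁ g) (Nat.card G))
      (fB := delta (act S.X₂ g)) (gB := normN (act S.X₂ g) (Nat.card G))
      (fC := delta (act S.X₃ g)) (gC := normN (act S.X₃ g) (Nat.card G))
      (delta_normN hσ) (normN_delta hσ) hi' hp' hex
      (map_delta_of_comm hiσ) (map_normN_of_comm hiσ _)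
      (map_delta_of_comm hpσ) (map_normN_of_comm hpσ _)
    -- hex6 : h0 A * h0 C * h1 B = h1 A * h1 C * h0 B
    change h0 (act S.X₁ g) _ * h0 (act S.X₃ g) _ * h1 (act S.X₂ g) _ =
      h1 (act S.X₁ g) _ * h1 (act S.X₃ g) _ * h0 (act S.X₂ g) _ at hex6
    linarith [hex6]

/-- **T2c.** -/
theorem herbrandFinite : HerbrandFiniteSpec := by
  intro k G _ _ _ _ A hA
  let _ : Fintype G := Fintype.ofFinite G
  obtain ⟨g, hg⟩ := IsCyclic.exists_generator (α := G)
  have : Finite A.V := hA
  have hdef : HerbrandDefined (act A g) (Nat.card G) := herbrandDefined_of_finite _ _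
  obtain ⟨f1, f2⟩ := (fin_iff A g hg).2 hdef
  refine ⟨f1, f2, ?_⟩
  rw [card_H1 A g hg, card_H2 A g hg]
  exact (h0_eq_h1_of_finite (act_pow_card A g)).symm

end Fermat.Agent.S55.T.H895
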