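import Fermat.Agent.S55.T.Spec
import Fermat.Agent.S55.H572.Cores

/-!
# S55 layer T, leaf T1: `CoresSpec`, `ResIndexSpec`, `CardTorsionSpec` (helper572)

Corestriction in ALL degrees by dimension shifting (`H572.cor`), `cor ∘ res = [G : H]`,
naturality in the coefficients; hence `res_H x = 0 ⇒ [G : H] • x = 0` and `|G| • Hⁿ(G, A) = 0`
for `n ≥ 1`.
-/

set_option autoImplicit false

open CategoryTheory groupCohomology

namespace Fermat.Agent.S55.T.H572

open Fermat.Agent.S55.H572 in
/-- **T1c.** Corestriction, natural in the coefficients, with `cor ∘ res = [G : H]`. -/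
theorem cores : CoresSpec := by
  intro k G _ _ _ H n
  letI : Fintype (G ⧸ H) := Fintype.ofFinite _
  refine ⟨fun A => cor H n A, ?_, ?_⟩
  · intro A x
    have h := congrArg (fun f => f.hom x) (resH_cor H n A)
    exact h
  · intro A B f y
    have h := congrArg (fun g => g.hom y) (cor_natural H n f)
    exact h

open Fermat.Agent.S55.H572 in
/-- **T1a.** If `res_H x = 0` then `[G : H] • x = 0`. -/
theorem resIndex : ResIndexSpec := by
  intro k G _ _ _ A H n _ x hx
  letI : Fintype (G ⧸ H) := Fintype.ofFinite _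
  exact index_nsmul_eq_zero_of_resH_eq_zero H n A x hx

/-- **T1b.** `|G|` kills `Hⁿ(G, A)` for `n ≥ 1`. -/
theorem cardTorsion : CardTorsionSpec := by
  intro k G _ _ _ A n hn x
  obtain ⟨m, rfl⟩ : ∃ m, n = m + 1 := ⟨n - 1, by omega⟩
  have h0 : Limits.IsZero (groupCohomology (resSub A (⊥ : Subgroup G)) (m + 1)) :=
    isZero_groupCohomology_succ_of_subsingleton _ m
  have hx : (resMap A (⊥ : Subgroup G) (m + 1)).hom x = 0 :=
    (ModuleCat.isZero_iff_subsingleton.mp h0).elim _ _
  have := resIndex k G A ⊥ (m + 1) (Nat.succ_pos m) x hx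
  rwa [Subgroup.index_bot] at this

end Fermat.Agent.S55.T.H572
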