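import Fermat.Agent.S55.T.Spec
import Fermat.Agent.S55.H572.DimShift

/-!
# S55 layer T, leaf T4b: `CoindCohTrivSpec` (helper572)

Modules coinduced from the trivial subgroup are cohomologically trivial.
Proof: `res_H (coind_1^G B) ≅ coind_1^H (Fun(G ⧸ H, B))` (`H572.resCoindBotIso`) and the vanishing
of Tate cohomology of `coind_1` in all degrees (`H572.isZero_tateCohomology_coind_bot`).
-/

set_option autoImplicit false

open CategoryTheory

namespace Fermat.Agent.S55.T.H572

/-- **T4b.** Coinduced-from-trivial modules are cohomologically trivial. -/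
theorem coindCohTriv : CoindCohTrivSpec := by
  intro k G _ _ _ B H _ n
  exact Fermat.Agent.S55.H572.isZero_tateCohomology_res_coind_bot H B n

/-- Variant for `coind₁ A = Fun(G, A)`, `A : Rep k G`. -/
theorem isCohTriv_coind₁ {k G : Type} [CommRing k] [Group G] [Finite G] (A : Rep.{0} k G) :
    IsCohTriv (Fermat.Agent.S55.H572.coind₁ A) :=
  coindCohTriv k G _

end Fermat.Agent.S55.T.H572
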