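import Fermat.Agent.S55.T.Hat0H539

/-!
# S55, layer T, leaves T5a' (`H1TrivIntSpec`) and T5c (`TateReciprocitySpec`)

* `h1TrivInt : H1TrivIntSpec` (unconditional): `H¹(G, ℤ) = 0` for finite `G`.
* `tateNegTwoEquivAb`: `Ĥ⁻²(G, ℤ) ≃+ G^ab`.
* `tateReciprocity_of (h : TateSpec) : TateReciprocitySpec`.
-/

set_option autoImplicit false

namespace Fermat.Agent.S55.T.H539

open CategoryTheory groupCohomology groupHomology

/-- **T5a'.**  `H¹(G, ℤ) = 0` for a finite group `G`. -/
theorem h1TrivInt : H1TrivIntSpec := by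
  intro G _ _
  have hsub : Subsingleton (Additive G →+ ℤ) := by
    refine ⟨fun f g => ?_⟩
    have key : ∀ f : Additive G →+ ℤ, f = 0 := by
      intro f
      refine AddMonoidHom.ext fun x => ?_
      have hx : Nat.card G • x = 0 :=
        card_nsmul_eq_zero' (G := Additive G) (x := x)
      have h3 : Nat.card G • f x = 0 := by rw [← map_nsmul, hx, map_zero]
      have hpos : Nat.card G ≠ 0 := Nat.card_pos.ne'
      simpa [hpos] using h3
    rw [key f, key g]
  have e := (H1IsoOfIsTrivial (Rep.trivial ℤ G ℤ)).toLinearEquiv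
  have : Subsingleton (groupCohomology (Rep.trivial ℤ G ℤ) 1) := e.toEquiv.subsingleton
  exact ModuleCat.isZero_of_subsingleton _

/-- `Ĥ⁻²(G, ℤ) ≃+ G^ab`. -/
noncomputable def tateNegTwoEquivAb (G : Type) [Group G] [Fintype G] :
    tateCohomology (Rep.trivial ℤ G ℤ) (-2) ≃+ Additive (Abelianization G) :=
  ((moduleIsoToAddEquiv ((TateCohomology.isoGroupHomology (R := ℤ) (G := G) (-2) 1
      (by norm_num)).app (Rep.trivial ℤ G ℤ))).trans
    (H1AddEquivOfIsTrivial (Rep.trivial ℤ G ℤ))).trans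
    (TensorProduct.rid ℤ (Additive (Abelianization G))).toAddEquiv

/-- **T5c.**  Abstract reciprocity isomorphism `H^ab ≃ C^H / N_H C` of a class module, from
Tate's theorem. -/
theorem tateReciprocity_of (h : TateSpec) : TateReciprocitySpec := by
  intro G _ _ C γ hC H _
  obtain ⟨e⟩ := h ℤ G C γ (fun K => h1TrivInt K) hC H (-2)
  have e' : tateCohomology (Rep.trivial ℤ H ℤ) (-2) ≅ tateCohomology (resSub C H) 0 := e
  exact ⟨(tateNegTwoEquivAb H).symm.trans
    ((moduleIsoToAddEquiv e').trans (tateZeroAddEquivHat0 (resSub C H)))⟩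

end Fermat.Agent.S55.T.H539
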