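import Fermat.Agent.S55.T.Spec

/-!
# S55, layer T: interface additions (v2).  Nothing in `Spec.lean` changes.

* `ClassModuleOfCyclicSpec` : bridge from the "numerical" class-module statement produced by
  layers L / G (`H¹(H, C) = 0`, `H²(H, C) ≃+ ZMod |H|` for all `H ≤ G`) to `IsClassModule`.
* `SplitModuleSpec` : the splitting module of a class module (output of the T5a owners, input of
  T6).
* `NakayamaSpec` : `Hom(lattice, coh. trivial)` is cohomologically trivial (Serre, Local Fields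
  IX §5–7), input of T6.
* `LatticeDualitySpec` : elementary duality `Ĥ⁰(G, Hom(R, ℤ)) ≅ Hom(Ĥ⁰(G, R), ℤ/|G|)`.
-/

set_option autoImplicit false

open CategoryTheory groupCohomology

namespace Fermat.Agent.S55.T

/-- **T5d.**  Over `ℤ`: if `H¹(H, C) = 0` and `H²(H, C)` is cyclic of order `|H|` for every
subgroup `H ≤ G`, then EVERY generator `γ` of `H²(G, C)` makes `(C, γ)` a class module; in
particular a fundamental class exists.  (Proof: `cor ∘ res = [G : H]`, i.e. `ResIndexSpec`.) -/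
def ClassModuleOfCyclicSpec : Prop :=
  ∀ (G : Type) [Group G] [Finite G] (C : Rep.{0} ℤ G),
    (∀ H : Subgroup G, Limits.IsZero (groupCohomology (resSub C H) 1)) →
    (∀ H : Subgroup G, Nonempty (groupCohomology (resSub C H) 2 ≃+ ZMod (Nat.card H))) →
    (∃ γ : groupCohomology C 2, IsClassModule C γ) ∧
    (∀ γ : groupCohomology C 2, (∀ x : groupCohomology C 2, ∃ c : ℤ, x = c • γ) →
      IsClassModule C γ)

/-- **T5e.**  Splitting module of a class module `(C, γ)` over `ℤ`: short exact sequences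
`0 → C → X → I → 0` and `0 → I → P → ℤ → 0` with `X` and `P` cohomologically trivial. -/
def SplitModuleSpec : Prop :=
  ∀ (G : Type) [Group G] [Finite G] (C : Rep.{0} ℤ G) (γ : groupCohomology C 2),
    IsClassModule C γ →
    ∃ (X I P : Rep.{0} ℤ G) (i : C ⟶ X) (π : X ⟶ I) (j : I ⟶ P) (ε : P ⟶ Rep.trivial ℤ G ℤ)
      (w₁ : i ≫ π = 0) (w₂ : j ≫ ε = 0),
      (ShortComplex.mk i π w₁).ShortExact ∧ (ShortComplex.mk j ε w₂).ShortExact ∧
      IsCohTriv X ∧ IsCohTriv P

/-- **T6a.**  Nakayama: if `X` is cohomologically trivial and `R` is a `G`-lattice (finitely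
generated free over `ℤ`), then `Hom_ℤ(R, X)` is cohomologically trivial. -/
def NakayamaSpec : Prop :=
  ∀ (G : Type) [Group G] [Finite G] (X R : Rep.{0} ℤ G),
    @Module.Free ℤ R.V _ _ R.hV2 → @Module.Finite ℤ R.V _ _ R.hV2 →
    IsCohTriv X → IsCohTriv ((Rep.ihom R).obj X)

/-- **T6b.**  Elementary lattice duality in degree `0`: for a `G`-lattice `R` and `n = |G|`,
a `G`-invariant `r ∈ R^G` is a norm iff `g r ∈ nℤ` for every `G`-equivariant additive
`g : R → ℤ`; and an equivariant `g : R → ℤ` is a norm `N_G ψ` iff `g (R^G) ⊆ nℤ`. -/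
def LatticeDualitySpec : Prop :=
  ∀ (G : Type) [Group G] [Fintype G] (R : Rep.{0} ℤ G),
    @Module.Free ℤ R.V _ _ R.hV2 → @Module.Finite ℤ R.V _ _ R.hV2 →
    (∀ r : R.V, (∀ g : G, R.ρ g r = r) →
      ((∃ s : R.V, r = ∑ g : G, R.ρ g s) ↔
        ∀ f : R.V →+ ℤ, (∀ (g : G) (x : R.V), f (R.ρ g x) = f x) →
          (Fintype.card G : ℤ) ∣ f r)) ∧
    (∀ f : R.V →+ ℤ, (∀ (g : G) (x : R.V), f (R.ρ g x) = f x) →
      ((∃ ψ : R.V →+ ℤ, ∀ x, f x = ∑ g : G, ψ (R.ρ g⁻¹ x)) ↔
        ∀ r : R.V, (∀ g : G, R.ρ g r = r) → (Fintype.card G : ℤ) ∣ f r))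

end Fermat.Agent.S55.T
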