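import Mathlib

/-!
# The `ℤ`-scalar diamond

For `M : ModuleCat ℤ` (e.g. `groupCohomology A n` with `A : Rep ℤ G`) there are two scalar
actions of `ℤ`: the one of the `Module ℤ M` instance (this is what appears when a statement that
is generic in the coefficient ring `k` is instantiated at `k := ℤ`) and the `zsmul` of the
additive group (this is what `c • x` elaborates to when `c : ℤ` is written directly).
They are equal but not syntactically; `modSMul_eq_zsmul` rewrites the former into the latter
(`rw [modSMul_eq_zsmul]` / `simp only [modSMul_eq_zsmul]`).
-/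

set_option autoImplicit false

namespace Fermat.Agent.S55.T

theorem modSMul_eq_zsmul {M : Type*} [AddCommGroup M] (inst : Module ℤ M) (n : ℤ) (x : M) :
    (@HSMul.hSMul ℤ M M (@instHSMul ℤ M inst.toSMul) n x) =
      @HSMul.hSMul ℤ M M (@instHSMul ℤ M ZSMul.toSMul) n x :=
  int_smul_eq_zsmul inst n x

end Fermat.Agent.S55.T
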