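import Fermat.Agent.S55.T.Spec2
import Fermat.Agent.S55.T.IntSMul
import Fermat.Agent.S55.H119.ResCoresRep

/-!
# T5d: `ClassModuleOfCyclicSpec` (helper53)

Bridge from the numerical class-module statement (`H¹(H, C) = 0`, `H²(H, C) ≃+ ZMod |H|` for all
`H ≤ G`) to `IsClassModule C γ` for every generator `γ` of `H²(G, C)`.
-/

set_option autoImplicit false
set_option linter.style.haveILetI false

open CategoryTheory groupCohomology

namespace Fermat.Agent.S55.T.H53

/-- In a group isomorphic to `ZMod m`, every element is killed by `m`. -/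
lemma nsmul_eq_zero_of_equiv_zmod {M : Type*} [AddCommGroup M] {m : ℕ} (e : M ≃+ ZMod m)
    (x : M) : m • x = 0 := by
  apply e.injective
  rw [map_nsmul, map_zero]
  simp

/-- In a group isomorphic to `ZMod m` (`m ≠ 0`), an element of additive order `m` generates. -/
lemma exists_zsmul_of_addOrderOf_eq {M : Type*} [AddCommGroup M] {m : ℕ} (hm : m ≠ 0)
    (e : M ≃+ ZMod m) (y : M) (hy : addOrderOf y = m) (x : M) : ∃ c : ℤ, x = c • y := by
  haveI : NeZero m := ⟨hm⟩
  haveI : Finite M := Finite.of_equiv _ e.symm.toEquiv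
  have hcard : Nat.card M = m := by
    rw [Nat.card_congr e.toEquiv, Nat.card_eq_fintype_card, ZMod.card]
  have htop : AddSubgroup.zmultiples y = ⊤ := by
    apply AddSubgroup.eq_top_of_card_eq
    rw [Nat.card_zmultiples, hy, hcard]
  have hx : x ∈ AddSubgroup.zmultiples y := htop ▸ AddSubgroup.mem_top x
  obtain ⟨c, hc⟩ := AddSubgroup.mem_zmultiples_iff.1 hx
  exact ⟨c, hc.symm⟩

/-- A generator of a group isomorphic to `ZMod m` has additive order `m`. -/
lemma addOrderOf_eq_of_generates {M : Type*} [AddCommGroup M] {m : ℕ} (hm : m ≠ 0)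
    (e : M ≃+ ZMod m) (γ : M) (hγ : ∀ x : M, ∃ c : ℤ, x = c • γ) : addOrderOf γ = m := by
  haveI : NeZero m := ⟨hm⟩
  haveI : Finite M := Finite.of_equiv _ e.symm.toEquiv
  have hcard : Nat.card M = m := by
    rw [Nat.card_congr e.toEquiv, Nat.card_eq_fintype_card, ZMod.card]
  have htop : AddSubgroup.zmultiples γ = ⊤ := by
    rw [eq_top_iff]
    intro x _
    obtain ⟨c, hc⟩ := hγ x
    exact AddSubgroup.mem_zmultiples_iff.2 ⟨c, hc.symm⟩
  rw [← Nat.card_zmultiples, htop, ← hcard]
  exact AddSubgroup.card_top (G := M)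


section Top

variable {k G : Type} [CommRing k] [Group G] (C : Rep.{0} k G)

/-- `Hⁿ(⊤, C) ≅ Hⁿ(G, C)` (restriction to the top subgroup is an isomorphism). -/
noncomputable def topIso (n : ℕ) :
    groupCohomology (resSub C (⊤ : Subgroup G)) n ≅ groupCohomology C n :=
  groupCohomology.mapIso (A := C) (B := resSub C (⊤ : Subgroup G))
    (Subgroup.topEquiv (G := G)) (LinearEquiv.refl k C.V) (fun _ => rfl) n

end Top

section Main

variable {G : Type} [Group G] [Finite G] (C : Rep.{0} ℤ G)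

theorem classModule_of_generator
    (hH1 : ∀ H : Subgroup G, Limits.IsZero (groupCohomology (resSub C H) 1))
    (hH2 : ∀ H : Subgroup G, Nonempty (groupCohomology (resSub C H) 2 ≃+ ZMod (Nat.card H)))
    (γ : groupCohomology C 2) (hγ : ∀ x : groupCohomology C 2, ∃ c : ℤ, x = c • γ) :
    IsClassModule C γ := by
  classical
  -- the order of `γ` is `|G|`
  have hG0 : Nat.card G ≠ 0 := Nat.card_pos.ne'
  obtain ⟨eT⟩ := hH2 ⊤
  have eG : groupCohomology C 2 ≃+ ZMod (Nat.card G) :=
    ((topIso C 2).symm.toLinearEquiv.toAddEquiv.trans eT).trans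
      (ZMod.ringEquivCongr (Subgroup.card_top (G := G))).toAddEquiv
  have hord : addOrderOf γ = Nat.card G := addOrderOf_eq_of_generates hG0 eG γ hγ
  intro H
  obtain ⟨eH⟩ := hH2 H
  have hH0 : Nat.card H ≠ 0 := Nat.card_pos.ne'
  set y := (resMap C H 2).hom γ with hy
  have h4 : Nat.card H • y = 0 := nsmul_eq_zero_of_equiv_zmod eH y
  have h3 : ∀ c : ℤ, c • y = 0 → (Nat.card H : ℤ) ∣ c := by
    intro c hc
    have hres : (resMap C H 2).hom (c • γ) = 0 := by
      rw [map_zsmul]; exact hc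
    have hidx : H.index • (c • γ) = 0 :=
      Fermat.Agent.S55.H119.index_nsmul_eq_zero_of_resMap_eq_zero_two C H (c • γ) hres
    have hz : ((H.index : ℤ) * c) • γ = 0 := by
      rw [mul_smul, natCast_zsmul]; exact hidx
    have hdvd : (Nat.card G : ℤ) ∣ (H.index : ℤ) * c := by
      rw [← hord]; exact (addOrderOf_dvd_iff_zsmul_eq_zero).2 hz
    have hmul : (Nat.card G : ℤ) = (H.index : ℤ) * (Nat.card H : ℤ) := by
      rw [← Nat.cast_mul, mul_comm, Subgroup.card_mul_index]
    rw [hmul] at hdvd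
    have hidx0 : (H.index : ℤ) ≠ 0 := by
      exact_mod_cast (Subgroup.index_ne_zero_of_finite (H := H))
    exact (mul_dvd_mul_iff_left hidx0).1 hdvd
  have hordy : addOrderOf y = Nat.card H := by
    apply Nat.dvd_antisymm
    · exact addOrderOf_dvd_of_nsmul_eq_zero h4
    · have := h3 (addOrderOf y) (by rw [natCast_zsmul]; exact addOrderOf_nsmul_eq_zero y)
      exact_mod_cast this
  refine ⟨hH1 H, ?_, ?_, ?_⟩
  · intro x
    obtain ⟨c, hc⟩ := exists_zsmul_of_addOrderOf_eq hH0 eH y hordy x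
    exact ⟨c, by rw [modSMul_eq_zsmul]; exact hc⟩
  · intro c hc
    rw [modSMul_eq_zsmul] at hc
    obtain ⟨d, hd⟩ := h3 c hc
    exact ⟨d, by rw [hd]⟩
  · rw [modSMul_eq_zsmul]
    have : ((Nat.card H : ℕ) : ℤ) • y = 0 := by rw [natCast_zsmul]; exact h4
    simpa using this

theorem classModuleOfCyclic : ClassModuleOfCyclicSpec := by
  intro G _ _ C hH1 hH2
  have hG0 : Nat.card G ≠ 0 := Nat.card_pos.ne'
  obtain ⟨eT⟩ := hH2 ⊤
  have eG : groupCohomology C 2 ≃+ ZMod (Nat.card G) :=
    ((topIso C 2).symm.toLinearEquiv.toAddEquiv.trans eT).trans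
      (ZMod.ringEquivCongr (Subgroup.card_top (G := G))).toAddEquiv
  refine ⟨⟨eG.symm 1, classModule_of_generator C hH1 hH2 _ ?_⟩,
    fun γ hγ => classModule_of_generator C hH1 hH2 γ hγ⟩
  intro x
  haveI : NeZero (Nat.card G) := ⟨hG0⟩
  refine ⟨((eG x).val : ℤ), ?_⟩
  apply eG.injective
  rw [map_zsmul, AddEquiv.apply_symm_apply]
  simp

end Main

end Fermat.Agent.S55.T.H53
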