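import Fermat.Agent.S55.T.Spec
import Fermat.Agent.S55.H954.H2InfRes

/-!
# T3: inflation–restriction in degree 2 — `InfRes2Spec` (helper954)
-/

set_option autoImplicit false

namespace Fermat.Agent.S55.T.H954

open CategoryTheory groupCohomology Fermat.Agent.S55.H954

/-- **T3** (`InfRes2Spec`), unconditional. -/
theorem infRes2 : InfRes2Spec := by
  intro k G _ _ _ A S _ hz
  have h : ∀ x : H1 (Rep.res S.subtype A), x = 0 := fun x =>
    (ModuleCat.isZero_iff_subsingleton.1 hz).elim x 0
  refine ⟨inf_injective A S h, fun y => ?_, fun x hx => exists_inf_eq_of_res_eq_zero A S h x hx⟩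
  have := (H2InfRes A S).zero
  exact congr($this y)

end Fermat.Agent.S55.T.H954
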