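import Fermat.Agent.S55.T.Spec2

/-!
# S55 / layer T / leaf T6b (helper359): elementary duality of `G`-lattices in degree `0`

`latticeDuality : LatticeDualitySpec`.

Abstract form: `V` a finitely generated free abelian group with an action `a : G → V →+ V` of a
finite group `G` of order `n`, `Nrm = ∑_g a g`.
* an invariant `r` is a norm iff `n ∣ f r` for every invariant functional `f : V →+ ℤ`
  (`exists_norm_eq_iff`);
* an invariant functional `f` is of the form `ψ ∘ Nrm` iff `n ∣ f r` for every invariant `r`
  (`exists_functional_norm_iff`).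
-/

set_option autoImplicit false
set_option linter.unusedSectionVars false

namespace Fermat.Agent.S55.T.H359

section Abstract

variable {G : Type} [Group G] [Fintype G] {V : Type} [AddCommGroup V]
  (a : G → V →+ V)

/-- the norm `∑_g a g` -/
noncomputable def latNorm : V →+ V := ∑ g : G, a g

lemma latNorm_apply (x : V) : latNorm a x = ∑ g : G, a g x := by
  unfold latNorm
  rw [AddMonoidHom.finsetSum_apply]

variable {a}

lemma latNorm_act (hmul : ∀ g h x, a (g * h) x = a g (a h x)) (h : G) (x : V) :
    latNorm a (a h x) = latNorm a x := by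
  rw [latNorm_apply, latNorm_apply]
  simp_rw [← hmul]
  exact Fintype.sum_equiv (Equiv.mulRight h) _ _ (fun g => rfl)

lemma act_latNorm (hmul : ∀ g h x, a (g * h) x = a g (a h x)) (h : G) (x : V) :
    a h (latNorm a x) = latNorm a x := by
  rw [latNorm_apply, map_sum]
  simp_rw [← hmul]
  exact Fintype.sum_equiv (Equiv.mulLeft h) _ _ (fun g => rfl)

lemma latNorm_of_inv {r : V} (hr : ∀ g, a g r = r) :
    latNorm a r = (Fintype.card G : ℤ) • r := by
  rw [latNorm_apply]
  simp_rw [hr]
  rw [Finset.sum_const, Finset.card_univ, natCast_zsmul]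

lemma functional_latNorm {f : V →+ ℤ} (hf : ∀ g x, f (a g x) = f x) (x : V) :
    f (latNorm a x) = (Fintype.card G : ℤ) * f x := by
  rw [latNorm_apply, map_sum]
  simp_rw [hf]
  rw [Finset.sum_const, Finset.card_univ, nsmul_eq_mul]

/-- In a finitely generated free abelian group, an element all of whose images under
functionals are divisible by `n` is divisible by `n`. -/
lemma exists_zsmul_eq_of_forall_dvd {M : Type} [AddCommGroup M] [Module.Free ℤ M]
    [Module.Finite ℤ M] (n : ℤ) (y : M) (h : ∀ φ : M →+ ℤ, n ∣ φ y) : ∃ z : M, y = n • z := by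
  classical
  let b := Module.Free.chooseBasis ℤ M
  have hc : ∀ i, n ∣ b.repr y i := fun i => h ((b.coord i).toAddMonoidHom)
  choose c hc' using hc
  refine ⟨∑ i, c i • b i, ?_⟩
  conv_lhs => rw [← b.sum_repr y]
  rw [Finset.smul_sum]
  refine Finset.sum_congr rfl fun i _ => ?_
  rw [hc' i, mul_smul]

variable [Module.Free ℤ V] [Module.Finite ℤ V]

/-- **(1)** an invariant element is a norm iff all invariant functionals take values in `nℤ`
on it. -/
theorem exists_norm_eq_iff (hmul : ∀ g h x, a (g * h) x = a g (a h x))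
    {r : V} (hr : ∀ g, a g r = r) :
    (∃ s : V, r = latNorm a s) ↔
      ∀ f : V →+ ℤ, (∀ g x, f (a g x) = f x) → (Fintype.card G : ℤ) ∣ f r := by
  constructor
  · rintro ⟨s, rfl⟩ f hf
    rw [functional_latNorm hf]
    exact dvd_mul_right _ _
  · intro h
    -- the lattice `M = Nrm V`
    let Nl : V →ₗ[ℤ] V := (latNorm a).toIntLinearMap
    let M : Submodule ℤ V := LinearMap.range Nl
    let y : M := ⟨latNorm a r, ⟨r, rfl⟩⟩
    have hy : ∀ φ : M →+ ℤ, (Fintype.card G : ℤ) ∣ φ y := by
      intro φ
      let f : V →+ ℤ := φ.comp (Nl.rangeRestrict).toAddMonoidHom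
      have hf : ∀ g x, f (a g x) = f x := by
        intro g x
        change φ (Nl.rangeRestrict (a g x)) = φ (Nl.rangeRestrict x)
        congr 1
        apply Subtype.ext
        exact latNorm_act hmul g x
      have h1 := h f hf
      have h2 : f r = φ y := rfl
      rwa [h2] at h1
    obtain ⟨z, hz⟩ := exists_zsmul_eq_of_forall_dvd _ y hy
    obtain ⟨s, hs⟩ := z.2
    refine ⟨s, ?_⟩
    have h3 : (Fintype.card G : ℤ) • r = (Fintype.card G : ℤ) • (z : V) := by
      rw [← latNorm_of_inv hr]
      exact congrArg Subtype.val hz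
    have hn : (Fintype.card G : ℤ) ≠ 0 := by
      exact_mod_cast Fintype.card_ne_zero
    have h4 : r = (z : V) := smul_right_injective V hn h3
    rw [h4, ← hs]
    rfl

/-- the invariants as a `ℤ`-submodule -/
def latInv (a : G → V →+ V) : Submodule ℤ V where
  carrier := {r | ∀ g, a g r = r}
  add_mem' := fun {x y} hx hy g => by rw [map_add, hx g, hy g]
  zero_mem' := fun g => map_zero _
  smul_mem' := fun c x hx g => by rw [map_zsmul, hx g]

omit [Fintype G] [Module.Free ℤ V] [Module.Finite ℤ V] in
lemma mem_latInv {r : V} : r ∈ latInv a ↔ ∀ g, a g r = r := Iff.rfl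

omit [Fintype G] [Group G] in
/-- the invariants form a saturated sublattice, so the quotient is torsion-free -/
lemma isTorsionFree_quot_latInv : Module.IsTorsionFree ℤ (V ⧸ latInv a) := by
  refine Module.IsTorsionFree.of_smul_eq_zero fun c m h => ?_
  by_cases hc : c = 0
  · exact Or.inl hc
  · right
    obtain ⟨x, rfl⟩ := Submodule.Quotient.mk_surjective _ m
    rw [← Submodule.Quotient.mk_smul, Submodule.Quotient.mk_eq_zero] at h
    rw [Submodule.Quotient.mk_eq_zero]
    intro g
    have h1 := h g
    rw [map_zsmul] at h1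
    exact smul_right_injective V hc h1

omit [Fintype G] [Group G] in
/-- a retraction of `V` onto the invariants -/
lemma exists_retraction_latInv :
    ∃ π : V →ₗ[ℤ] latInv a, ∀ r : latInv a, π r = r := by
  have : Module.IsTorsionFree ℤ (V ⧸ latInv a) := isTorsionFree_quot_latInv
  have : Module.Free ℤ (V ⧸ latInv a) := Module.free_of_finite_type_torsion_free'
  obtain ⟨σ, hσ⟩ := (latInv a).mkQ.exists_rightInverse_of_surjective
    (LinearMap.range_eq_top.2 (Submodule.mkQ_surjective _))
  have hmem : ∀ x : V, x - σ ((latInv a).mkQ x) ∈ latInv a := by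
    intro x
    rw [← Submodule.Quotient.mk_eq_zero, Submodule.Quotient.mk_sub]
    have := LinearMap.congr_fun hσ ((latInv a).mkQ x)
    simp only [LinearMap.coe_comp, Function.comp_apply, LinearMap.id_coe, id_eq] at this
    change (latInv a).mkQ x - (latInv a).mkQ (σ ((latInv a).mkQ x)) = 0
    rw [this, sub_self]
  refine ⟨LinearMap.codRestrict (latInv a) (LinearMap.id - σ.comp (latInv a).mkQ) hmem, ?_⟩
  intro r
  apply Subtype.ext
  change (r : V) - σ ((latInv a).mkQ r) = r
  have : (latInv a).mkQ (r : V) = 0 := (Submodule.Quotient.mk_eq_zero _).2 r.2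
  rw [this, map_zero, sub_zero]

/-- **(2)** an invariant functional is a norm `ψ ∘ Nrm` iff it takes values in `nℤ` on the
invariants. -/
theorem exists_functional_norm_iff (hmul : ∀ g h x, a (g * h) x = a g (a h x))
    {f : V →+ ℤ} (hf : ∀ g x, f (a g x) = f x) :
    (∃ ψ : V →+ ℤ, ∀ x, f x = ψ (latNorm a x)) ↔
      ∀ r : V, (∀ g, a g r = r) → (Fintype.card G : ℤ) ∣ f r := by
  have hn : (Fintype.card G : ℤ) ≠ 0 := by exact_mod_cast Fintype.card_ne_zero
  constructor
  · rintro ⟨ψ, hψ⟩ r hr
    rw [hψ r, latNorm_of_inv hr, map_zsmul, smul_eq_mul]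
    exact dvd_mul_right _ _
  · intro h
    obtain ⟨π, hπ⟩ := exists_retraction_latInv (a := a)
    -- `ψ₁ r = f r / n` on the invariants
    let ψ₁ : latInv a →+ ℤ :=
      { toFun := fun r => f r / (Fintype.card G : ℤ)
        map_zero' := by simp
        map_add' := fun x y => by
          obtain ⟨c, hc⟩ := h x x.2
          obtain ⟨d, hd⟩ := h y y.2
          change f ((x : V) + (y : V)) / _ = f x / _ + f y / _
          rw [map_add, hc, hd, ← mul_add, Int.mul_ediv_cancel_left _ hn,
            Int.mul_ediv_cancel_left _ hn, Int.mul_ediv_cancel_left _ hn] }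
    refine ⟨ψ₁.comp π.toAddMonoidHom, fun x => ?_⟩
    have hx : latNorm a x ∈ latInv a := fun g => act_latNorm hmul g x
    have h1 : π (latNorm a x) = ⟨latNorm a x, hx⟩ := hπ ⟨latNorm a x, hx⟩
    change f x = ψ₁ (π (latNorm a x))
    rw [h1]
    change f x = f (latNorm a x) / (Fintype.card G : ℤ)
    rw [functional_latNorm hf, Int.mul_ediv_cancel_left _ hn]

end Abstract

/-- **T6b.** Elementary lattice duality in degree `0`. -/
theorem latticeDuality : LatticeDualitySpec := by
  intro G _ _ R hfree hfin
  have e : R.hV2 = AddCommGroup.toIntModule R.V := Subsingleton.elim _ _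
  have : Module.Free ℤ R.V := e ▸ hfree
  have : Module.Finite ℤ R.V := e ▸ hfin
  let a : G → R.V →+ R.V := fun g => (R.ρ g).toAddMonoidHom
  have ha : ∀ g x, a g x = R.ρ g x := fun g x => rfl
  have hmul : ∀ g h x, a (g * h) x = a g (a h x) := fun g h x => by
    rw [ha, ha, ha, map_mul]; rfl
  refine ⟨fun r hr => ?_, fun f hf => ?_⟩
  · have h := exists_norm_eq_iff (a := a) hmul (r := r) hr
    simp only [latNorm_apply, ha] at h
    exact h
  · have h := exists_functional_norm_iff (a := a) hmul (f := f) hf
    simp only [ha] at h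
    rw [← h]
    have key : ∀ (ψ : R.V →+ ℤ) (x : R.V),
        ψ (latNorm a x) = ∑ g : G, ψ (R.ρ g⁻¹ x) := by
      intro ψ x
      rw [latNorm_apply, map_sum]
      exact Fintype.sum_equiv (Equiv.inv G) _ _ (fun g => by simp [ha])
    constructor
    · rintro ⟨ψ, hψ⟩
      exact ⟨ψ, fun x => by rw [hψ x, key]⟩
    · rintro ⟨ψ, hψ⟩
      exact ⟨ψ, fun x => by rw [hψ x, key]⟩

end Fermat.Agent.S55.T.H359
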