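import Fermat.Agent.S55.T.Spec3
import Fermat.Agent.S55.H572.DimShift

/-!
# S55, layer T, leaf T8 (helper303): Shapiro's lemma in explicit form

* `shapiroExplicit : ShapiroExplicitSpec`
* `shapiroRecognition : ShapiroRecognitionSpec`

Proof: dimension shifting.  `θₙ(A) : Hⁿ(G, Coind A) → Hⁿ(S, A)` is natural in `A`, compatible with
connecting homomorphisms, bijective for `n = 0`, and both sides are effaced by
`A ↪ coind₁ A`.
-/

set_option autoImplicit false
set_option linter.style.haveILetI false
set_option linter.unusedSectionVars false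
set_option linter.unusedVariables false

open CategoryTheory groupCohomology Rep Limits

namespace Fermat.Agent.S55.T.ShapiroH303

open Fermat.Agent.S55

noncomputable section

variable {k G : Type} [CommRing k] [Group G] (S : Subgroup G)

lemma coindEv_hom_apply (A : Rep.{0} k S) (x : (Rep.coind S.subtype A).V) :
    (coindEv S A).hom x = x.1 1 := rfl

/-- the cochain-level Shapiro map -/
abbrev shapCochains (A : Rep.{0} k S) :
    inhomogeneousCochains (Rep.coind S.subtype A) ⟶ inhomogeneousCochains A :=
  cochainsMap S.subtype (coindEv S A)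

/-- `θₙ(A) : Hⁿ(G, Coind A) → Hⁿ(S, A)` -/
abbrev shap (A : Rep.{0} k S) (n : ℕ) :
    groupCohomology (Rep.coind S.subtype A) n ⟶ groupCohomology A n :=
  groupCohomology.map S.subtype (coindEv S A) n

lemma shapCochains_natural {A B : Rep.{0} k S} (f : A ⟶ B) :
    cochainsMap (MonoidHom.id G) (Rep.coindMap S.subtype f) ≫ shapCochains S B =
      shapCochains S A ≫ cochainsMap (MonoidHom.id S) f := by
  rfl

lemma shap_natural {A B : Rep.{0} k S} (f : A ⟶ B) (n : ℕ) :
    groupCohomology.map (MonoidHom.id G) (Rep.coindMap S.subtype f) n ≫ shap S B n =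
      shap S A n ≫ groupCohomology.map (MonoidHom.id S) f n := by
  have h := congrArg (fun φ => HomologicalComplex.homologyMap φ n) (shapCochains_natural S f)
  simp only [HomologicalComplex.homologyMap_comp] at h
  exact h

/-! ### Coinduction is exact -/

lemma coindFunctor_additive : (Rep.coindFunctor.{0} k S.subtype).Additive where
  map_add := by intros; rfl

lemma coind_shortExact {X : ShortComplex (Rep.{0} k S)} (hX : X.ShortExact) :
    (X.map (Rep.coindFunctor k S.subtype)).ShortExact := by
  haveI := coindFunctor_additive (k := k) S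
  haveI : PreservesFiniteLimits (Rep.coindFunctor.{0} k S.subtype) := inferInstance
  have h0 := (Functor.preservesFiniteLimits_tfae (Rep.coindFunctor.{0} k S.subtype)).out 3 0
  have h := h0.mp ‹_› X hX
  haveI := hX.epi_g
  exact { exact := h.1, mono_f := h.2,
          epi_g := (inferInstance : Epi ((Rep.coindFunctor.{0} k S.subtype).map X.g)) }

/-! ### Compatibility with connecting homomorphisms -/

/-- the morphism of short complexes of cochain complexes -/
def shapShortComplex (X : ShortComplex (Rep.{0} k S)) :
    (X.map (Rep.coindFunctor k S.subtype)).map (cochainsFunctor k G) ⟶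
      X.map (cochainsFunctor k S) where
  τ₁ := shapCochains S X.X₁
  τ₂ := shapCochains S X.X₂
  τ₃ := shapCochains S X.X₃
  comm₁₂ := shapCochains_natural S X.f
  comm₂₃ := shapCochains_natural S X.g

lemma shap_δ {X : ShortComplex (Rep.{0} k S)} (hX : X.ShortExact) (i j : ℕ) (hij : i + 1 = j) :
    groupCohomology.δ (coind_shortExact S hX) i j hij ≫ shap S X.X₁ j =
      shap S X.X₃ i ≫ groupCohomology.δ hX i j hij :=
  HomologicalComplex.HomologySequence.δ_naturality (shapShortComplex S X)
    (map_cochainsFunctor_shortExact (coind_shortExact S hX))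
    (map_cochainsFunctor_shortExact hX) i j hij

/-! ### Effaceability -/

lemma isZero_coind₁ (A : Rep.{0} k S) (n : ℕ) :
    IsZero (groupCohomology (H572.coind₁ A) (n + 1)) :=
  IsZero.of_iso (isZero_groupCohomology_succ_of_subsingleton _ n)
    (groupCohomology.coindIso _ (n + 1))

lemma isZero_coind_coind₁ (A : Rep.{0} k S) (n : ℕ) :
    IsZero (groupCohomology (Rep.coind S.subtype (H572.coind₁ A)) (n + 1)) :=
  IsZero.of_iso (isZero_coind₁ S A n) (groupCohomology.coindIso _ (n + 1))

/-! ### Degree 0 -/

lemma H0Iso_shap_apply (A : Rep.{0} k S) (x : groupCohomology (Rep.coind S.subtype A) 0) :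
    (((H0Iso A).hom ((shap S A 0).hom x) : A.ρ.invariants) : A.V) =
      ((((H0Iso (Rep.coind S.subtype A)).hom x : (Rep.coind S.subtype A).ρ.invariants) :
        (Rep.coind S.subtype A).V)).1 1 := by
  have h := map_H0Iso_hom_f_apply (f := S.subtype) (φ := coindEv S A) x
  exact h

lemma invariants_coind_apply (A : Rep.{0} k S)
    (F : (Rep.coind S.subtype A).ρ.invariants) (g : G) :
    ((F : (Rep.coind S.subtype A).V)).1 g = ((F : (Rep.coind S.subtype A).V)).1 1 := by
  have h := F.2 g
  have h2 := congrArg (fun f : (Rep.coind S.subtype A).V => f.1 1) h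
  simpa using h2

lemma shap_zero_bijective (A : Rep.{0} k S) : Function.Bijective (shap S A 0).hom := by
  constructor
  · intro x y hxy
    have hx := H0Iso_shap_apply S A x
    have hy := H0Iso_shap_apply S A y
    rw [hxy] at hx
    have h1 : (H0Iso (Rep.coind S.subtype A)).hom x = (H0Iso (Rep.coind S.subtype A)).hom y := by
      apply Subtype.ext
      apply Subtype.ext
      funext g
      rw [invariants_coind_apply S A _ g, invariants_coind_apply S A ((H0Iso _).hom y) g,
        ← hx, ← hy]
    have h2 := congrArg (H0Iso (Rep.coind S.subtype A)).inv h1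
    simpa using h2
  · intro y
    let b : A.ρ.invariants := (H0Iso A).hom y
    let F0 : (Rep.coind S.subtype A).V := ⟨fun _ => (b : A.V), by
      intro s g
      exact (b.2 s).symm⟩
    let F : (Rep.coind S.subtype A).ρ.invariants := ⟨F0, by
      intro g
      apply Subtype.ext
      funext h
      rfl⟩
    refine ⟨(H0Iso (Rep.coind S.subtype A)).inv F, ?_⟩
    have h1 : (H0Iso A).hom ((shap S A 0).hom ((H0Iso (Rep.coind S.subtype A)).inv F)) =
        (H0Iso A).hom y := by
      apply Subtype.ext
      rw [H0Iso_shap_apply]
      simp only [Iso.inv_hom_id_apply]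
      rfl
    have h2 := congrArg (H0Iso A).inv h1
    simpa using h2

/-! ### Induction -/

theorem shap_bijective (n : ℕ) : ∀ (A : Rep.{0} k S), Function.Bijective (shap S A n).hom := by
  induction n with
  | zero => exact shap_zero_bijective S
  | succ n ih =>
    intro A
    have hX : (H572.upSC A).ShortExact := H572.upSC_shortExact A
    have hG := coind_shortExact S hX
    have hδ := shap_δ S hX n (n + 1) rfl
    have hδ' : ∀ w, (shap S A (n + 1)).hom ((groupCohomology.δ hG n (n + 1) rfl).hom w) =
        (groupCohomology.δ hX n (n + 1) rfl).hom ((shap S (H572.up A) n).hom w) := fun w =>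
      ConcreteCategory.congr_hom hδ w
    have epiS : Function.Surjective (groupCohomology.δ hX n (n + 1) rfl).hom :=
      (ModuleCat.epi_iff_surjective _).mp (epi_δ_of_isZero hX n (isZero_coind₁ S A n))
    have epiG : Function.Surjective (groupCohomology.δ hG n (n + 1) rfl).hom :=
      (ModuleCat.epi_iff_surjective _).mp (epi_δ_of_isZero hG n (isZero_coind_coind₁ S A n))
    constructor
    · rw [injective_iff_map_eq_zero]
      intro x hx
      obtain ⟨w, rfl⟩ := epiG x
      rw [hδ'] at hx
      have hex := mapShortComplex₃_exact hX (i := n) (j := n + 1) rfl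
      obtain ⟨u, hu⟩ := (ShortComplex.moduleCat_exact_iff _).mp hex _ hx
      obtain ⟨v, rfl⟩ := (ih (H572.coind₁ A)).2 u
      have hnat := shap_natural S (H572.upπ A) n
      have h3 : (shap S (H572.up A) n).hom
          ((groupCohomology.map (MonoidHom.id G) (Rep.coindMap S.subtype (H572.upπ A)) n).hom v)
          = (shap S (H572.up A) n).hom w := by
        rw [← hu]
        exact ConcreteCategory.congr_hom hnat v
      have hw := (ih (H572.up A)).1 h3
      rw [← hw]
      exact ConcreteCategory.congr_hom (mapShortComplex₃ hG (i := n) (j := n + 1) rfl).zero v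
    · intro y
      obtain ⟨z, rfl⟩ := epiS y
      obtain ⟨w, rfl⟩ := (ih (H572.up A)).2 z
      exact ⟨_, hδ' w⟩

/-- **T8** -/
theorem shapiroExplicit : ShapiroExplicitSpec := by
  intro k G _ _ S A n
  exact shap_bijective S n A

/-! ### Recognition form -/

/-- **T8'** -/
theorem shapiroRecognition : ShapiroRecognitionSpec := by
  intro k G _ _ S A B π hπ n
  let Φ : B ⟶ Rep.coind S.subtype A := Rep.resCoindToHom S.subtype B A π
  have hΦ_apply : ∀ (b : B.V) (g : G), (Φ.hom b).1 g = π.hom (B.ρ g b) := fun b g => rfl
  have hinj : Function.Injective Φ.hom := by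
    intro b b' hbb'
    obtain ⟨b₀, -, huniq⟩ := hπ (Φ.hom b).1 (fun s g => (Φ.hom b).2 s g)
    have h1 : b = b₀ := huniq b (fun g => rfl)
    have h2 : b' = b₀ := huniq b' (fun g => by rw [hbb']; rfl)
    rw [h1, h2]
  have hsurj : Function.Surjective Φ.hom := by
    intro f
    obtain ⟨b₀, hb₀, -⟩ := hπ f.1 (fun s g => f.2 s g)
    refine ⟨b₀, ?_⟩
    apply Subtype.ext
    funext g
    exact hb₀ g
  haveI : Mono Φ := (Rep.mono_iff_injective Φ).mpr hinj
  haveI : Epi Φ := (Rep.epi_iff_surjective Φ).mpr hsurj
  haveI : IsIso Φ := isIso_of_mono_of_epi Φ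
  haveI : IsIso (groupCohomology.map (MonoidHom.id G) Φ n) :=
    (inferInstance : IsIso ((groupCohomology.functor k G n).map Φ))
  have hcomp : groupCohomology.map S.subtype π n =
      groupCohomology.map (MonoidHom.id G) Φ n ≫ shap S A n := by
    have h1 := groupCohomology.map_comp (MonoidHom.id G) S.subtype Φ (coindEv S A) n
    rw [← h1]
    apply groupCohomology.map_congr rfl
    ext b
    change π.hom b = π.hom (B.ρ 1 b)
    rw [map_one]
    rfl
  rw [hcomp]
  have hb1 : Function.Bijective (groupCohomology.map (MonoidHom.id G) Φ n).hom :=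
    ConcreteCategory.bijective_of_isIso _
  have hb2 := shap_bijective S n A
  have : ((groupCohomology.map (MonoidHom.id G) Φ n ≫ shap S A n).hom : _ → _) =
      (shap S A n).hom ∘ (groupCohomology.map (MonoidHom.id G) Φ n).hom := by
    funext x; rfl
  rw [this]
  exact hb2.comp hb1

end

end Fermat.Agent.S55.T.ShapiroH303
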