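import Fermat.Agent.S55.T.Spec3

/-!
# S55, layer T, T9: finite products and direct sums in group cohomology (helper635)

* `finiteProd : FiniteProdSpec` — `Hⁿ(G, ∏ᵢ A i) = ∏ᵢ Hⁿ(G, A i)` for a finite index set.
* `directSum : DirectSumSpec` — `Hⁿ(G, ⨁ᵢ A i) = ⨁ᵢ Hⁿ(G, A i)` for a finite group `G`
  and an arbitrary index set.

Both are proved from additivity of `coeffMap` in the coefficient morphism; for the direct sum
the point is that a cocycle `Gⁿ → ⨁ᵢ A i` of a finite group takes values in a finite
sub-sum.
-/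

set_option autoImplicit false

open CategoryTheory groupCohomology

namespace Fermat.Agent.S55.T.H635

variable {k G : Type} [CommRing k] [Group G]

/-- `coeffMap` is additive in the coefficient morphism. -/
theorem coeffMap_add {A B : Rep.{0} k G} (f g : A ⟶ B) (n : ℕ) :
    coeffMap (f + g) n = coeffMap f n + coeffMap g n := by
  have h : cochainsMap (MonoidHom.id G) (f + g)
      = cochainsMap (MonoidHom.id G) f + cochainsMap (MonoidHom.id G) g :=
    (cochainsFunctor k G).map_add
  show HomologicalComplex.homologyMap (cochainsMap (MonoidHom.id G) (f + g)) n = _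
  rw [h, HomologicalComplex.homologyMap_add]
  rfl

theorem coeffMap_zero {A B : Rep.{0} k G} (n : ℕ) :
    coeffMap (0 : A ⟶ B) n = 0 := by
  have h : cochainsMap (MonoidHom.id G) (0 : A ⟶ B) = 0 :=
    (cochainsFunctor k G).map_zero _ _
  show HomologicalComplex.homologyMap (cochainsMap (MonoidHom.id G) (0 : A ⟶ B)) n = _
  rw [h, HomologicalComplex.homologyMap_zero]
  rfl

theorem coeffMap_id (A : Rep.{0} k G) (n : ℕ) :
    coeffMap (𝟙 A) n = 𝟙 _ := groupCohomology.map_id (B := A) (n := n)

theorem coeffMap_comp {A B C : Rep.{0} k G} (f : A ⟶ B) (g : B ⟶ C) (n : ℕ) :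
    coeffMap (f ≫ g) n = coeffMap f n ≫ coeffMap g n :=
  groupCohomology.map_id_comp f g n

/-- `coeffMap` as an additive monoid homomorphism. -/
noncomputable def coeffMapAddHom (A B : Rep.{0} k G) (n : ℕ) :
    (A ⟶ B) →+ (groupCohomology A n ⟶ groupCohomology B n) where
  toFun f := coeffMap f n
  map_zero' := coeffMap_zero n
  map_add' f g := coeffMap_add f g n

theorem coeffMap_sum {A B : Rep.{0} k G} {ι : Type} (s : Finset ι) (f : ι → (A ⟶ B)) (n : ℕ) :
    coeffMap (∑ i ∈ s, f i) n = ∑ i ∈ s, coeffMap (f i) n :=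
  map_sum (coeffMapAddHom A B n) f s

theorem coeffMap_comp_apply {A B C : Rep.{0} k G} (f : A ⟶ B) (g : B ⟶ C) (n : ℕ)
    (x : groupCohomology A n) :
    (coeffMap g n).hom ((coeffMap f n).hom x) = (coeffMap (f ≫ g) n).hom x := by
  rw [coeffMap_comp]; rfl

theorem coeffMap_id_apply (A : Rep.{0} k G) (n : ℕ) (x : groupCohomology A n) :
    (coeffMap (𝟙 A) n).hom x = x := by
  rw [coeffMap_id]; rfl

theorem coeffMap_zero_apply {A B : Rep.{0} k G} (n : ℕ) (x : groupCohomology A n) :
    (coeffMap (0 : A ⟶ B) n).hom x = 0 := by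
  rw [coeffMap_zero]; rfl

theorem coeffMap_sum_apply {A B : Rep.{0} k G} {ι : Type} (s : Finset ι) (f : ι → (A ⟶ B))
    (n : ℕ) (x : groupCohomology A n) :
    (coeffMap (∑ i ∈ s, f i) n).hom x = ∑ i ∈ s, (coeffMap (f i) n).hom x := by
  classical
  rw [coeffMap_sum]
  induction s using Finset.induction_on with
  | empty => simp
  | insert a s ha ih =>
    rw [Finset.sum_insert ha, Finset.sum_insert ha, ← ih]
    rfl

theorem hom_apply_ext {A B : Rep.{0} k G} {f g : A ⟶ B}
    (h : ∀ a : A.V, f.hom a = g.hom a) : f = g :=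
  Rep.hom_ext (Representation.IntertwiningMap.ext (LinearMap.ext h))

theorem comp_hom_apply {A B C : Rep.{0} k G} (f : A ⟶ B) (g : B ⟶ C) (a : A.V) :
    (f ≫ g).hom a = g.hom (f.hom a) := by
  rw [Rep.hom_comp]; rfl

theorem id_hom_apply (A : Rep.{0} k G) (a : A.V) : (𝟙 A : A ⟶ A).hom a = a := by
  rw [Rep.hom_id]; rfl

theorem zero_hom_apply {A B : Rep.{0} k G} (a : A.V) : (0 : A ⟶ B).hom a = 0 := by
  rw [Rep.zero_hom]; rfl

theorem sum_hom_apply {A B : Rep.{0} k G} {ι : Type} (s : Finset ι) (f : ι → (A ⟶ B))
    (a : A.V) : (∑ i ∈ s, f i).hom a = ∑ i ∈ s, (f i).hom a := by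
  rw [Rep.sum_hom]
  exact Representation.IntertwiningMap.sum_apply _ _ _ _ _

section FiniteProd

set_option linter.unusedSectionVars false
variable {ι : Type} [Fintype ι] [DecidableEq ι] {A : ι → Rep.{0} k G} {C : Rep.{0} k G}
  (p : ∀ i, C ⟶ A i)

/-- The linear map `C → ∏ᵢ A i` with components `p i`. -/
noncomputable def prodLin : C.V →ₗ[k] (∀ i, (A i).V) :=
  LinearMap.pi (fun i => (p i).hom.toLinearMap)

theorem prodLin_apply (c : C.V) (i : ι) : prodLin p c i = (p i).hom c := rfl

variable (hp : Function.Bijective (fun (c : C.V) (i : ι) => (p i).hom c))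

/-- The linear equivalence `C ≃ ∏ᵢ A i`. -/
noncomputable def prodEquiv : C.V ≃ₗ[k] (∀ i, (A i).V) :=
  LinearEquiv.ofBijective (prodLin p) hp

theorem prodEquiv_apply (c : C.V) (i : ι) : prodEquiv p hp c i = (p i).hom c := rfl

theorem p_prodEquiv_symm (x : ∀ i, (A i).V) (i : ι) :
    (p i).hom ((prodEquiv p hp).symm x) = x i := by
  rw [← prodEquiv_apply p hp, LinearEquiv.apply_symm_apply]

/-- The section `A i → C`. -/
noncomputable def prodSec (i : ι) : A i ⟶ C :=
  Rep.ofHom
    { toLinearMap := (prodEquiv p hp).symm.toLinearMap ∘ₗ LinearMap.single k (fun i => (A i).V) i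
      isIntertwining' := fun g => by
        refine LinearMap.ext fun a => ?_
        apply (prodEquiv p hp).injective
        funext j
        simp only [LinearMap.coe_comp, Function.comp_apply, LinearEquiv.coe_coe,
          LinearMap.coe_single, prodEquiv_apply]
        rw [p_prodEquiv_symm, Rep.hom_comm_apply, p_prodEquiv_symm]
        by_cases h : j = i
        · subst h; simp
        · simp [Pi.single_eq_of_ne h] }

theorem prodSec_apply (i : ι) (a : (A i).V) :
    (prodSec p hp i).hom a = (prodEquiv p hp).symm (Pi.single i a) := rfl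

theorem prodSec_comp_self (i : ι) : prodSec p hp i ≫ p i = 𝟙 (A i) := by
  refine hom_apply_ext fun a => ?_
  rw [comp_hom_apply, id_hom_apply, prodSec_apply, p_prodEquiv_symm, Pi.single_eq_same]

theorem prodSec_comp_of_ne {i j : ι} (h : i ≠ j) : prodSec p hp i ≫ p j = 0 := by
  refine hom_apply_ext fun a => ?_
  rw [comp_hom_apply, zero_hom_apply, prodSec_apply, p_prodEquiv_symm,
    Pi.single_eq_of_ne (Ne.symm h)]

theorem sum_comp_prodSec : ∑ i, p i ≫ prodSec p hp i = 𝟙 C := by
  refine hom_apply_ext fun c => ?_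
  rw [sum_hom_apply, id_hom_apply]
  apply (prodEquiv p hp).injective
  rw [map_sum]
  funext j
  rw [Finset.sum_apply, prodEquiv_apply]
  rw [Finset.sum_eq_single j]
  · rw [comp_hom_apply, prodSec_apply, LinearEquiv.apply_symm_apply, Pi.single_eq_same]
  · intro i _ hij
    rw [comp_hom_apply, prodSec_apply, LinearEquiv.apply_symm_apply, Pi.single_eq_of_ne (Ne.symm hij)]
  · intro h; exact absurd (Finset.mem_univ j) h

end FiniteProd

/-- **T9a.** -/
theorem finiteProd : FiniteProdSpec := by
  intro k G _ _ ι _ A C p hp n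
  classical
  have : Fintype ι := Fintype.ofFinite ι
  have hrec : ∀ x : groupCohomology C n,
      x = ∑ i, (coeffMap (prodSec p hp i) n).hom ((coeffMap (p i) n).hom x) := by
    intro x
    conv_lhs => rw [← coeffMap_id_apply C n x, ← sum_comp_prodSec p hp, coeffMap_sum_apply]
    refine Finset.sum_congr rfl fun i _ => ?_
    rw [coeffMap_comp_apply]
  constructor
  · intro x y hxy
    rw [hrec x, hrec y]
    refine Finset.sum_congr rfl fun i _ => ?_
    have := congrFun hxy i
    simp only at this
    rw [this]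
  · intro y
    refine ⟨∑ i, (coeffMap (prodSec p hp i) n).hom (y i), ?_⟩
    funext j
    simp only
    rw [map_sum, Finset.sum_eq_single j]
    · rw [coeffMap_comp_apply, prodSec_comp_self, coeffMap_id_apply]
    · intro i _ hij
      rw [coeffMap_comp_apply, prodSec_comp_of_ne p hp hij, coeffMap_zero_apply]
    · intro h; exact absurd (Finset.mem_univ j) h

theorem iCocycles_cocyclesMap_apply {A B : Rep.{0} k G} (e : A ⟶ B) (n : ℕ)
    (z : cocycles A n) (g : Fin n → G) :
    (iCocycles B n).hom ((cocyclesMap (MonoidHom.id G) e n).hom z) g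
      = e.hom ((iCocycles A n).hom z g) := by
  have h1 : cocyclesMap (MonoidHom.id G) e n ≫ iCocycles B n
      = iCocycles A n ≫ (cochainsMap (MonoidHom.id G) e).f n :=
    HomologicalComplex.cyclesMap_i _ _
  have h2 := congrArg (fun φ => φ.hom z) h1
  simp only [ModuleCat.hom_comp, LinearMap.coe_comp, Function.comp_apply] at h2
  rw [h2, cochainsMap_id_f_hom_eq_compLeft]
  rfl

theorem cocyclesMap_eq_self_of_fix {C : Rep.{0} k G} (e : C ⟶ C) (n : ℕ)
    (z : cocycles C n) (h : ∀ g : Fin n → G, e.hom ((iCocycles C n).hom z g) = (iCocycles C n).hom z g) :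
    (cocyclesMap (MonoidHom.id G) e n).hom z = z := by
  apply (ModuleCat.mono_iff_injective (iCocycles C n)).1 inferInstance
  funext g
  rw [iCocycles_cocyclesMap_apply, h]

theorem coeffMap_π_eq_self_of_fix {C : Rep.{0} k G} (e : C ⟶ C) (n : ℕ)
    (z : cocycles C n) (h : ∀ g : Fin n → G, e.hom ((iCocycles C n).hom z g) = (iCocycles C n).hom z g) :
    (coeffMap e n).hom ((π C n).hom z) = (π C n).hom z := by
  have := groupCohomology.π_map_apply (MonoidHom.id G) e n z
  rw [cocyclesMap_eq_self_of_fix e n z h] at this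
  exact this

section DirectSum

set_option linter.unusedSectionVars false

variable {ι : Type} [DecidableEq ι] {A : ι → Rep.{0} k G} {C : Rep.{0} k G}
  (inc : ∀ i, A i ⟶ C)

theorem component_lof_of_ne {M : ι → Type} [∀ i, AddCommGroup (M i)] [∀ i, Module k (M i)]
    {i j : ι} (h : i ≠ j) (b : M i) :
    DirectSum.component k ι M j (DirectSum.lof k ι M i b) = 0 := by
  rw [DirectSum.component.of, dif_neg h]

variable
  (hinc : Function.Bijective (DirectSum.toModule k ι C.V (fun i => (inc i).hom.toLinearMap)))

/-- The linear equivalence `⨁ᵢ A i ≃ C`. -/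
noncomputable def sumEquiv : (DirectSum ι fun i => (A i).V) ≃ₗ[k] C.V :=
  LinearEquiv.ofBijective (DirectSum.toModule k ι C.V (fun i => (inc i).hom.toLinearMap)) hinc

theorem sumEquiv_lof (i : ι) (a : (A i).V) :
    sumEquiv inc hinc (DirectSum.lof k ι (fun i => (A i).V) i a) = (inc i).hom a := by
  show DirectSum.toModule k ι C.V (fun i => (inc i).hom.toLinearMap)
    (DirectSum.lof k ι (fun i => (A i).V) i a) = (inc i).hom a
  rw [DirectSum.toModule_lof]
  rfl

theorem sumEquiv_symm_inc (i : ι) (a : (A i).V) :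
    (sumEquiv inc hinc).symm ((inc i).hom a) = DirectSum.lof k ι (fun i => (A i).V) i a := by
  rw [← sumEquiv_lof inc hinc, LinearEquiv.symm_apply_apply]

/-- The `j`-th projection `C → A j`, as a linear map. -/
noncomputable def sumProjLin (j : ι) : C.V →ₗ[k] (A j).V :=
  DirectSum.component k ι (fun i => (A i).V) j ∘ₗ (sumEquiv inc hinc).symm.toLinearMap

theorem sumProjLin_apply (j : ι) (c : C.V) :
    sumProjLin inc hinc j c = ((sumEquiv inc hinc).symm c) j := rfl

theorem sumProjLin_inc_self (i : ι) (a : (A i).V) :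
    sumProjLin inc hinc i ((inc i).hom a) = a := by
  show DirectSum.component k ι (fun i => (A i).V) i ((sumEquiv inc hinc).symm ((inc i).hom a)) = a
  rw [sumEquiv_symm_inc, DirectSum.component.lof_self]

theorem sumProjLin_inc_of_ne {i j : ι} (h : i ≠ j) (a : (A i).V) :
    sumProjLin inc hinc j ((inc i).hom a) = 0 := by
  show DirectSum.component k ι (fun i => (A i).V) j ((sumEquiv inc hinc).symm ((inc i).hom a)) = 0
  rw [sumEquiv_symm_inc, component_lof_of_ne h]

/-- The `j`-th projection `C ⟶ A j`. -/
noncomputable def sumProj (j : ι) : C ⟶ A j :=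
  Rep.ofHom
    { toLinearMap := sumProjLin inc hinc j
      isIntertwining' := fun g => by
        have key : (sumProjLin inc hinc j ∘ₗ C.ρ g) ∘ₗ (sumEquiv inc hinc).toLinearMap
            = ((A j).ρ g ∘ₗ sumProjLin inc hinc j) ∘ₗ (sumEquiv inc hinc).toLinearMap := by
          refine DirectSum.linearMap_ext k fun i => LinearMap.ext fun a => ?_
          simp only [LinearMap.coe_comp, Function.comp_apply, LinearEquiv.coe_coe]
          rw [sumEquiv_lof, ← Rep.hom_comm_apply]
          by_cases h : i = j
          · subst h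
            rw [sumProjLin_inc_self, sumProjLin_inc_self]
          · rw [sumProjLin_inc_of_ne inc hinc h, sumProjLin_inc_of_ne inc hinc h, map_zero]
        refine LinearMap.ext fun c => ?_
        obtain ⟨x, rfl⟩ := (sumEquiv inc hinc).surjective c
        exact LinearMap.congr_fun key x }

theorem sumProj_apply (j : ι) (c : C.V) :
    (sumProj inc hinc j).hom c = ((sumEquiv inc hinc).symm c) j := rfl

theorem inc_comp_sumProj_self (i : ι) : inc i ≫ sumProj inc hinc i = 𝟙 (A i) := by
  refine hom_apply_ext fun a => ?_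
  rw [comp_hom_apply, id_hom_apply]
  exact sumProjLin_inc_self inc hinc i a

theorem inc_comp_sumProj_of_ne {i j : ι} (h : i ≠ j) : inc i ≫ sumProj inc hinc j = 0 := by
  refine hom_apply_ext fun a => ?_
  rw [comp_hom_apply, zero_hom_apply]
  exact sumProjLin_inc_of_ne inc hinc h a

/-- The idempotent `e_S = ∑_{i ∈ S} q_i ≫ inc_i` fixes every vector supported in `S`. -/
theorem sum_sumProj_inc_apply_of_support [∀ i (x : (A i).V), Decidable (x ≠ 0)]
    (S : Finset ι) (v : C.V)
    (hv : DFinsupp.support ((sumEquiv inc hinc).symm v) ⊆ S) :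
    (∑ i ∈ S, sumProj inc hinc i ≫ inc i).hom v = v := by
  rw [sum_hom_apply]
  have h1 : ∀ i ∈ S, (sumProj inc hinc i ≫ inc i).hom v
      = sumEquiv inc hinc (DirectSum.of (fun i => (A i).V) i (((sumEquiv inc hinc).symm v) i)) := by
    intro i _
    rw [comp_hom_apply, sumProj_apply]
    exact (sumEquiv_lof inc hinc i _).symm
  rw [Finset.sum_congr rfl h1, ← map_sum]
  have h2 : ∑ i ∈ S, DirectSum.of (fun i => (A i).V) i (((sumEquiv inc hinc).symm v) i)
      = (sumEquiv inc hinc).symm v := by
    rw [← Finset.sum_subset hv]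
    · exact DirectSum.sum_support_of _
    · intro i _ hi
      rw [DFinsupp.notMem_support_iff] at hi
      rw [hi, map_zero]
  rw [h2, LinearEquiv.apply_symm_apply]

end DirectSum

/-- **T9b.** -/
theorem directSum : DirectSumSpec := by
  intro k G _ _ _ ι _ A C inc hinc n
  classical
  have : Fintype (Fin n → G) := Fintype.ofFinite _
  -- projections recover components
  have hcomp : ∀ j : ι,
      (coeffMap (sumProj inc hinc j) n).hom.comp
        (DirectSum.toModule k ι (groupCohomology C n) (fun i => (coeffMap (inc i) n).hom))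
      = DirectSum.component k ι (fun i => groupCohomology (A i) n) j := by
    intro j
    refine DirectSum.linearMap_ext k fun i => LinearMap.ext fun x => ?_
    simp only [LinearMap.coe_comp, Function.comp_apply]
    rw [DirectSum.toModule_lof, coeffMap_comp_apply]
    by_cases h : i = j
    · subst h
      rw [inc_comp_sumProj_self, coeffMap_id_apply, DirectSum.component.lof_self]
    · rw [inc_comp_sumProj_of_ne inc hinc h, coeffMap_zero_apply, component_lof_of_ne h]
  constructor
  · intro x y hxy
    refine DirectSum.ext_component k fun j => ?_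
    rw [← hcomp j]
    simp only [LinearMap.coe_comp, Function.comp_apply]
    rw [hxy]
  · intro c
    induction c using groupCohomology_induction_on with
    | h z =>
      let S : Finset ι := Finset.univ.biUnion fun g : Fin n → G =>
        DFinsupp.support ((sumEquiv inc hinc).symm ((iCocycles C n).hom z g))
      have hfix : ∀ g : Fin n → G,
          (∑ i ∈ S, sumProj inc hinc i ≫ inc i).hom ((iCocycles C n).hom z g)
            = (iCocycles C n).hom z g := by
        intro g
        refine sum_sumProj_inc_apply_of_support inc hinc S _ ?_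
        exact Finset.subset_biUnion_of_mem
          (fun g : Fin n → G =>
            DFinsupp.support ((sumEquiv inc hinc).symm ((iCocycles C n).hom z g)))
          (Finset.mem_univ g)
      have hz := coeffMap_π_eq_self_of_fix (∑ i ∈ S, sumProj inc hinc i ≫ inc i) n z hfix
      refine ⟨∑ i ∈ S, DirectSum.lof k ι (fun i => groupCohomology (A i) n) i
        ((coeffMap (sumProj inc hinc i) n).hom ((π C n).hom z)), ?_⟩
      rw [map_sum]
      conv_rhs => rw [← hz, coeffMap_sum_apply]
      refine Finset.sum_congr rfl fun i _ => ?_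
      rw [DirectSum.toModule_lof, coeffMap_comp_apply]

end Fermat.Agent.S55.T.H635
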