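import Fermat.Agent.S55.T.PermH652
import Fermat.Agent.S55.T.ShapiroH303
import Fermat.Agent.S55.T.SumH635

/-!
# S55, layer T, piece T10 (helper652): unconditional form

`permSpec : PermSpec` and `permH1Spec : PermH1Spec`, from `PermH652` (conditional proofs),
`ShapiroH303.shapiroRecognition` and `H635.directSum`.
-/

set_option autoImplicit false

namespace Fermat.Agent.S55.T.H652

open Fermat.Agent.S55.T

/-- **T10.**  Permutation modules over a finite group: localisations detect classes and are
surjective orbitwise. -/
theorem permSpec : PermSpec :=
  permSpec_of ShapiroH303.shapiroRecognition H635.directSum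

/-- **T10'.**  `H¹(G, ℤ[X]) = 0` for a finite group `G`. -/
theorem permH1Spec : PermH1Spec :=
  permH1Spec_of ShapiroH303.shapiroRecognition H635.directSum

end Fermat.Agent.S55.T.H652
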