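import Fermat.Agent.S55.T.NakBasicH719

/-!
# S55, layer T, leaf T6a (Nakayama) — Sylow reduction of cohomological triviality (helper719)

`isCohTriv_of_pSubgroups` : if `Ĥⁿ(Q, A) = 0` for all `n : ℤ` and all subgroups `Q ≤ G` of prime
power order, then `A` is cohomologically trivial.
-/

set_option autoImplicit false
set_option linter.style.haveILetI false

open CategoryTheory Limits groupCohomology Rep

namespace Fermat.Agent.S55.T.H719

open Fermat.Agent.S55.H572 Fermat.Agent.S55.H119

noncomputable section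

variable {k G : Type} [CommRing k] [Group G]

/-- Transport of `H¹ = 0` from the image subgroup `P.map H.subtype ≤ G` to `P ≤ H`. -/
theorem h1Triv_res_res_of_map (A : Rep.{0} k G) (H : Subgroup G) (P : Subgroup H)
    (h : H1Triv (res (P.map H.subtype).subtype A)) :
    H1Triv (res P.subtype (res H.subtype A)) := by
  intro c hc
  have hmem : ∀ q : (P.map H.subtype), ∃ x : P, ((x : H) : G) = (q : G) := by
    rintro ⟨q, x, hx, rfl⟩
    exact ⟨⟨x, hx⟩, rfl⟩
  choose s hs using hmem
  have hs_mul : ∀ q q' : (P.map H.subtype), s (q * q') = s q * s q' := by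
    intro q q'
    apply Subtype.ext
    apply Subtype.ext
    rw [hs]
    simp [hs]
  obtain ⟨y, hy⟩ := h (fun q => c (s q)) (fun q q' => by
    have h1 := hc (s q) (s q')
    rw [hs_mul]
    rw [h1]
    have h2 : (res P.subtype (res H.subtype A)).ρ (s q) = (res (P.map H.subtype).subtype A).ρ q := by
      change A.ρ ((s q : H) : G) = A.ρ (q : G)
      rw [hs]
    rw [h2])
  refine ⟨y, fun g => ?_⟩
  have hg : ((g : H) : G) ∈ P.map H.subtype := ⟨g, g.2, rfl⟩
  have h3 : s ⟨((g : H) : G), hg⟩ = g := by
    apply Subtype.ext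
    apply Subtype.ext
    rw [hs]
  have h4 := hy ⟨((g : H) : G), hg⟩
  rw [h3] at h4
  exact h4

/-- **Sylow reduction**: a module whose Tate cohomology vanishes on all subgroups of prime power
order is cohomologically trivial. -/
theorem isCohTriv_of_pSubgroups [Finite G] (A : Rep.{0} k G)
    (h : ∀ p : ℕ, p.Prime → ∀ Q : Subgroup G, IsPGroup p Q → ∀ [Fintype Q] (n : ℤ),
      IsZero (tateCohomology (res Q.subtype A) n)) : IsCohTriv A := by
  intro H _ n
  obtain ⟨A', hA'⟩ := exists_shift_one n A
  obtain ⟨e⟩ := hA' H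
  refine IsZero.of_iso ?_ e
  refine IsZero.of_iso ?_ ((TateCohomology.isoGroupCohomology 1).app _)
  rw [ModuleCat.isZero_iff_subsingleton]
  refine ⟨fun x y => ?_⟩
  suffices ∀ z : H1 (res H.subtype A'), z = 0 by rw [this x, this y]
  intro z
  refine eq_zero_of_forall_sylow_resMap_eq_zero_one (res H.subtype A') z fun p hp => ?_
  haveI : Fact p.Prime := ⟨hp⟩
  obtain ⟨P⟩ : Nonempty (Sylow p H) := inferInstance
  refine ⟨P, ?_⟩
  have hQ : IsPGroup p ((P : Subgroup H).map H.subtype) := P.2.map H.subtype
  letI : Fintype ((P : Subgroup H).map H.subtype) := Fintype.ofFinite _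
  obtain ⟨e'⟩ := hA' ((P : Subgroup H).map H.subtype)
  have h1 : IsZero (tateCohomology (res ((P : Subgroup H).map H.subtype).subtype A') 1) :=
    IsZero.of_iso (h p hp _ hQ n) e'.symm
  rw [isZero_tate_one_iff] at h1
  have h2 := h1Triv_res_res_of_map A' H (P : Subgroup H) h1
  rw [← isZero_H1_iff] at h2
  exact (ModuleCat.isZero_iff_subsingleton.1 h2).elim _ _

end

end Fermat.Agent.S55.T.H719
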