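import Fermat.Agent.S55.T.NakPGroupH719
import Fermat.Agent.S55.T.NakSylowH719

/-!
# S55, layer T, leaf T6a: Nakayama's theorem `Hom(lattice, coh. trivial)` is coh. trivial
(helper719)

Main result: `nakayama : NakayamaSpec` (Spec2.lean of helper53), i.e. for a finite group `G`,
`X R : Rep ℤ G` with `X` cohomologically trivial and `R` free over `ℤ`, the `G`-module
`Hom_ℤ(R, X)` is cohomologically trivial.  (Finite generation of `R` is not used.)

The proof is Serre, *Local Fields*, IX §5–7, organised so that no projective dimension and no cup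
product is needed:

1. `X` is a quotient of a torsion-free coinduced module with torsion-free cohomologically trivial
   kernel `K` (`coverSC`), and `Hom(R, coinduced)` is coinduced; so it suffices to treat `K`.
2. By Sylow reduction (`isCohTriv_of_pSubgroups`) it suffices to show `Ĥⁿ(Q, Hom(R, K)) = 0` for
   `p`-subgroups `Q`.
3. `K/p` is killed by `p` and has `H¹(Q, K/p) = 0`, hence is coinduced over `Q`
   (`exists_iso_coind₁_of_pGroup`); so `Hom(R, K/p) = Hom(R, K)/p` has vanishing Tate cohomology
   over `Q`, multiplication by `p` is injective on `Ĥⁿ(Q, Hom(R, K))`, which is killed by `|Q|`.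
-/

set_option autoImplicit false
set_option linter.style.haveILetI false

open CategoryTheory Limits groupCohomology Rep

namespace Fermat.Agent.S55.T.H719

open Fermat.Agent.S55.H572

noncomputable section

variable {k G : Type} [CommRing k] [Group G]

/-- Hypothesis on the coefficient ring used in the `p`-group step: submodules of modules killed by
a prime `p` are direct summands.  (True for `k = ℤ`.) -/
def HasRetractions (k : Type) [CommRing k] : Prop :=
  ∀ p : ℕ, p.Prime → ∀ (V : Type) [AddCommGroup V] [Module k V] (W : Submodule k V),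
    (∀ v : V, p • v = 0) → ∃ π : V →ₗ[k] W, ∀ w : W, π w = w

/-! ## Restriction commutes with `Hom_k(R, -)` -/

/-- `res (Hom_k(R, X)) ≅ Hom_k(res R, res X)` (the identity on underlying modules). -/
def resIhomIso (Q : Subgroup G) (R X : Rep.{0} k G) :
    res Q.subtype ((Rep.ihom R).obj X) ≅
      (Rep.ihom (res Q.subtype R)).obj (res Q.subtype X) :=
  Rep.mkIso (Representation.Equiv.mk (LinearEquiv.refl k (R.V →ₗ[k] X.V)) (fun g => by
    apply LinearMap.ext
    intro φ
    apply LinearMap.ext
    intro r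
    rfl))

/-! ## Multiplication by `p` -/

theorem ihom_map_nsmul_id (R K : Rep.{0} k G) (p : ℕ) :
    (Rep.ihom R).map (p • 𝟙 K) = p • 𝟙 ((Rep.ihom R).obj K) := by
  apply Rep.hom_ext
  apply Representation.IntertwiningMap.ext
  apply LinearMap.ext
  intro φ
  apply LinearMap.ext
  intro r
  have h1 : ihomLin (((Rep.ihom R).map (p • 𝟙 K)).hom φ) r = (p • 𝟙 K : K ⟶ K).hom (ihomLin φ r) :=
    rfl
  have h2 : (p • 𝟙 ((Rep.ihom R).obj K) : (Rep.ihom R).obj K ⟶ (Rep.ihom R).obj K).hom φ =
      p • φ := nsmul_id_hom_apply _ p φ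
  change ihomLin (((Rep.ihom R).map (p • 𝟙 K)).hom φ) r =
    ihomLin ((p • 𝟙 ((Rep.ihom R).obj K) : (Rep.ihom R).obj K ⟶ (Rep.ihom R).obj K).hom φ) r
  rw [h1, h2, nsmul_id_hom_apply]
  rfl

instance tateCohomologyFunctor_additive {K : Type} [Group K] [Fintype K] (n : ℤ) :
    (tateCohomologyFunctor (R := k) (G := K) n).Additive := by
  unfold tateCohomologyFunctor
  infer_instance

theorem tate_map_nsmul_id_apply {K : Type} [Group K] [Fintype K] (A : Rep.{0} k K) (p : ℕ)
    (n : ℤ) (x : tateCohomology A n) :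
    ((tateCohomologyFunctor n).map (p • 𝟙 A)).hom x = p • x := by
  rw [Functor.map_nsmul, CategoryTheory.Functor.map_id]
  rfl

/-! ## Step A: `p`-subgroups -/

theorem res_ihomSC_pSC_f (Q : Subgroup G) (R K : Rep.{0} k G) (p : ℕ) :
    ((ihomSC R (pSC K p)).map (resFunctor Q.subtype)).f =
      p • 𝟙 (res Q.subtype ((Rep.ihom R).obj K)) := by
  change (resFunctor Q.subtype).map ((Rep.ihom R).map (p • 𝟙 K)) = _
  rw [ihom_map_nsmul_id, Functor.map_nsmul, CategoryTheory.Functor.map_id]

theorem isZero_tate_ihom_of_pGroup [Finite G] (hret : HasRetractions k) {p : ℕ} (hp : p.Prime)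
    (Q : Subgroup G) (hQ : IsPGroup p Q) [Fintype Q] (R K : Rep.{0} k G)
    (hR : Module.Projective k R.V) (hK : PTorsionFree p K.V) (hKct : IsCohTriv K) (n : ℤ) :
    IsZero (tateCohomology (res Q.subtype ((Rep.ihom R).obj K)) n) := by
  haveI : Fact p.Prime := ⟨hp⟩
  have hS := pSC_shortExact K p hK
  have hKp : IsCohTriv (pSC K p).X₃ := isCohTriv_X₃ hS hKct hKct
  have hpV : ∀ v : (res Q.subtype (pSC K p).X₃).V, p • v = 0 := pSC_X₃_nsmul K p
  have hH1 : H1Triv (res Q.subtype (pSC K p).X₃) := (isZero_tate_one_iff _).1 (hKp Q 1)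
  obtain ⟨e⟩ := exists_iso_coind₁_of_pGroup hQ (res Q.subtype (pSC K p).X₃) hpV hH1
    (hret p hp _ _ hpV)
  have hX₃ : ∀ m : ℤ,
      IsZero (tateCohomology (res Q.subtype ((Rep.ihom R).obj (pSC K p).X₃)) m) := by
    intro m
    have iso := resIhomIso Q R (pSC K p).X₃ ≪≫ (Rep.ihom (res Q.subtype R)).mapIso e ≪≫
      ihomCoind₁Iso _ _
    exact isZero_tate_of_iso iso.symm m (isZero_tateCohomology_coind_bot _ m)
  have hT := ihomSC_shortExact R hR hS
  have hTres := (Rep.shortExact_res Q.subtype).2 hT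
  have hinj : ∀ (m : ℤ) (x : tateCohomology (res Q.subtype ((Rep.ihom R).obj K)) (m + 1)),
      p • x = 0 → x = 0 := by
    intro m x hx
    have hex := TateCohomology.exact₁ hTres m
    have hmono := hex.mono_g ((hX₃ m).eq_of_src _ _)
    have hinj' : Function.Injective ((tateCohomologyFunctor (m + 1)).map
        ((ihomSC R (pSC K p)).map (resFunctor Q.subtype)).f).hom :=
      (ModuleCat.mono_iff_injective _).1 hmono
    have hmap : ∀ y : tateCohomology (res Q.subtype ((Rep.ihom R).obj K)) (m + 1),
        ((tateCohomologyFunctor (m + 1)).map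
          ((ihomSC R (pSC K p)).map (resFunctor Q.subtype)).f).hom y = p • y := by
      intro y
      rw [res_ihomSC_pSC_f]
      exact tate_map_nsmul_id_apply _ p (m + 1) y
    apply hinj'
    rw [hmap, hmap, hx, smul_zero]
  obtain ⟨m, rfl⟩ : ∃ m : ℤ, n = m + 1 := ⟨n - 1, by ring⟩
  obtain ⟨a, ha⟩ := (IsPGroup.iff_card).1 hQ
  rw [ModuleCat.isZero_iff_subsingleton]
  refine ⟨fun x y => ?_⟩
  suffices ∀ z : tateCohomology (res Q.subtype ((Rep.ihom R).obj K)) (m + 1), z = 0 by
    rw [this x, this y]
  intro z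
  have hz : p ^ a • z = 0 := by
    rw [← ha]
    exact card_nsmul_tate_eq_zero _ Q (m + 1) z
  clear ha
  induction a with
  | zero => simpa using hz
  | succ a ih =>
    apply ih
    apply hinj
    rw [← mul_nsmul', ← pow_succ']
    exact hz

/-! ## Step B: torsion-free modules -/

theorem isCohTriv_ihom_of_torsionFree [Finite G] (hret : HasRetractions k)
    (R K : Rep.{0} k G) (hR : Module.Projective k R.V)
    (hK : ∀ p : ℕ, p.Prime → PTorsionFree p K.V) (hKct : IsCohTriv K) :
    IsCohTriv ((Rep.ihom R).obj K) :=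
  isCohTriv_of_pSubgroups _ fun p hp Q hQ _ n =>
    isZero_tate_ihom_of_pGroup hret hp Q hQ R K hR (hK p hp) hKct n

/-! ## Step C: the general case -/

/-- **Nakayama's theorem** for a coefficient ring `k` which is torsion-free and over which
submodules of modules killed by a prime are direct summands. -/
theorem isCohTriv_ihom [Finite G] (hk : ∀ p : ℕ, p.Prime → PTorsionFree p k)
    (hret : HasRetractions k) (R X : Rep.{0} k G) (hR : Module.Projective k R.V)
    (hX : IsCohTriv X) : IsCohTriv ((Rep.ihom R).obj X) := by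
  letI : Fintype G := Fintype.ofFinite G
  have hS := coverSC_shortExact X
  have hF : IsCohTriv (coverSC X).X₂ := isCohTriv_coind₁ _
  have hKct : IsCohTriv (coverSC X).X₁ := isCohTriv_X₁ hS hF hX
  have hKtf : ∀ p : ℕ, p.Prime → PTorsionFree p (coverSC X).X₁.V := fun p hp =>
    pTorsionFree_coverSC_X₁ (hk p hp) X
  have hT := ihomSC_shortExact R hR hS
  have h1 : IsCohTriv (ihomSC R (coverSC X)).X₁ :=
    isCohTriv_ihom_of_torsionFree hret R _ hR hKtf hKct
  have h2 : IsCohTriv (ihomSC R (coverSC X)).X₂ := isCohTriv_ihom_coind₁ R _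
  have h3 : IsCohTriv (ihomSC R (coverSC X)).X₃ := isCohTriv_X₃ hT h1 h2
  exact h3

/-! ## Step D: `k = ℤ` -/

theorem pTorsionFree_int (p : ℕ) (hp : p.Prime) : PTorsionFree p ℤ := by
  intro x hx
  rw [nsmul_eq_mul] at hx
  rcases mul_eq_zero.1 hx with h | h
  · exact absurd (by exact_mod_cast h) hp.ne_zero
  · exact h

theorem exists_retraction_zmod (p : ℕ) [Fact p.Prime] (V : Type) [AddCommGroup V]
    [Module (ZMod p) V] (W : AddSubgroup V) : ∃ π : V →+ W, ∀ w : W, π w = w := by
  obtain ⟨C, hC⟩ := Submodule.exists_isCompl (AddSubgroup.toZModSubmodule p W)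
  refine ⟨(Submodule.projectionOnto (AddSubgroup.toZModSubmodule p W) C hC).toAddMonoidHom,
    fun w => ?_⟩
  exact Submodule.projectionOnto_apply_left hC w

theorem hasRetractions_int : HasRetractions ℤ := by
  intro p hp V _ inst W hpV
  obtain rfl : inst = AddCommGroup.toIntModule V := Subsingleton.elim _ _
  haveI : Fact p.Prime := ⟨hp⟩
  obtain ⟨π₀, hπ₀⟩ := @exists_retraction_zmod p _ V _ (AddCommGroup.zmodModule hpV)
    W.toAddSubgroup
  refine ⟨{ toFun := π₀, map_add' := map_add π₀, map_smul' := fun c v => ?_ }, fun w => ?_⟩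
  · exact map_zsmul π₀ c v
  · exact hπ₀ w

/-- **T6a, Nakayama's theorem**: `Hom_ℤ(R, X)` is cohomologically trivial if `X` is and `R` is
`ℤ`-free. -/
theorem nakayama : NakayamaSpec := by
  intro G _ _ X R hfree _ hX
  exact isCohTriv_ihom pTorsionFree_int hasRetractions_int R X
    (@Module.Projective.of_free ℤ _ R.V _ R.hV2 hfree) hX

end

end Fermat.Agent.S55.T.H719
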