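import Fermat.Agent.S55.T.NakH837
import Fermat.Agent.S55.T.NakayamaH719
import Fermat.Agent.S55.H295.SplitSpecs
import Fermat.Agent.S55.T.T6pH353.T6p

/-!
# S55, layer T: T6 closed unconditionally (helper719)

Assembly of landed pieces:

* `H295.splitModule : SplitModuleSpec` (helper295),
* `H719.nakayama : NakayamaSpec` (helper719),
* `H837.tateNakayama_of : SplitModuleSpec → NakayamaSpec → TateNakayamaSpec` (helper837),
* `H353.tateNakayamaAt_of : TateNakayamaSpec → E1.TateNakayamaAtSpec` (helper353).

Hence `tateNakayama : TateNakayamaSpec` (T6) and `tateNakayamaAt : E1.TateNakayamaAtSpec` (T6p)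
hold unconditionally.
-/

set_option autoImplicit false

namespace Fermat.Agent.S55.T.H719

/-- **T6 (Tate–Nakayama for lattices)**, unconditional. -/
theorem tateNakayama : TateNakayamaSpec :=
  H837.tateNakayama_of Fermat.Agent.S55.H295.splitModule nakayama

/-- **T6p (Tate–Nakayama at `p`)**, unconditional. -/
theorem tateNakayamaAt : Fermat.Agent.S55.E1.TateNakayamaAtSpec :=
  H353.tateNakayamaAt_of tateNakayama

end Fermat.Agent.S55.T.H719
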