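import Fermat.Agent.S55.T.Spec2
import Fermat.Agent.S55.T.ClassModuleOfCyclicH53
import Fermat.Agent.S55.T.HerbrandH895
import Fermat.Agent.S55.T.InfRes2H954
import Fermat.Agent.S55.T.UglyH954
import Fermat.Agent.S55.T.CoindCohTrivH572
import Fermat.Agent.S55.T.RecipH539
import Fermat.Agent.S55.H295.TwinVanishing
import Fermat.Agent.S55.T.CoresH572
import Fermat.Agent.S55.T.LatDualH359
import Fermat.Agent.S55.H295.TateSpecs
import Fermat.Agent.S55.H295.SplitSpecs
import Fermat.Agent.S55.T.T6ClosedH719
import Fermat.Agent.S55.T.ShapiroH303
import Fermat.Agent.S55.T.SumH635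
import Fermat.Agent.S55.T.PermMainH652

/-!
# S55, layer T: assembly (architect helper53)

One canonical, unconditional (or explicitly conditional) proof of every Spec of
`T/Spec.lean`, `T/Spec2.lean`.  Consumers in layers L, G, D can `import Fermat.Agent.S55.T.All`
and use `Fermat.Agent.S55.T.All.*`.

Status (proved unconditionally here): `cyclicCard`, `herbrand`, `herbrandFinite`, `infRes2`,
`ugly`, `coindCohTriv`, `h1TrivInt`, `classModuleOfCyclic`, `twinVanishing`, `cores`, `resIndex`,
`cardTorsion`, `latticeDuality`, `tate`, `tateH3`, `splitModule`, `tateReciprocity`.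
`nakayama`, `tateNakayama` (T6), `tateNakayamaAt` (T6p = `E1.TateNakayamaAtSpec`),
`shapiroExplicit`, `shapiroRecognition` (T8), `finiteProd`, `directSum` (T9), `perm`, `permH1` (T10).
LAYER T IS COMPLETE: every Spec of `T/Spec.lean`, `T/Spec2.lean`, `T/Spec3.lean` is proved.
-/

set_option autoImplicit false

namespace Fermat.Agent.S55.T.All

theorem cyclicCard : CyclicCardSpec := H895.cyclicCard
theorem herbrand : HerbrandSpec := H895.herbrand
theorem herbrandFinite : HerbrandFiniteSpec := H895.herbrandFinite
theorem infRes2 : InfRes2Spec := H954.infRes2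
theorem ugly : UglySpec := H954.ugly
theorem coindCohTriv : CoindCohTrivSpec := H572.coindCohTriv
theorem h1TrivInt : H1TrivIntSpec := H539.h1TrivInt
theorem classModuleOfCyclic : ClassModuleOfCyclicSpec := H53.classModuleOfCyclic
theorem twinVanishing : TwinVanishingSpec := Fermat.Agent.S55.H295.twinVanishing
theorem cores : CoresSpec := H572.cores
theorem resIndex : ResIndexSpec := H572.resIndex
theorem cardTorsion : CardTorsionSpec := H572.cardTorsion
theorem latticeDuality : LatticeDualitySpec := H359.latticeDuality
theorem tateReciprocity_of (h : TateSpec) : TateReciprocitySpec := H539.tateReciprocity_of h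
theorem tate : TateSpec := Fermat.Agent.S55.H295.tate
theorem tateH3 : TateH3Spec := Fermat.Agent.S55.H295.tateH3
theorem splitModule : SplitModuleSpec := Fermat.Agent.S55.H295.splitModule
theorem tateReciprocity : TateReciprocitySpec := tateReciprocity_of tate
theorem nakayama : NakayamaSpec := H719.nakayama
theorem tateNakayama : TateNakayamaSpec := H719.tateNakayama
theorem tateNakayamaAt : Fermat.Agent.S55.E1.TateNakayamaAtSpec := H719.tateNakayamaAt
theorem shapiroExplicit : ShapiroExplicitSpec := ShapiroH303.shapiroExplicit
theorem shapiroRecognition : ShapiroRecognitionSpec := ShapiroH303.shapiroRecognition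
theorem finiteProd : FiniteProdSpec := H635.finiteProd
theorem directSum : DirectSumSpec := H635.directSum
theorem perm : PermSpec := H652.permSpec
theorem permH1 : PermH1Spec := H652.permH1Spec

end Fermat.Agent.S55.T.All
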