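import Mathlib
import Fermat.Agent.S55.H954.H2InfResCore

/-!
# Inflation–restriction in degree 2 when `H¹(S, A)` is only killed by `m`  (cochain-level core)

(helper244; generalises `Fermat.Agent.S55.H954.H2InfResCore` of helper954, whose lemmas
`step0`, `step1`, `step3`, `isOneCocycle_of_vanish_left` are reused verbatim.)

`ρ : Representation k G A`, `S ⊴ G`, `m : ℕ`.  Hypothesis `HOneKilledBy m ρ S`: for every
1-cocycle `w` of `S` with values in `A`, `m • w` is a coboundary.  (For `m = 1` this is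
`HOneVanishes`.)  Typical use: `S` any finite group, `P ≤ S` a Sylow `p`-subgroup with
`H¹(P, A) = 0`; then `m = [S : P]` is prime to `p` and kills `H¹(S, A)`.

* `exists_inflated_of_res_coboundary_nsmul`: if the restriction to `S` of a 2-cocycle `f` of `G`
  is a coboundary, then `m • f` is cohomologous to an `S`-bi-invariant 2-cocycle with values in
  `A^S`.
* `exists_invariant_cochain_of_inf_coboundary_nsmul`: if an inflated 2-cocycle `f'` is the
  coboundary of `c`, then `m • f'` is the coboundary of an `S`-invariant cochain with values in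
  `A^S`.
-/

set_option autoImplicit false
set_option linter.unusedSectionVars false
set_option linter.unusedSimpArgs false

namespace Fermat.Agent.S55.T.H244

open Fermat.Agent.S55.H954

variable {k G A : Type*} [CommRing k] [Group G] [AddCommGroup A] [Module k A]

/-- `m` kills `H¹(S, A)`, on the level of cocycles. -/
def HOneKilledBy (m : ℕ) (ρ : Representation k G A) (S : Subgroup G) : Prop :=
  ∀ w : S → A, (∀ s t : S, w (s * t) = ρ s (w t) + w s) → ∃ a : A, ∀ s : S, m • w s = ρ s a - a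

lemma hOneKilledBy_one_of_hOneVanishes {ρ : Representation k G A} {S : Subgroup G}
    (h : HOneVanishes ρ S) : HOneKilledBy 1 ρ S := by
  intro w hw
  obtain ⟨a, ha⟩ := h w hw
  exact ⟨a, fun s => by rw [one_smul]; exact ha s⟩

lemma dOne_nsmul (ρ : Representation k G A) (m : ℕ) (c : G → A) :
    dOne ρ (m • c) = m • dOne ρ c := by
  funext ⟨g, h⟩
  simp only [dOne_apply, Pi.smul_apply, map_nsmul, smul_add, smul_sub]

lemma isTwoCocycle_nsmul {ρ : Representation k G A} {f : G × G → A} (hf : IsTwoCocycle ρ f)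
    (m : ℕ) : IsTwoCocycle ρ (m • f) := by
  intro g h j
  have h1 := hf g h j
  simp only [Pi.smul_apply, map_nsmul]
  rw [← smul_add, ← smul_add, h1]

section Steps

variable (ρ : Representation k G A) (S : Subgroup G) [S.Normal]

/-- Step 2, `m`-version: for a cocycle `f` vanishing on `S × G`, make `(m • f) (g, s)` vanish
for `s ∈ S`, keeping `(m • f) (s, g) = 0`. -/
lemma step2_nsmul {m : ℕ} (hH1 : HOneKilledBy m ρ S) {f : G × G → A} (hf : IsTwoCocycle ρ f)
    (h1 : ∀ s ∈ S, ∀ g : G, f (s, g) = 0) :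
    ∃ c : G → A, (∀ s ∈ S, ∀ g : G, (m • f - dOne ρ c) (s, g) = 0) ∧
      ∀ s ∈ S, ∀ g : G, (m • f - dOne ρ c) (g, s) = 0 := by
  classical
  have hF : IsTwoCocycle ρ (m • f) := isTwoCocycle_nsmul hf m
  have hF1 : ∀ s ∈ S, ∀ g : G, (m • f) (s, g) = 0 := fun s hs g => by
    simp only [Pi.smul_apply, h1 s hs g, smul_zero]
  have hex : ∀ g : G, ∃ a : A, ∀ s : S, ρ g⁻¹ ((m • f) (g, (s : G))) = ρ s a - a := fun g => by
    obtain ⟨a, ha⟩ := hH1 (fun s => ρ g⁻¹ (f (g, (s : G))))
      (fun s t => isOneCocycle_of_vanish_left ρ S hf h1 g s t)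
    exact ⟨a, fun s => by simp only [Pi.smul_apply, map_nsmul]; exact ha s⟩
  choose a ha using hex
  set F : G × G → A := m • f with hFdef
  set a' : G → A := fun g => if g ∈ S then 0 else a (cosetRep S g) with ha'
  have ha'_right : ∀ g : G, ∀ s ∈ S, a' (g * s) = a' g := by
    intro g s hs
    simp only [ha', Subgroup.mul_mem_cancel_right S hs, cosetRep_mul_right S g hs]
  have ha'_left : ∀ g : G, ∀ s ∈ S, a' (s * g) = a' g := by
    intro g s hs
    simp only [ha', Subgroup.mul_mem_cancel_left S hs, cosetRep_mul_left S g hs]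
  have ha'_mem : ∀ s ∈ S, a' s = 0 := fun s hs => by simp [ha', hs]
  have key : ∀ g : G, ∀ s ∈ S, F (g, s) = ρ (g * s) (a' g) - ρ g (a' g) := by
    intro g s hs
    by_cases hg : g ∈ S
    · rw [hF1 g hg s, ha'_mem g hg]; simp
    · have hr : a' g = a (cosetRep S g) := by simp [ha', hg]
      rw [hr]
      set r := cosetRep S g with hrdef
      set t := r⁻¹ * g with htdef
      have ht : t ∈ S := cosetRep_inv_mul_mem S g
      have hgrt : g = r * t := by simp [htdef]
      have c := hF r t s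
      rw [hF1 t ht s, map_zero, zero_add, ← hgrt] at c
      have e1 := ha r ⟨t * s, S.mul_mem ht hs⟩
      have e2 := ha r ⟨t, ht⟩
      simp only [Subgroup.coe_mk] at e1 e2
      have e1' : F (r, t * s) = ρ r (ρ (t * s) (a r) - a r) := by
        rw [← e1, ← Module.End.mul_apply, ← map_mul]; simp
      have e2' : F (r, t) = ρ r (ρ t (a r) - a r) := by
        rw [← e2, ← Module.End.mul_apply, ← map_mul]; simp
      have : F (g, s) = F (r, t * s) - F (r, t) := eq_sub_of_add_eq c
      rw [this, e1', e2', hgrt]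
      simp only [map_sub, map_mul, Module.End.mul_apply]
      abel
  refine ⟨fun g => - ρ g (a' g), fun s hs g => ?_, fun s hs g => ?_⟩
  · simp only [Pi.sub_apply, dOne_apply, hF1 s hs g, ha'_left g s hs, ha'_mem s hs, map_neg,
      map_zero, map_mul, Module.End.mul_apply]
    abel
  · simp only [Pi.sub_apply, dOne_apply, key g s hs, ha'_right g s hs, ha'_mem s hs, map_neg,
      map_zero, map_mul, Module.End.mul_apply]
    abel

/-- **Inflation–restriction in degree 2, exactness at `H²(G, A)` up to `m`** (cochain form). -/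
theorem exists_inflated_of_res_coboundary_nsmul {m : ℕ} (hH1 : HOneKilledBy m ρ S)
    {f : G × G → A} (hf : IsTwoCocycle ρ f) (φ : S → A)
    (hφ : ∀ s t : S, f (s, t) = ρ s (φ t) - φ (s * t) + φ s) :
    ∃ (c : G → A) (f' : G × G → A), m • f = f' + dOne ρ c ∧ IsTwoCocycle ρ f' ∧
      (∀ s ∈ S, ∀ g h : G, f' (g, h * s) = f' (g, h)) ∧
      (∀ s ∈ S, ∀ g h : G, f' (g * s, h) = f' (g, h)) ∧
      (∀ s ∈ S, ∀ g h : G, ρ s (f' (g, h)) = f' (g, h)) := by
  obtain ⟨c0, h0⟩ := step0 ρ S φ hφ
  have hf0 : IsTwoCocycle ρ (f - dOne ρ c0) := hf.sub (isTwoCocycle_dOne ρ c0)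
  obtain ⟨c1, h1⟩ := step1 ρ S hf0 h0
  have hf1 : IsTwoCocycle ρ (f - dOne ρ c0 - dOne ρ c1) := hf0.sub (isTwoCocycle_dOne ρ c1)
  obtain ⟨c2, h2, h2'⟩ := step2_nsmul ρ S hH1 hf1 h1
  have hf2 : IsTwoCocycle ρ (m • (f - dOne ρ c0 - dOne ρ c1) - dOne ρ c2) :=
    (isTwoCocycle_nsmul hf1 m).sub (isTwoCocycle_dOne ρ c2)
  obtain ⟨i1, i2, i3⟩ := step3 ρ S hf2 h2 h2'
  refine ⟨m • c0 + m • c1 + c2, m • (f - dOne ρ c0 - dOne ρ c1) - dOne ρ c2, ?_, hf2, i1, i2, i3⟩
  funext ⟨g, h⟩
  simp only [Pi.add_apply, Pi.sub_apply, Pi.smul_apply, dOne_apply, map_add, map_nsmul,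
    smul_sub, smul_add]
  abel

/-- **Inflation–restriction in degree 2, injectivity of inflation up to `m`** (cochain form):
if an `S`-bi-invariant `A^S`-valued function `f'` equals `dOne c`, then `m • f'` is the
coboundary of an `S`-invariant cochain with values in `A^S`. -/
theorem exists_invariant_cochain_of_inf_coboundary_nsmul {m : ℕ} (hH1 : HOneKilledBy m ρ S)
    {f' : G × G → A}
    (hinv2 : ∀ s ∈ S, ∀ g h : G, f' (g, h * s) = f' (g, h))
    (hinv1 : ∀ s ∈ S, ∀ g h : G, f' (g * s, h) = f' (g, h))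
    (hval : ∀ s ∈ S, ∀ g h : G, ρ s (f' (g, h)) = f' (g, h))
    (c : G → A) (hc : f' = dOne ρ c) :
    ∃ c' : G → A, m • f' = dOne ρ c' ∧ (∀ s ∈ S, ∀ g : G, c' (g * s) = c' g) ∧
      (∀ s ∈ S, ∀ g : G, ρ s (c' g) = c' g) := by
  set e := f' (1, 1) with he
  have hfe : ∀ s ∈ S, ∀ t ∈ S, f' (s, t) = e := by
    intro s hs t ht
    have := hinv1 s hs 1 t
    rw [one_mul] at this
    rw [this]
    have := hinv2 t ht 1 1
    rwa [one_mul] at this
  have hρe : ∀ s ∈ S, ρ s e = e := fun s hs => hval s hs 1 1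
  -- `c - e` restricted to `S` is a 1-cocycle
  obtain ⟨a, ha⟩ := hH1 (fun s => c s - e) (by
    intro s t
    have h := hfe s s.2 t t.2
    rw [hc, dOne_apply] at h
    simp only [Subgroup.coe_mul, map_sub, hρe s s.2]
    have : c (↑s * ↑t) = ρ ↑s (c ↑t) + c ↑s - e := by rw [← h]; abel
    rw [this]; abel)
  -- the new objects: `F = m • f'`, `C = m • c`, `E = m • e`
  set F : G × G → A := m • f' with hFdef
  set E : A := m • e with hEdef
  have hFinv2 : ∀ s ∈ S, ∀ g h : G, F (g, h * s) = F (g, h) := fun s hs g h => by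
    simp only [hFdef, Pi.smul_apply, hinv2 s hs g h]
  have hFinv1 : ∀ s ∈ S, ∀ g h : G, F (g * s, h) = F (g, h) := fun s hs g h => by
    simp only [hFdef, Pi.smul_apply, hinv1 s hs g h]
  have hF11 : F (1, 1) = E := rfl
  have hcS : ∀ s ∈ S, m • c s - (ρ s a - a) = E := by
    intro s hs
    have := ha ⟨s, hs⟩
    simp only [Subgroup.coe_mk, smul_sub] at this
    rw [← this, hEdef]; abel
  set c' : G → A := fun g => m • c g - (ρ g a - a) with hc'
  have hd : F = dOne ρ c' := by
    rw [hFdef, hc, ← dOne_nsmul]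
    funext ⟨g, h⟩
    simp only [dOne_apply, hc', Pi.smul_apply, map_sub, map_mul, Module.End.mul_apply]
    abel
  have hc'S : ∀ s ∈ S, c' s = E := hcS
  have hc'1 : c' 1 = E := hc'S 1 S.one_mem
  have hfg1 : ∀ g : G, F (g, 1) = ρ g E := by
    intro g
    have := congr_fun hd (g, 1)
    rw [dOne_apply, mul_one, hc'1] at this
    rw [this]; abel
  have hf1g : ∀ g : G, F (1, g) = E := by
    intro g
    have := congr_fun hd (1, g)
    rw [dOne_apply, one_mul, hc'1, map_one, Module.End.one_apply] at this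
    rw [this]; abel
  have hright : ∀ s ∈ S, ∀ g : G, c' (g * s) = c' g := by
    intro s hs g
    have h1 := congr_fun hd (g, s)
    rw [dOne_apply, hc'S s hs] at h1
    have h2 := hFinv2 s hs g 1
    rw [one_mul, hfg1 g] at h2
    rw [h2] at h1
    have h3 : c' g - c' (g * s) = 0 := by
      have := sub_eq_zero.2 h1.symm
      rw [← this]; abel
    exact (sub_eq_zero.1 h3).symm
  refine ⟨c', hd, hright, fun s hs g => ?_⟩
  have h1 := congr_fun hd (s, g)
  rw [dOne_apply, hc'S s hs] at h1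
  have h2 := hFinv1 s hs 1 g
  rw [one_mul, hf1g g] at h2
  rw [h2] at h1
  have h3 : c' (s * g) = c' g := by
    have : s * g = g * (g⁻¹ * s * g) := by group
    rw [this]
    exact hright _ (Subgroup.Normal.conj_mem' ‹S.Normal› _ hs _) g
  rw [h3] at h1
  have h4 : ρ s (c' g) - c' g = 0 := by
    have := sub_eq_zero.2 h1.symm
    rw [← this]; abel
  exact sub_eq_zero.1 h4

end Steps

end Fermat.Agent.S55.T.H244
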