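import Fermat.Agent.S55.T.Spec
import Fermat.Agent.S55.H954.H2InfRes
import Fermat.Agent.S55.T.InfResTorsCoreH244
import Fermat.Agent.S55.T.CoresH572

/-!
# Inflation–restriction in degree 2 up to torsion, and its `p`-local form  (helper244)

`A : Rep k G`, `S ⊴ G`, `m : ℕ` with `m • H¹(S, A) = 0`.  Then (vocabulary of `T/Spec.lean`)

* `nsmul_eq_zero_of_infMap_eq_zero` : `inf y = 0 → m • y = 0`   (`y ∈ H²(G ⧸ S, A^S)`),
* `exists_infMap_eq_nsmul_of_resMap_eq_zero` : `res_S x = 0 → ∃ y, inf y = m • x`.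

`p`-local consequences (`p.Coprime m`): inflation is injective on `p`-primary elements, and a
`p`-primary class with trivial restriction to `S` is inflated.

This is the form of inflation–restriction needed for class modules "at `p`": there `H¹(P, C) = 0`
is only known for `p`-subgroups `P`, so for a normal subgroup `S` which is not a `p`-group one
only knows `[S : P] • H¹(S, C) = 0` (`P` a Sylow `p`-subgroup of `S`, `ResIndexSpec`);
see `hOneKilled_of_sylow`.
-/

set_option autoImplicit false
set_option linter.unusedSectionVars false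

namespace Fermat.Agent.S55.T.H244

open CategoryTheory groupCohomology Rep Fermat.Agent.S55.H954

variable {k G : Type} [CommRing k] [Group G]
variable (A : Rep.{0} k G) (S : Subgroup G) [S.Normal]

variable {A S} in
lemma hOneKilledBy_of_H1 {m : ℕ} (h : ∀ x : groupCohomology (resSub A S) 1, m • x = 0) :
    HOneKilledBy m A.ρ S := by
  intro w hw
  have hmem : w ∈ cocycles₁ (res S.subtype A) :=
    (mem_cocycles₁_iff (A := res S.subtype A) w).2 (fun s t => hw s t)
  have h0 := h (H1π _ ⟨w, hmem⟩)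
  rw [← map_nsmul, H1π_eq_zero_iff] at h0
  obtain ⟨a, ha⟩ := h0
  refine ⟨a, fun s => ?_⟩
  have := congr_fun ha s
  rw [d₀₁_hom_apply] at this
  exact this.symm

set_option backward.defeqAttrib.useBackward true in
set_option backward.isDefEq.respectTransparency false in
/-- If `m` kills `H¹(S, A)` and `res_S x = 0`, then `m • x` is inflated from `G ⧸ S`. -/
theorem exists_infMap_eq_nsmul_of_resMap_eq_zero {m : ℕ}
    (h : ∀ x : groupCohomology (resSub A S) 1, m • x = 0)
    (x : groupCohomology A 2) (hx : (resMap A S 2).hom x = 0) :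
    ∃ y : groupCohomology (A.quotientToInvariants S) 2, (infMap A S 2).hom y = m • x := by
  induction x using H2_induction_on with | @h x =>
  have hx' : H2π (res S.subtype A) (mapCocycles₂ S.subtype (𝟙 (res S.subtype A)) x) = 0 := by
    rw [← H2π_comp_map_apply S.subtype]; exact hx
  obtain ⟨(φ : S → A), hφ⟩ := (H2π_eq_zero_iff _).1 hx'
  have hcoc : IsTwoCocycle A.ρ x := (mem_cocycles₂_iff _).1 x.2
  have hφ' : ∀ s t : S, x ((s : G), (t : G)) = A.ρ s (φ t) - φ (s * t) + φ s := by
    intro s t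
    have := congr_fun hφ (s, t)
    rw [d₁₂_hom_apply] at this
    exact this.symm
  obtain ⟨c, f', hff', hf'coc, i2, i1, i3⟩ :=
    exists_inflated_of_res_coboundary_nsmul A.ρ S (hOneKilledBy_of_H1 h) hcoc φ hφ'
  have hwd : ∀ g₁ h₁ g₂ h₂ : G, QuotientGroup.leftRel S g₁ g₂ → QuotientGroup.leftRel S h₁ h₂ →
      f' (g₁, h₁) = f' (g₂, h₂) := by
    intro g₁ h₁ g₂ h₂ hg hh
    rw [QuotientGroup.leftRel_apply] at hg hh
    have e1 : g₂ = g₁ * (g₁⁻¹ * g₂) := by group
    have e2 : h₂ = h₁ * (h₁⁻¹ * h₂) := by group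
    rw [e1, e2, i1 _ hg, i2 _ hh]
  have hinvar : ∀ g h : G, f' (g, h) ∈ Representation.invariants (A.ρ.comp S.subtype) := by
    intro g h s
    exact i3 s s.2 g h
  let fbar : (G ⧸ S) × (G ⧸ S) → (A.quotientToInvariants S) := fun p =>
    Quotient.liftOn₂' p.1 p.2 (fun g h => (⟨f' (g, h), hinvar g h⟩ : (A.quotientToInvariants S)))
      (fun g₁ h₁ g₂ h₂ hg hh => Subtype.ext (hwd g₁ h₁ g₂ h₂ hg hh))
  have hfbar : fbar ∈ cocycles₂ (A.quotientToInvariants S) := by
    rw [mem_cocycles₂_iff]
    intro g h j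
    induction g using QuotientGroup.induction_on with | @H g =>
    induction h using QuotientGroup.induction_on with | @H h =>
    induction j using QuotientGroup.induction_on with | @H j =>
    apply Subtype.ext
    exact hf'coc g h j
  refine ⟨H2π _ ⟨fbar, hfbar⟩, ?_⟩
  rw [← map_nsmul]
  erw [H2π_comp_map_apply (QuotientGroup.mk' S)]
  rw [H2π_eq_iff]
  refine ⟨-c, ?_⟩
  funext ⟨g, j⟩
  have := congr_fun hff' (g, j)
  rw [d₁₂_hom_apply]
  change _ = f' (g, j) - (m • x) (g, j)
  have hmx : (m • x) (g, j) = (m • (x : G × G → A)) (g, j) := rfl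
  rw [hmx, this]
  simp only [Pi.add_apply, dOne_apply, Pi.neg_apply, map_neg]
  abel

set_option backward.defeqAttrib.useBackward true in
set_option backward.isDefEq.respectTransparency false in
/-- If `m` kills `H¹(S, A)` and `inf y = 0`, then `m • y = 0`. -/
theorem nsmul_eq_zero_of_infMap_eq_zero {m : ℕ}
    (h : ∀ x : groupCohomology (resSub A S) 1, m • x = 0)
    (y : groupCohomology (A.quotientToInvariants S) 2) (hy : (infMap A S 2).hom y = 0) :
    m • y = 0 := by
  induction y using H2_induction_on with | @h x =>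
  have hx : H2π A (mapCocycles₂ (QuotientGroup.mk' S)
      (ofHom <| A.ρ.quotientToInvariants_lift S) x) = 0 := by
    rw [← H2π_comp_map_apply (QuotientGroup.mk' S)]; exact hy
  obtain ⟨(c : G → A), hc⟩ := (H2π_eq_zero_iff _).1 hx
  set f' : G × G → A := fun p => ((x ((p.1 : G ⧸ S), (p.2 : G ⧸ S)) : A.quotientToInvariants S) : A)
    with hf'
  have hc' : f' = dOne A.ρ c := by
    funext ⟨g, j⟩
    have := congr_fun hc (g, j)
    rw [d₁₂_hom_apply] at this
    rw [dOne_apply, this]
    rfl
  have hq : ∀ s ∈ S, ∀ g : G, ((g * s : G) : G ⧸ S) = (g : G ⧸ S) := by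
    intro s hs g
    rw [QuotientGroup.mk_mul, (QuotientGroup.eq_one_iff s).2 hs, mul_one]
  obtain ⟨c', hd, hright, hval⟩ := exists_invariant_cochain_of_inf_coboundary_nsmul A.ρ S
    (hOneKilledBy_of_H1 h) (f' := f')
    (fun s hs g j => by simp only [hf', hq s hs])
    (fun s hs g j => by simp only [hf', hq s hs])
    (fun s hs g j => (x ((g : G ⧸ S), (j : G ⧸ S))).2 ⟨s, hs⟩) c hc'
  rw [← map_nsmul, H2π_eq_zero_iff]
  refine ⟨fun q => Quotient.liftOn' q
    (fun g => (⟨c' g, fun s => hval s s.2 g⟩ : (A.quotientToInvariants S)))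
    (fun g₁ g₂ hg => Subtype.ext ?_), ?_⟩
  · rw [QuotientGroup.leftRel_apply] at hg
    have e1 : g₂ = g₁ * (g₁⁻¹ * g₂) := by group
    change c' g₁ = c' g₂
    rw [e1, hright _ hg]
  · funext ⟨g, j⟩
    induction g using QuotientGroup.induction_on with | @H g =>
    induction j using QuotientGroup.induction_on with | @H j =>
    apply Subtype.ext
    have := congr_fun hd (g, j)
    rw [d₁₂_hom_apply]
    exact this.symm

end Fermat.Agent.S55.T.H244

namespace Fermat.Agent.S55.T.H244

open CategoryTheory groupCohomology Rep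

section PLocal

variable {k G : Type} [CommRing k] [Group G]
variable (A : Rep.{0} k G) (S : Subgroup G) [S.Normal]

/-- Elementary: an element of an additive group killed by two coprime integers is zero. -/
lemma eq_zero_of_coprime_nsmul {M : Type*} [AddCommGroup M] {a b : ℕ} (hab : a.Coprime b)
    {x : M} (ha : a • x = 0) (hb : b • x = 0) : x = 0 := by
  have h1 : addOrderOf x ∣ a := addOrderOf_dvd_of_nsmul_eq_zero ha
  have h2 : addOrderOf x ∣ b := addOrderOf_dvd_of_nsmul_eq_zero hb
  have h3 : addOrderOf x ∣ 1 := by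
    have := Nat.dvd_gcd h1 h2
    rwa [hab] at this
  have h4 : addOrderOf x = 1 := Nat.dvd_one.1 h3
  exact AddMonoid.addOrderOf_eq_one_iff.1 h4

/-- Elementary: if `a • x = 0` and `a`, `m` are coprime, then `x` is a multiple of `m • x`. -/
lemma exists_nsmul_nsmul_eq_of_coprime {M : Type*} [AddCommGroup M] {a m : ℕ}
    (ham : a.Coprime m) (ha0 : 0 < a) {x : M} (ha : a • x = 0) : ∃ u : ℕ, u • m • x = x := by
  rcases Nat.lt_or_ge 1 a with h1 | h1
  · -- `m u ≡ 1 mod a`
    obtain ⟨u, -, hu⟩ := Nat.exists_mul_mod_eq_one_of_coprime ham.symm h1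
    refine ⟨u, ?_⟩
    have hdm : m * u = a * (m * u / a) + 1 := by
      have := Nat.div_add_mod (m * u) a
      rw [hu] at this
      exact this.symm
    rw [← mul_nsmul', mul_comm u m, hdm, add_nsmul, one_nsmul, mul_nsmul, ha,
      smul_zero, zero_add]
  · have h1' : a = 1 := le_antisymm h1 ha0
    subst h1'
    have hx0 : x = 0 := by simpa using ha
    exact ⟨0, by rw [hx0, smul_zero, smul_zero]⟩

/-- **`p`-local inflation–restriction, injectivity.**  If `m` kills `H¹(S, A)`, `a` is coprime
to `m` (e.g. `a = p ^ n`, `p ∤ m`) and `a • y = 0`, then `inf y = 0 → y = 0`. -/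
theorem eq_zero_of_infMap_eq_zero_of_coprime {m a : ℕ} (ham : a.Coprime m)
    (h : ∀ x : groupCohomology (resSub A S) 1, m • x = 0)
    (y : groupCohomology (A.quotientToInvariants S) 2) (hay : a • y = 0)
    (hy : (infMap A S 2).hom y = 0) : y = 0 :=
  eq_zero_of_coprime_nsmul ham hay (nsmul_eq_zero_of_infMap_eq_zero A S h y hy)

/-- **`p`-local inflation–restriction, exactness.**  If `m` kills `H¹(S, A)`, `a > 0` is coprime
to `m`, `a • x = 0` and `res_S x = 0`, then `x` is inflated from `G ⧸ S`. -/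
theorem exists_infMap_eq_of_resMap_eq_zero_of_coprime {m a : ℕ} (ham : a.Coprime m)
    (ha0 : 0 < a) (h : ∀ x : groupCohomology (resSub A S) 1, m • x = 0)
    (x : groupCohomology A 2) (hax : a • x = 0) (hx : (resMap A S 2).hom x = 0) :
    ∃ y : groupCohomology (A.quotientToInvariants S) 2, (infMap A S 2).hom y = x := by
  obtain ⟨y₀, hy₀⟩ := exists_infMap_eq_nsmul_of_resMap_eq_zero A S h x hx
  obtain ⟨u, hu⟩ := exists_nsmul_nsmul_eq_of_coprime ham ha0 hax
  exact ⟨u • y₀, by rw [map_nsmul, hy₀, hu]⟩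

/-! ### Where the hypothesis `m • H¹(S, A) = 0` comes from -/

/-- If `H¹(P, A) = 0` for a subgroup `P ≤ S` (e.g. a Sylow `p`-subgroup and `A` a class module
"at `p`"), then `[S : P]` kills `H¹(S, A)`.  (`ResIndexSpec` for the group `S`.) -/
theorem hOne_nsmul_eq_zero_of_subgroup (S : Subgroup G) [Finite S] (P : Subgroup S)
    (hP : ∀ z : groupCohomology (resSub (resSub A S) P) 1, z = 0)
    (x : groupCohomology (resSub A S) 1) : P.index • x = 0 :=
  H572.resIndex k S (resSub A S) P 1 Nat.one_pos x (hP _)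

/-- **`p`-local inflation–restriction in degree 2**, Sylow form.  `S ⊴ G` finite, `P ≤ S` with
`H¹(P, A) = 0`, `a` coprime to `[S : P]`:
* `inf : H²(G ⧸ S, A^S) → H²(G, A)` is injective on elements killed by `a`;
* an element of `H²(G, A)` killed by `a` (`a > 0`) with zero restriction to `S` is inflated. -/
theorem infRes2_of_subgroup [Finite S] (P : Subgroup S)
    (hP : ∀ z : groupCohomology (resSub (resSub A S) P) 1, z = 0)
    {a : ℕ} (ha : a.Coprime P.index) :
    (∀ y : groupCohomology (A.quotientToInvariants S) 2, a • y = 0 →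
      (infMap A S 2).hom y = 0 → y = 0) ∧
    (0 < a → ∀ x : groupCohomology A 2, a • x = 0 → (resMap A S 2).hom x = 0 →
      ∃ y : groupCohomology (A.quotientToInvariants S) 2, (infMap A S 2).hom y = x) :=
  ⟨fun y hay hy => eq_zero_of_infMap_eq_zero_of_coprime A S ha
      (hOne_nsmul_eq_zero_of_subgroup A S P hP) y hay hy,
   fun ha0 x hax hx => exists_infMap_eq_of_resMap_eq_zero_of_coprime A S ha ha0
      (hOne_nsmul_eq_zero_of_subgroup A S P hP) x hax hx⟩

/-- In the exactness statement the preimage may be chosen killed by `a` as well (so the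
`a`-torsion of `H²(G ⧸ S, A^S)` maps ONTO the `a`-torsion of `ker res`), provided `a` is coprime
to `m`. -/
theorem exists_infMap_eq_of_resMap_eq_zero_of_coprime' {m a : ℕ} (ham : a.Coprime m)
    (ha0 : 0 < a) (h : ∀ x : groupCohomology (resSub A S) 1, m • x = 0)
    (x : groupCohomology A 2) (hax : a • x = 0) (hx : (resMap A S 2).hom x = 0) :
    ∃ y : groupCohomology (A.quotientToInvariants S) 2,
      a • y = 0 ∧ (infMap A S 2).hom y = x := by
  obtain ⟨y₀, hy₀⟩ := exists_infMap_eq_nsmul_of_resMap_eq_zero A S h x hx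
  obtain ⟨u, hu⟩ := exists_nsmul_nsmul_eq_of_coprime ham ha0 hax
  -- `y₁ = u • y₀` maps to `x`; `a • y₁` maps to `0`, so `m • a • y₁ = 0`; correct `y₁` by a
  -- multiple: `y = (v * m) • y₁` with `v m ≡ 1 mod a`.
  have hy₁ : (infMap A S 2).hom (u • y₀) = x := by rw [map_nsmul, hy₀, hu]
  have hkill : m • a • (u • y₀) = 0 :=
    nsmul_eq_zero_of_infMap_eq_zero A S h _ (by rw [map_nsmul, hy₁, hax])
  obtain ⟨v, hv⟩ := exists_nsmul_nsmul_eq_of_coprime ham ha0 hax
  refine ⟨v • m • (u • y₀), ?_, ?_⟩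
  · rw [smul_comm a v, smul_comm a m, hkill, smul_zero]
  · rw [map_nsmul, map_nsmul, hy₁, hv]

end PLocal

end Fermat.Agent.S55.T.H244
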