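import Fermat.Agent.S55.T.NakBasicH719

/-!
# S55, layer T, leaf T6a (Nakayama) — the internal Hom functor `Hom_ℤ(R, -)` (helper719)

* `rep_exact_iff`, `rep_shortExact_iff` : exactness in `Rep ℤ G` on elements;
* `ihomSC`, `ihomSC_shortExact` : `Hom_ℤ(R, -)` preserves short exact sequences if `R` is
  `ℤ`-projective;
* `ihomCoind₁Iso` : `Hom_ℤ(R, coind₁ A) ≅ coind₁ (Hom_ℤ(R, A))`;
* `isCohTriv_ihom_coind₁`.
-/

set_option autoImplicit false
set_option linter.style.haveILetI false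

open CategoryTheory Limits groupCohomology Rep

namespace Fermat.Agent.S55.T.H719

open Fermat.Agent.S55.H572

noncomputable section

variable {k G : Type} [CommRing k] [Group G]

/-! ## Exactness on elements -/

theorem rep_exact_iff (S : ShortComplex (Rep.{0} k G)) :
    S.Exact ↔ ∀ x : S.X₂.V, S.g.hom x = 0 → ∃ y : S.X₁.V, S.f.hom y = x := by
  rw [← ShortComplex.exact_map_iff_of_faithful S (forget₂ (Rep.{0} k G) (ModuleCat.{0} k)),
    ShortComplex.moduleCat_exact_iff]
  rfl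

theorem rep_shortExact_iff (S : ShortComplex (Rep.{0} k G)) :
    S.ShortExact ↔ Function.Injective S.f.hom ∧ Function.Surjective S.g.hom ∧
      ∀ x : S.X₂.V, S.g.hom x = 0 → ∃ y : S.X₁.V, S.f.hom y = x := by
  constructor
  · intro h
    exact ⟨(Rep.mono_iff_injective _).1 h.mono_f, (Rep.epi_iff_surjective _).1 h.epi_g,
      (rep_exact_iff S).1 h.exact⟩
  · rintro ⟨h1, h2, h3⟩
    exact { exact := (rep_exact_iff S).2 h3
            mono_f := (Rep.mono_iff_injective _).2 h1
            epi_g := (Rep.epi_iff_surjective _).2 h2 }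

/-! ## `Hom_ℤ(R, -)` on short exact sequences -/

/-- View an element of `Hom_k(R, X)` as a linear map. -/
abbrev ihomLin {R X : Rep.{0} k G} (φ : ((Rep.ihom R).obj X).V) : R.V →ₗ[k] X.V := φ

/-- View a linear map as an element of `Hom_k(R, X)`. -/
abbrev ihomMk {R X : Rep.{0} k G} (φ : R.V →ₗ[k] X.V) : ((Rep.ihom R).obj X).V := φ

theorem ihom_map_hom_apply (R : Rep.{0} k G) {X Y : Rep.{0} k G} (f : X ⟶ Y)
    (φ : ((Rep.ihom R).obj X).V) (r : R.V) :
    ihomLin (((Rep.ihom R).map f).hom φ) r = f.hom (ihomLin φ r) := rfl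

theorem ihom_ρ_apply (R X : Rep.{0} k G) (g : G) (φ : ((Rep.ihom R).obj X).V) (r : R.V) :
    ihomLin (((Rep.ihom R).obj X).ρ g φ) r = X.ρ g (ihomLin φ (R.ρ g⁻¹ r)) := rfl

/-- The image of a short complex under `Hom_ℤ(R, -)`. -/
def ihomSC (R : Rep.{0} k G) (S : ShortComplex (Rep.{0} k G)) : ShortComplex (Rep.{0} k G) :=
  ShortComplex.mk ((Rep.ihom R).map S.f) ((Rep.ihom R).map S.g) (by
    rw [← Functor.map_comp, S.zero]
    apply Rep.hom_ext
    apply Representation.IntertwiningMap.ext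
    apply LinearMap.ext
    intro φ
    apply LinearMap.ext
    intro r
    rfl)

theorem ihomSC_shortExact (R : Rep.{0} k G) (hR : Module.Projective k R.V)
    {S : ShortComplex (Rep.{0} k G)} (hS : S.ShortExact) : (ihomSC R S).ShortExact := by
  rw [rep_shortExact_iff] at hS ⊢
  obtain ⟨h1, h2, h3⟩ := hS
  refine ⟨?_, ?_, ?_⟩
  · intro φ ψ h
    apply LinearMap.ext
    intro r
    apply h1
    have := congrArg (fun χ : R.V →ₗ[k] S.X₂.V => χ r) h
    exact this
  · intro ψ
    obtain ⟨φ, hφ⟩ := Module.projective_lifting_property S.g.hom.toLinearMap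
      (ψ : R.V →ₗ[k] S.X₃.V) h2
    refine ⟨φ, ?_⟩
    apply LinearMap.ext
    intro r
    exact congrArg (fun χ : R.V →ₗ[k] S.X₃.V => χ r) hφ
  · intro ψ hψ
    have hker : ∀ r : R.V, S.g.hom (ihomLin ψ r) = 0 := fun r =>
      congrArg (fun χ : R.V →ₗ[k] S.X₃.V => χ r) hψ
    -- lift through the range of `f`
    let f' : S.X₁.V →ₗ[k] LinearMap.range S.f.hom.toLinearMap :=
      S.f.hom.toLinearMap.rangeRestrict
    have hf' : Function.Surjective f' := LinearMap.surjective_rangeRestrict _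
    let ψ' : R.V →ₗ[k] LinearMap.range S.f.hom.toLinearMap :=
      LinearMap.codRestrict _ (ψ : R.V →ₗ[k] S.X₂.V) (fun r => by
        obtain ⟨y, hy⟩ := h3 _ (hker r)
        exact ⟨y, hy⟩)
    obtain ⟨φ, hφ⟩ := Module.projective_lifting_property f' ψ' hf'
    refine ⟨φ, ?_⟩
    apply LinearMap.ext
    intro r
    have := congrArg (fun χ : R.V →ₗ[k] LinearMap.range S.f.hom.toLinearMap => (χ r : S.X₂.V)) hφ
    exact this

/-! ## `Hom_k(R, coind₁ A) ≅ coind₁ (Hom_k(R, A))` -/

/-- Evaluation `coind₁ A → A` at `x : G` (linear, not equivariant). -/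
def coind₁Eval (A : Rep.{0} k G) (x : G) : (coind₁ A).V →ₗ[k] A.V where
  toFun f := f.1 x
  map_add' _ _ := rfl
  map_smul' _ _ := rfl

theorem coind₁Eval_apply (A : Rep.{0} k G) (x : G) (f : (coind₁ A).V) :
    coind₁Eval A x f = f.1 x := rfl

/-- The linear map `A → coind₁ A` built from a family of linear maps. -/
def coind₁Pi {M : Type} [AddCommGroup M] [Module k M] (A : Rep.{0} k G)
    (F : G → (M →ₗ[k] A.V)) : M →ₗ[k] (coind₁ A).V where
  toFun m := mkCoind (res (⊥ : Subgroup G).subtype A) (fun x => F x m)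
  map_add' m m' := by
    apply Subtype.ext
    funext x
    exact map_add (F x) m m'
  map_smul' c m := by
    apply Subtype.ext
    funext x
    exact map_smul (F x) c m

theorem coind₁Pi_apply {M : Type} [AddCommGroup M] [Module k M] (A : Rep.{0} k G)
    (F : G → (M →ₗ[k] A.V)) (m : M) (x : G) : (coind₁Pi A F m).1 x = F x m := rfl

/-- Underlying linear equivalence of `ihomCoind₁Iso`:
`φ ↦ (x ↦ (r ↦ φ (x⁻¹ r) x))`. -/
def ihomCoind₁LinearEquiv (R A : Rep.{0} k G) :
    ((Rep.ihom R).obj (coind₁ A)).V ≃ₗ[k] (coind₁ ((Rep.ihom R).obj A)).V where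
  toFun φ := mkCoind (res (⊥ : Subgroup G).subtype ((Rep.ihom R).obj A))
    (fun x => ihomMk ((coind₁Eval A x) ∘ₗ (ihomLin φ) ∘ₗ (R.ρ x⁻¹)))
  map_add' φ ψ := by
    apply Subtype.ext
    funext x
    apply LinearMap.ext
    intro r
    rfl
  map_smul' c φ := by
    apply Subtype.ext
    funext x
    apply LinearMap.ext
    intro r
    rfl
  invFun F := ihomMk (coind₁Pi A (fun x => (ihomLin (F.1 x)) ∘ₗ (R.ρ x)))
  left_inv φ := by
    apply LinearMap.ext
    intro r
    apply Subtype.ext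
    funext x
    change (ihomLin φ (R.ρ x⁻¹ (R.ρ x r))).1 x = (ihomLin φ r).1 x
    rw [← Module.End.mul_apply, ← map_mul, inv_mul_cancel, map_one, Module.End.one_apply]
  right_inv F := by
    apply Subtype.ext
    funext x
    apply LinearMap.ext
    intro r
    change ihomLin (F.1 x) (R.ρ x (R.ρ x⁻¹ r)) = ihomLin (F.1 x) r
    rw [← Module.End.mul_apply, ← map_mul, mul_inv_cancel, map_one, Module.End.one_apply]

/-- `Hom_k(R, coind₁ A) ≅ coind₁ (Hom_k(R, A))`. -/
def ihomCoind₁Iso (R A : Rep.{0} k G) :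
    (Rep.ihom R).obj (coind₁ A) ≅ coind₁ ((Rep.ihom R).obj A) :=
  Rep.mkIso (Representation.Equiv.mk (ihomCoind₁LinearEquiv R A) (fun g => by
    apply LinearMap.ext
    intro φ
    apply Subtype.ext
    funext x
    apply LinearMap.ext
    intro r
    change ((coind₁ A).ρ g (ihomLin φ (R.ρ g⁻¹ (R.ρ x⁻¹ r)))).1 x =
      (ihomLin φ (R.ρ (x * g)⁻¹ r)).1 (x * g)
    rw [coind_ρ_coe, ← Module.End.mul_apply, ← map_mul, mul_inv_rev]))

theorem isCohTriv_coind₁ [Finite G] (A : Rep.{0} k G) : IsCohTriv (coind₁ A) := by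
  intro H _ n
  exact isZero_tateCohomology_res_coind₁ H A n

theorem isCohTriv_ihom_coind₁ [Finite G] (R A : Rep.{0} k G) :
    IsCohTriv ((Rep.ihom R).obj (coind₁ A)) :=
  isCohTriv_of_iso (ihomCoind₁Iso R A).symm (isCohTriv_coind₁ _)

end

end Fermat.Agent.S55.T.H719
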