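import Fermat.Agent.S55.T.InfResTorsH244

/-!
# Inflation along a surjection is injective on `p`-primary torsion  (helper244)

Abstract form of GD8 of `coord/S55-E1.md` (`Tow.TowerDatum.IsGood.gd8`), ready for the tower:

`π : G' ↠ G` (think `Level.proj h : Gal(F'/ℚ) → Gal(F/ℚ)`), `C : Rep k G`, `C' : Rep k G'`,
`tr : Rep.res π C ⟶ C'` (think `D.tr h : C(F) → C(F')`), such that

* (descent) `tr` is injective and its image is the set of `ker π`-invariants of `C'`,
* `H¹(Q, C') = 0` for every `p`-subgroup `Q ≤ G'`  (first clause of `E1.IsClassModuleAt p`).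

Then `groupCohomology.map π tr 2 : H²(G, C) → H²(G', C')` is injective on elements killed by a
power of `p`.  No reciprocity, no norm trick: inflation–restriction up to torsion
(`InfResTorsCoreH244`) + `cor ∘ res = index` on `H¹(ker π, C')` (Sylow subgroup of `ker π`).

Everything is done on cochains of `G'`; no quotient group and no `quotientToInvariants` appears in
the statement.
-/

set_option autoImplicit false
set_option linter.unusedSectionVars false

namespace Fermat.Agent.S55.T.H244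

open CategoryTheory groupCohomology Rep Fermat.Agent.S55.H954

section Transport

variable {k G : Type} [CommRing k] [Group G]

/-- Elementary vanishing of `H¹` on a subgroup `P ≤ N` (`N ≤ G`) from vanishing of `H¹` on the
corresponding subgroup `P.map N.subtype ≤ G`. -/
lemma h1_subgroup_eq_zero_of_map (A : Rep.{0} k G) (N : Subgroup G) (P : Subgroup N)
    (h : ∀ z : groupCohomology (resSub A (P.map N.subtype)) 1, z = 0)
    (x : groupCohomology (resSub (resSub A N) P) 1) : x = 0 := by
  induction x using H1_induction_on with | @h f =>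
  have hf : ∀ s t : P, (f : P → A) (s * t) = A.ρ ((s : N) : G) ((f : P → A) t) + (f : P → A) s :=
    fun s t => (mem_cocycles₁_iff (A := resSub (resSub A N) P) (f : P → A)).1 f.2 s t
  -- the cocycle on `Q = P.map N.subtype`
  have hmem : ∀ q : P.map N.subtype, ∃ s : P, ((s : N) : G) = (q : G) := by
    rintro ⟨q, n, hn, rfl⟩
    exact ⟨⟨n, hn⟩, rfl⟩
  choose σ hσ using hmem
  have hσmul : ∀ q q' : P.map N.subtype, σ (q * q') = σ q * σ q' := by
    intro q q'
    apply Subtype.ext
    apply Subtype.ext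
    rw [Subgroup.coe_mul, Subgroup.coe_mul, hσ, hσ, hσ, Subgroup.coe_mul]
  let f' : P.map N.subtype → A := fun q => (f : P → A) (σ q)
  have hf' : f' ∈ cocycles₁ (resSub A (P.map N.subtype)) := by
    rw [mem_cocycles₁_iff]
    intro q q'
    show (f : P → A) (σ (q * q')) = A.ρ (q : G) ((f : P → A) (σ q')) + (f : P → A) (σ q)
    rw [hσmul, hf, hσ]
  have h0 := h (H1π _ ⟨f', hf'⟩)
  rw [H1π_eq_zero_iff] at h0
  obtain ⟨a, ha⟩ := h0
  rw [H1π_eq_zero_iff]
  refine ⟨a, ?_⟩
  funext s
  have hsQ : ((s : N) : G) ∈ P.map N.subtype := ⟨(s : N), s.2, rfl⟩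
  have hs : σ ⟨((s : N) : G), hsQ⟩ = s := by
    apply Subtype.ext
    apply Subtype.ext
    exact hσ _
  have := congr_fun ha ⟨((s : N) : G), hsQ⟩
  rw [d₀₁_hom_apply] at this ⊢
  have h2 : A.ρ ((s : N) : G) a - a = (f : P → A) (σ ⟨((s : N) : G), hsQ⟩) := this
  rw [hs] at h2
  exact h2

/-- If `H¹(Q, A) = 0` for every `p`-subgroup `Q ≤ G`, then for every finite subgroup `N ≤ G`
there is `m` prime to `p` killing `H¹(N, A)`, in the elementary form `HOneKilledBy`. -/
lemma exists_coprime_hOneKilledBy (A : Rep.{0} k G) (p : ℕ) [Fact p.Prime]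
    (hH1 : ∀ Q : Subgroup G, IsPGroup p Q →
      Limits.IsZero (groupCohomology (resSub A Q) 1))
    (N : Subgroup G) [N.Normal] [Finite N] :
    ∃ m : ℕ, m.Coprime p ∧ HOneKilledBy m A.ρ N := by
  obtain ⟨P⟩ : Nonempty (Sylow p N) := inferInstance
  have hcop : (P : Subgroup N).index.Coprime p := by
    rw [Nat.coprime_comm, Nat.Prime.coprime_iff_not_dvd (Fact.out : p.Prime)]
    exact P.not_dvd_index
  refine ⟨(P : Subgroup N).index, hcop, hOneKilledBy_of_H1 ?_⟩
  intro x
  refine hOne_nsmul_eq_zero_of_subgroup A N (P : Subgroup N) ?_ x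
  intro z
  refine h1_subgroup_eq_zero_of_map A N (P : Subgroup N) ?_ z
  intro y
  have hQ : IsPGroup p ((P : Subgroup N).map N.subtype) := P.2.map N.subtype
  exact (ModuleCat.isZero_iff_subsingleton.mp (hH1 _ hQ)).elim _ _

end Transport

section Descent

variable {k G G' : Type} [CommRing k] [Group G] [Group G']

/-- **Inflation along a surjection with descent, up to torsion (cochain form).**  If `m` kills
`H¹(ker π, C')` and `tr : C → C'` is injective with image the `ker π`-invariants, then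
`inf z = 0 → m • z = 0` for `z ∈ H²(G, C)`, `inf = groupCohomology.map π tr 2`. -/
theorem nsmul_eq_zero_of_map_eq_zero (π : G' →* G) (hπ : Function.Surjective π)
    (C : Rep.{0} k G) (C' : Rep.{0} k G') (tr : Rep.res π C ⟶ C')
    (htr_inj : Function.Injective tr.hom)
    (htr_surj : ∀ c' : C'.V, (∀ n ∈ π.ker, C'.ρ n c' = c') → ∃ c : C.V, tr.hom c = c')
    {m : ℕ} (hkill : HOneKilledBy m C'.ρ π.ker)
    (z : groupCohomology C 2) (h0 : (groupCohomology.map π tr 2).hom z = 0) : m • z = 0 := by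
  induction z using H2_induction_on with | @h f =>
  have hcocf : ∀ g h j : G, (f : G × G → C) (g * h, j) + (f : G × G → C) (g, h) =
      C.ρ g ((f : G × G → C) (h, j)) + (f : G × G → C) (g, h * j) :=
    (mem_cocycles₂_iff _).1 f.2
  have h1 : H2π C' (mapCocycles₂ π tr f) = 0 := by
    rw [← H2π_comp_map_apply π]; exact h0
  obtain ⟨(c : G' → C'), hc⟩ := (H2π_eq_zero_iff _).1 h1
  -- equivariance of `tr`
  have htr_eq : ∀ (a : G') (x : C.V), tr.hom (C.ρ (π a) x) = C'.ρ a (tr.hom x) := by
    intro a x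
    exact Rep.hom_comm_apply tr a x
  set f' : G' × G' → C' := fun q => tr.hom ((f : G × G → C) (π q.1, π q.2)) with hf'
  have hc' : f' = dOne C'.ρ c := by
    funext ⟨a, b⟩
    have := congr_fun hc (a, b)
    rw [d₁₂_hom_apply] at this
    rw [dOne_apply, this]
    rfl
  have hker : ∀ s ∈ π.ker, ∀ a : G', π (a * s) = π a := by
    intro s hs a
    rw [map_mul, MonoidHom.mem_ker.1 hs, mul_one]
  obtain ⟨c', hd, hright, hval⟩ := exists_invariant_cochain_of_inf_coboundary_nsmul C'.ρ π.ker
    hkill (f' := f')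
    (fun s hs a b => by simp only [hf', hker s hs])
    (fun s hs a b => by simp only [hf', hker s hs])
    (fun s hs a b => by
      simp only [hf']
      rw [← htr_eq, MonoidHom.mem_ker.1 hs, map_one]
      rfl) c hc'
  -- descend `c'` to a cochain of `G` with values in `C`
  have hex : ∀ g : G, ∃ x : C.V, ∀ a : G', π a = g → tr.hom x = c' a := by
    intro g
    obtain ⟨a₀, ha₀⟩ := hπ g
    obtain ⟨x, hx⟩ := htr_surj (c' a₀) (fun n hn => hval n hn a₀)
    refine ⟨x, fun a ha => ?_⟩
    have hs : a₀⁻¹ * a ∈ π.ker := by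
      rw [MonoidHom.mem_ker, map_mul, map_inv, ha₀, ha, inv_mul_cancel]
    have : a = a₀ * (a₀⁻¹ * a) := by group
    rw [hx, this, hright _ hs]
  choose c₀ hc₀ using hex
  rw [← map_nsmul, H2π_eq_zero_iff]
  refine ⟨c₀, ?_⟩
  funext ⟨g, h⟩
  obtain ⟨a, rfl⟩ := hπ g
  obtain ⟨b, rfl⟩ := hπ h
  apply htr_inj
  rw [d₁₂_hom_apply]
  have hd' := congr_fun hd (a, b)
  rw [dOne_apply] at hd'
  have e1 : tr.hom (c₀ (π b)) = c' b := hc₀ (π b) b rfl
  have e2 : tr.hom (c₀ (π a * π b)) = c' (a * b) := hc₀ (π a * π b) (a * b) (map_mul π a b)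
  have e3 : tr.hom (c₀ (π a)) = c' a := hc₀ (π a) a rfl
  rw [map_add, map_sub, htr_eq, e1, e2, e3, ← hd']
  show m • tr.hom ((f : G × G → C) (π a, π b)) = tr.hom (m • (f : G × G → C) (π a, π b))
  rw [map_nsmul]

/-- **GD8, abstract form.**  `π : G' ↠ G`, `G'` finite, `tr : C → C'` injective with image the
`ker π`-invariants, `H¹(Q, C') = 0` for all `p`-subgroups `Q ≤ G'`.  Then inflation
`groupCohomology.map π tr 2 : H²(G, C) → H²(G', C')` is injective on `p`-primary torsion. -/
theorem eq_zero_of_map_eq_zero_of_pPrimary [Finite G'] (π : G' →* G)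
    (hπ : Function.Surjective π)
    (C : Rep.{0} k G) (C' : Rep.{0} k G') (tr : Rep.res π C ⟶ C')
    (htr_inj : Function.Injective tr.hom)
    (htr_surj : ∀ c' : C'.V, (∀ n ∈ π.ker, C'.ρ n c' = c') → ∃ c : C.V, tr.hom c = c')
    (p : ℕ) (hp : p.Prime)
    (hH1 : ∀ Q : Subgroup G', IsPGroup p Q →
      Limits.IsZero (groupCohomology (resSub C' Q) 1))
    (z : groupCohomology C 2) (n : ℕ) (hz : p ^ n • z = 0)
    (h0 : (groupCohomology.map π tr 2).hom z = 0) : z = 0 := by
  have : Fact p.Prime := ⟨hp⟩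
  obtain ⟨m, hm, hkill⟩ := exists_coprime_hOneKilledBy C' p hH1 π.ker
  have h1 := nsmul_eq_zero_of_map_eq_zero π hπ C C' tr htr_inj htr_surj hkill z h0
  exact eq_zero_of_coprime_nsmul (Nat.Coprime.pow_left n hm.symm) hz h1

/-- **GD8, in the exact shape of `Tow.TowerDatum.IsGood.gd8`** (`p • z = 0`). -/
theorem eq_zero_of_map_eq_zero_of_pTorsion [Finite G'] (π : G' →* G)
    (hπ : Function.Surjective π)
    (C : Rep.{0} k G) (C' : Rep.{0} k G') (tr : Rep.res π C ⟶ C')
    (htr_inj : Function.Injective tr.hom)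
    (htr_surj : ∀ c' : C'.V, (∀ n ∈ π.ker, C'.ρ n c' = c') → ∃ c : C.V, tr.hom c = c')
    (p : ℕ) (hp : p.Prime)
    (hH1 : ∀ Q : Subgroup G', IsPGroup p Q →
      Limits.IsZero (groupCohomology (resSub C' Q) 1))
    (z : groupCohomology C 2) (hz : p • z = 0)
    (h0 : (groupCohomology.map π tr 2).hom z = 0) : z = 0 :=
  eq_zero_of_map_eq_zero_of_pPrimary π hπ C C' tr htr_inj htr_surj p hp hH1 z 1
    (by rwa [pow_one]) h0

end Descent

end Fermat.Agent.S55.T.H244
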