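import Fermat.Agent.S55.T.Spec2

/-!
# S55, layer T: interface additions (v3) — Shapiro in explicit form, products / sums,
permutation modules.  Nothing in `Spec.lean`, `Spec2.lean` changes.  (Besides definitions and `Prop`-valued specs this
file contains one auxiliary lemma, `permCoeffLin_single`, and the equivariance proof inside
`permCoeff`.)

These are the statements needed to compute the cohomology of semi-local modules
(`∏_{w | v} L_wˣ ≅ Coind`, `Div^S = ℤ[primes]`) through the NATURAL localisation maps
(restriction to the decomposition group followed by projection to one factor).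
-/

set_option autoImplicit false

open CategoryTheory groupCohomology

namespace Fermat.Agent.S55.T

/-- Evaluation at `1`: the `S`-equivariant map `Res_S Coind_S^G A ⟶ A`
(counit of Mathlib's adjunction `Res ⊣ Coind`). -/
noncomputable abbrev coindEv {k G : Type} [CommRing k] [Group G] (S : Subgroup G)
    (A : Rep.{0} k S) : Rep.res S.subtype (Rep.coind S.subtype A) ⟶ A :=
  (Rep.resCoindAdjunction k S.subtype).counit.app A

/-- **T8.**  Shapiro's lemma in explicit form: the composite
`Hⁿ(G, Coind_S^G A) --res--> Hⁿ(S, Coind_S^G A) --ev₁--> Hⁿ(S, A)` is bijective. -/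
def ShapiroExplicitSpec : Prop :=
  ∀ (k G : Type) [CommRing k] [Group G] (S : Subgroup G) (A : Rep.{0} k S) (n : ℕ),
    Function.Bijective (groupCohomology.map S.subtype (coindEv S A) n).hom

/-- **T8'.**  Shapiro, recognition form: if `B : Rep k G` and `π : Res_S B ⟶ A` are such that
`b ↦ (g ↦ π (g • b))` is a bijection from `B` onto `Coind_S^G A`, then
`Hⁿ(G, B) --res--> Hⁿ(S, B) --π--> Hⁿ(S, A)` is bijective. -/
def ShapiroRecognitionSpec : Prop :=
  ∀ (k G : Type) [CommRing k] [Group G] (S : Subgroup G) (A : Rep.{0} k S) (B : Rep.{0} k G)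
    (π : Rep.res S.subtype B ⟶ A),
    (∀ f : G → A.V, (∀ (s : S) (g : G), f (s * g) = A.ρ s (f g)) →
      ∃! b : B.V, ∀ g : G, π.hom (B.ρ g b) = f g) →
    ∀ n : ℕ, Function.Bijective (groupCohomology.map S.subtype π n).hom

/-- **T9a.**  Finite products: if `C.V → ∏ᵢ (A i).V` (components `p i`) is bijective, `ι` finite,
then `Hⁿ(G, C) → ∏ᵢ Hⁿ(G, A i)` is bijective. -/
def FiniteProdSpec : Prop :=
  ∀ (k G : Type) [CommRing k] [Group G] (ι : Type) [Finite ι] (A : ι → Rep.{0} k G)
    (C : Rep.{0} k G) (p : ∀ i, C ⟶ A i),
    Function.Bijective (fun (c : C.V) (i : ι) => (p i).hom c) →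
    ∀ n : ℕ, Function.Bijective
      (fun (x : groupCohomology C n) (i : ι) => (coeffMap (p i) n).hom x)

/-- **T9b.**  Direct sums over a finite group: if `C` is the internal direct sum of the images of
the injective morphisms `inc i : A i ⟶ C` (`ι` arbitrary), then `Hⁿ(G, C)` is the internal
direct sum of the `Hⁿ(G, A i)`: every class is a finite sum of classes coming from the `A i`,
and a family of classes `x i` (almost all zero) with `∑ᵢ inc_i(x i) = 0` vanishes. -/
def DirectSumSpec : Prop :=
  ∀ (k G : Type) [CommRing k] [Group G] [Finite G] (ι : Type) [DecidableEq ι]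
    (A : ι → Rep.{0} k G) (C : Rep.{0} k G) (inc : ∀ i, A i ⟶ C),
    Function.Bijective
      (DirectSum.toModule k ι C.V (fun i => (inc i).hom.toLinearMap)) →
    ∀ n : ℕ, Function.Bijective
      (DirectSum.toModule k ι (groupCohomology C n) (fun i => (coeffMap (inc i) n).hom))

/-- The coefficient-at-`x` linear map `k[X] → k`. -/
noncomputable def permCoeffLin (k : Type) [CommRing k] (X : Type) (x : X) :
    MonoidAlgebra k X →ₗ[k] k :=
  Finsupp.lapply x ∘ₗ (MonoidAlgebra.coeffLinearEquiv k).toLinearMap

lemma permCoeffLin_single (k : Type) [CommRing k] (X : Type) [DecidableEq X] (x y : X) (r : k) :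
    permCoeffLin k X x (MonoidAlgebra.single y r) = if y = x then r else 0 := by
  simp [permCoeffLin, Finsupp.single_apply]

/-- The coefficient-at-`x` map `k[X] → k`, equivariant for the stabiliser of `x`. -/
noncomputable def permCoeff {k G : Type} [CommRing k] [Group G] (X : Type) [MulAction G X]
    (x : X) :
    Rep.res (MulAction.stabilizer G x).subtype (Rep.ofMulAction k G X) ⟶
      Rep.trivial k (MulAction.stabilizer G x) k :=
  Rep.ofHom
    { toLinearMap := permCoeffLin k X x
      isIntertwining' := fun s => by
        classical
        refine MonoidAlgebra.lhom_ext' fun y => LinearMap.ext_ring ?_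
        have hs : (s : G) • x = x := MulAction.mem_stabilizer_iff.1 s.2
        have key : ((s : G) • y = x) ↔ (y = x) := by
          constructor
          · intro h
            have := congrArg (fun z => (s : G)⁻¹ • z) h
            simp only [inv_smul_smul] at this
            rw [this, inv_smul_eq_iff, hs]
          · intro h; rw [h, hs]
        simp [permCoeffLin_single, key] }

/-- The localisation map `Hⁿ(G, k[X]) ⟶ Hⁿ(G_x, k)` at a point `x : X`. -/
noncomputable abbrev permLoc {k G : Type} [CommRing k] [Group G] (X : Type) [MulAction G X]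
    (x : X) (n : ℕ) :
    groupCohomology (Rep.ofMulAction k G X) n ⟶
      groupCohomology (Rep.trivial k (MulAction.stabilizer G x) k) n :=
  groupCohomology.map (MulAction.stabilizer G x).subtype (permCoeff X x) n

/-- **T10.**  Permutation modules over a finite group (`X` possibly infinite): a class in
`Hⁿ(G, k[X])` vanishes iff all its localisations vanish; every family of local classes supported
on finitely many orbits, one point per orbit, is the localisation of a global class. -/
def PermSpec : Prop :=
  ∀ (k G : Type) [CommRing k] [Group G] [Finite G] (X : Type) [MulAction G X] (n : ℕ),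
    (∀ c : groupCohomology (Rep.ofMulAction k G X) n,
      (∀ x : X, (permLoc X x n).hom c = 0) → c = 0) ∧
    (∀ (x : X) (y : groupCohomology (Rep.trivial k (MulAction.stabilizer G x) k) n),
      ∃ c : groupCohomology (Rep.ofMulAction k G X) n,
        (permLoc X x n).hom c = y ∧
        ∀ x' : X, x' ∉ MulAction.orbit G x → (permLoc X x' n).hom c = 0)

/-- **T10'.**  `H¹(G, ℤ[X]) = 0` for a finite group `G`. -/
def PermH1Spec : Prop :=
  ∀ (G : Type) [Group G] [Finite G] (X : Type) [MulAction G X],
    Limits.IsZero (groupCohomology (Rep.ofMulAction ℤ G X) 1)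

end Fermat.Agent.S55.T
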