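import Fermat.Agent.S55.T.Spec
import Fermat.Agent.S55.H783.ClassH3

/-!
# S55, layer T, leaf T5b (helper783): `TateH3Spec`, `H1TrivIntSpec`, twin vanishing (positive
degrees)

Unconditional proofs of the frozen specs

* `H1TrivIntSpec` : `H¹(G, ℤ) = 0` for finite `G`;
* `TateH3Spec`    : `H³(H, C) = 0` for every subgroup `H` of a class module `(C, γ)` over `ℤ`;
* `ResIndexSpec`, `CardTorsionSpec` (restriction–corestriction in all positive degrees);

and of the generic-`k` statement `tateH3_generic`.
-/

set_option autoImplicit false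

open CategoryTheory groupCohomology

namespace Fermat.Agent.S55.T.H783

/-- **T5a'.** `H¹(G, ℤ) = 0` for a finite group `G`. -/
theorem h1TrivInt : H1TrivIntSpec := by
  intro G _ _
  exact Fermat.Agent.S55.H783.isZero_H1_trivial_of_torsionFree

/-- `H³` of a class module vanishes: generic coefficient ring `k` with `H¹(H, k) = 0`. -/
theorem tateH3_generic (k G : Type) [CommRing k] [Group G] [Finite G] (C : Rep.{0} k G)
    (γ : groupCohomology C 2)
    (hk : ∀ H : Subgroup G, Limits.IsZero (groupCohomology (Rep.trivial k H k) 1))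
    (hC : IsClassModule C γ) (H : Subgroup G) :
    Limits.IsZero (groupCohomology (resSub C H) 3) :=
  Fermat.Agent.S55.H783.isZero_H3_of_classModule C γ hk (fun S => (hC S).1)
    (fun S => (hC S).2.1) (fun S => (hC S).2.2.1) H

/-- **T5b.** `H³` of a class module over `ℤ` vanishes. -/
theorem tateH3 : TateH3Spec := by
  intro G _ _ C γ hC H
  exact tateH3_generic ℤ G C γ
    (fun S => Fermat.Agent.S55.H783.isZero_H1_trivial_of_torsionFree) hC H

/-- **T1a.** If `res_H x = 0` then `[G : H] • x = 0` (all positive degrees). -/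
theorem resIndex : ResIndexSpec := by
  intro k G _ _ _ A H n hn x hx
  obtain ⟨m, rfl⟩ : ∃ m, n = m + 1 := ⟨n - 1, by omega⟩
  exact Fermat.Agent.S55.H783.index_nsmul_eq_zero m A H x hx

/-- **T1b.** `|G|` kills `Hⁿ(G, A)` for `n ≥ 1`. -/
theorem cardTorsion : CardTorsionSpec := by
  intro k G _ _ _ A n hn x
  obtain ⟨m, rfl⟩ : ∃ m, n = m + 1 := ⟨n - 1, by omega⟩
  exact Fermat.Agent.S55.H783.card_nsmul_eq_zero A m x

/-- Twin vanishing in positive degrees (the cohomological half of **T4a**): if
`H¹(H, A) = H²(H, A) = 0` for all `H ≤ G`, then `Hⁿ(H, A) = 0` for all `n ≥ 1` and all `H`. -/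
theorem twinVanishing_pos (k G : Type) [CommRing k] [Group G] [Finite G] (A : Rep.{0} k G)
    (h : ∀ H : Subgroup G, Limits.IsZero (groupCohomology (resSub A H) 1) ∧
      Limits.IsZero (groupCohomology (resSub A H) 2))
    (H : Subgroup G) (n : ℕ) (hn : 0 < n) :
    Limits.IsZero (groupCohomology (resSub A H) n) := by
  obtain ⟨m, rfl⟩ : ∃ m, n = m + 1 := ⟨n - 1, by omega⟩
  exact Fermat.Agent.S55.H783.isZero_res_succ_of_twin A (fun S => (h S).1) (fun S => (h S).2) H m

end Fermat.Agent.S55.T.H783
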