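import Mathlib

/-!
# S55, layer T: Mackey decomposition of a coinduced representation (helper243)

`G` a group, `H D ≤ G`, `A : Rep k D`.  The restriction to `H` of `Coind_D^G A` decomposes along
the double cosets `D x H`:

  `Res_H Coind_D^G A ≅ ∏_x Coind_{K_x}^H (A_x)`,  `K_x = H ∩ x⁻¹ D x`, `A_x = A` with `K_x` acting
  through `h ↦ x h x⁻¹ ∈ D`.

Consequently (Shapiro) `Hⁿ(H, Coind_D^G A) ≅ ∏_x Hⁿ(K_x, A_x)`.
-/

set_option autoImplicit false

open CategoryTheory

namespace Fermat.Agent.S55.T.H243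

noncomputable section

variable {k G : Type} [CommRing k] [Group G] (H D : Subgroup G) (A : Rep.{0} k D)

/-- The `H`-representation `Res_H Coind_D^G A`. -/
abbrev resCoind : Rep.{0} k H := Rep.res H.subtype (Rep.coind D.subtype A)

/-- Conjugation `h ↦ x h x⁻¹` as a homomorphism `H →* G`. -/
def conjHom (x : G) : H →* G := (MulAut.conj x).toMonoidHom.comp H.subtype

@[simp] lemma conjHom_apply (x : G) (h : H) : conjHom H x h = x * h * x⁻¹ := rfl

/-- `K_x = {h ∈ H | x h x⁻¹ ∈ D}`. -/
def stab (x : G) : Subgroup H := D.comap (conjHom H x)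

lemma mem_stab {x : G} {h : H} : h ∈ stab H D x ↔ x * h * x⁻¹ ∈ D := Iff.rfl

/-- The homomorphism `K_x → D`, `h ↦ x h x⁻¹`. -/
def psi (x : G) : stab H D x →* D :=
  ((conjHom H x).comp (stab H D x).subtype).codRestrict D (fun k => k.2)

@[simp] lemma psi_coe (x : G) (h : stab H D x) : ((psi H D x h : D) : G) = x * (h : H) * x⁻¹ := rfl

/-- The `x`-component `Coind_{K_x}^H A_x` of the Mackey decomposition. -/
abbrev piece (x : G) : Rep.{0} k H := Rep.coind (stab H D x).subtype (Rep.res (psi H D x) A)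

/-- The projection `Res_H Coind_D^G A → Coind_{K_x}^H A_x`, `f ↦ (h ↦ f (x h))`. -/
def projLin (x : G) : (resCoind H D A).V →ₗ[k] (piece H D A x).V where
  toFun f := ⟨fun h => f.1 (x * h), by
    intro κ h
    have := f.2 (psi H D x κ) (x * h)
    simp only [Subgroup.subtype_apply, psi_coe] at this
    refine Eq.trans ?_ this
    simp [mul_assoc]⟩
  map_add' f g := by ext; rfl
  map_smul' c f := by ext; rfl

@[simp] lemma projLin_apply (x : G) (f : (resCoind H D A).V) (h : H) :
    (projLin H D A x f).1 h = f.1 (x * h) := rfl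

/-- The projection as a morphism of `H`-representations. -/
def proj (x : G) : resCoind H D A ⟶ piece H D A x :=
  Rep.ofHom ⟨projLin H D A x, fun h => by
    ext f h'
    show f.1 (x * (h' : G) * (h : G)) = f.1 (x * ((h' * h : H) : G))
    simp [mul_assoc]⟩

/-- `g` lies in the double coset `D x H`. -/
def InDC (x g : G) : Prop := ∃ d : D, ∃ h : H, g = d * x * h

lemma inDC_self (x : G) : InDC H D x x := ⟨1, 1, by simp⟩

lemma InDC.mul_left {x g : G} (hg : InDC H D x g) (d₀ : D) : InDC H D x (d₀ * g) := by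
  obtain ⟨d, h, rfl⟩ := hg
  exact ⟨d₀ * d, h, by simp [mul_assoc]⟩

lemma InDC.mul_right {x g : G} (hg : InDC H D x g) (h₀ : H) : InDC H D x (g * h₀) := by
  obtain ⟨d, h, rfl⟩ := hg
  exact ⟨d, h * h₀, by simp [mul_assoc]⟩

lemma inDC_mul_left_iff {x g : G} (d₀ : D) : InDC H D x (d₀ * g) ↔ InDC H D x g :=
  ⟨fun h => by simpa using h.mul_left H D d₀⁻¹, fun h => h.mul_left H D d₀⟩

lemma inDC_mul_right_iff {x g : G} (h₀ : H) : InDC H D x (g * h₀) ↔ InDC H D x g :=
  ⟨fun h => by simpa using h.mul_right H D h₀⁻¹, fun h => h.mul_right H D h₀⟩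

open Classical in
/-- Extension by zero of an element of `Coind_{K_x}^H A_x` to a function on `G`. -/
def inclFun (x : G) (b : (piece H D A x).V) (g : G) : A.V :=
  if hg : InDC H D x g then A.ρ hg.choose (b.1 hg.choose_spec.choose) else 0

lemma inclFun_of_not {x : G} (b : (piece H D A x).V) {g : G} (hg : ¬ InDC H D x g) :
    inclFun H D A x b g = 0 := by
  simp [inclFun, hg]

lemma inclFun_eq (x : G) (b : (piece H D A x).V) (d : D) (h : H) :
    inclFun H D A x b (d * x * h) = A.ρ d (b.1 h) := by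
  have hg : InDC H D x (d * x * h) := ⟨d, h, rfl⟩
  rw [inclFun, dif_pos hg]
  set d' := hg.choose
  set h' := hg.choose_spec.choose
  have e : (d : G) * x * h = d' * x * h' := hg.choose_spec.choose_spec
  -- `κ = h' h⁻¹ ∈ K_x`, `ψ κ = d'⁻¹ d`
  have hκ : x * ((h' * h⁻¹ : H) : G) * x⁻¹ = ((d'⁻¹ * d : D) : G) := by
    have : x * (h' : G) = (d' : G)⁻¹ * (d * x * h) := by rw [e]; simp [mul_assoc]
    simp only [Subgroup.coe_mul, Subgroup.coe_inv]
    calc x * ((h' : G) * (h : G)⁻¹) * x⁻¹ = (x * (h' : G)) * (h : G)⁻¹ * x⁻¹ := by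
          simp [mul_assoc]
      _ = (d' : G)⁻¹ * d := by rw [this]; simp [mul_assoc]
  have hmem : h' * h⁻¹ ∈ stab H D x := by
    rw [mem_stab, hκ]; exact (d'⁻¹ * d).2
  have hpsi : psi H D x ⟨h' * h⁻¹, hmem⟩ = d'⁻¹ * d := Subtype.ext (by rw [psi_coe]; exact hκ)
  have hb := b.2 ⟨h' * h⁻¹, hmem⟩ h
  simp only [Subgroup.subtype_apply, inv_mul_cancel_right] at hb
  rw [hb]
  show A.ρ d' (A.ρ (psi H D x ⟨h' * h⁻¹, hmem⟩) (b.1 h)) = _
  rw [hpsi, ← Module.End.mul_apply, ← map_mul]
  simp

/-- The inclusion `Coind_{K_x}^H A_x → Res_H Coind_D^G A` (extension by zero). -/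
def inclLin (x : G) : (piece H D A x).V →ₗ[k] (resCoind H D A).V where
  toFun b := ⟨inclFun H D A x b, by
    intro d₀ g
    simp only [Subgroup.subtype_apply]
    by_cases hg : InDC H D x g
    · obtain ⟨d, h, rfl⟩ := hg
      have : (d₀ : G) * (d * x * h) = ((d₀ * d : D) : G) * x * h := by simp [mul_assoc]
      rw [this, inclFun_eq, inclFun_eq, map_mul]; rfl
    · rw [inclFun_of_not H D A b hg,
        inclFun_of_not H D A b (fun h => hg ((inDC_mul_left_iff H D d₀).1 h)), map_zero]⟩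
  map_add' b c := by
    ext g
    show inclFun H D A x (b + c) g = inclFun H D A x b g + inclFun H D A x c g
    by_cases hg : InDC H D x g
    · obtain ⟨d, h, rfl⟩ := hg
      simp only [inclFun_eq]
      rw [← map_add]; rfl
    · simp [inclFun_of_not H D A _ hg]
  map_smul' c b := by
    ext g
    show inclFun H D A x (c • b) g = c • inclFun H D A x b g
    by_cases hg : InDC H D x g
    · obtain ⟨d, h, rfl⟩ := hg
      simp only [inclFun_eq]
      rw [← map_smul]; rfl
    · simp [inclFun_of_not H D A _ hg]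

@[simp] lemma inclLin_apply (x : G) (b : (piece H D A x).V) (g : G) :
    (inclLin H D A x b).1 g = inclFun H D A x b g := rfl

/-- The inclusion as a morphism of `H`-representations. -/
def incl (x : G) : piece H D A x ⟶ resCoind H D A :=
  Rep.ofHom ⟨inclLin H D A x, fun h₀ => by
    ext b g
    show inclFun H D A x ((piece H D A x).ρ h₀ b) g = inclFun H D A x b (g * h₀)
    by_cases hg : InDC H D x g
    · obtain ⟨d, h, rfl⟩ := hg
      have : (d : G) * x * h * h₀ = d * x * ((h * h₀ : H) : G) := by simp [mul_assoc]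
      rw [this, inclFun_eq, inclFun_eq]; rfl
    · rw [inclFun_of_not H D A _ hg,
        inclFun_of_not H D A b (fun h => hg ((inDC_mul_right_iff H D h₀).1 h))]⟩

lemma incl_proj_self (x : G) : incl H D A x ≫ proj H D A x = 𝟙 _ := by
  ext b h
  show inclFun H D A x b (x * h) = b.1 h
  have := inclFun_eq H D A x b 1 h
  simpa using this

lemma incl_proj_of_not {x y : G} (hxy : ¬ InDC H D x y) : incl H D A x ≫ proj H D A y = 0 := by
  ext b h
  show inclFun H D A x b (y * h) = 0
  exact inclFun_of_not H D A b (fun hh => hxy ((inDC_mul_right_iff H D h).1 hh))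

lemma inclFun_projLin (x : G) (f : (resCoind H D A).V) {g : G} (hg : InDC H D x g) :
    inclFun H D A x (projLin H D A x f) g = f.1 g := by
  obtain ⟨d, h, rfl⟩ := hg
  rw [inclFun_eq, projLin_apply]
  have := f.2 d (x * h)
  simp only [Subgroup.subtype_apply] at this
  rw [← this, mul_assoc]

section Reps

variable {ι : Type} [Fintype ι] (x : ι → G) (hx : ∀ g : G, ∃! i, InDC H D (x i) g)

include hx in
lemma sum_proj_incl :
    ∑ i, proj H D A (x i) ≫ incl H D A (x i) = 𝟙 (resCoind H D A) := by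
  classical
  apply Rep.hom_ext
  rw [Rep.sum_hom]
  ext f g
  obtain ⟨i, hi, huniq⟩ := hx g
  have key : ∀ j, ((proj H D A (x j) ≫ incl H D A (x j)).hom f).1 g =
      if j = i then f.1 g else 0 := by
    intro j
    show inclFun H D A (x j) (projLin H D A (x j) f) g = _
    split_ifs with hj
    · subst hj; exact inclFun_projLin H D A _ f hi
    · exact inclFun_of_not H D A _ (fun h => hj (huniq j h))
  have : ((∑ j, (proj H D A (x j) ≫ incl H D A (x j)).hom) f).1 g =
      ∑ j, ((proj H D A (x j) ≫ incl H D A (x j)).hom f).1 g := by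
    rw [Representation.IntertwiningMap.sum_apply]
    have h1 : ∀ (s : Finset ι) (F : ι → (resCoind H D A).V),
        (∑ j ∈ s, F j).1 g = ∑ j ∈ s, (F j).1 g := by
      intro s F
      induction s using Finset.induction_on with
      | empty => simp
      | insert a s ha ih => rw [Finset.sum_insert ha, Finset.sum_insert ha, ← ih]; rfl
    exact h1 _ _
  refine this.trans ?_
  rw [Finset.sum_congr rfl (fun j _ => key j)]
  simp

end Reps

/-! ## Cohomology -/

section Cohomology

open groupCohomology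

lemma functor_map_add {Γ : Type} [Group Γ] {X Y : Rep.{0} k Γ} (f g : X ⟶ Y) (n : ℕ) :
    (groupCohomology.functor k Γ n).map (f + g) =
      (groupCohomology.functor k Γ n).map f + (groupCohomology.functor k Γ n).map g := by
  show HomologicalComplex.homologyMap ((cochainsFunctor k Γ).map (f + g)) n =
    HomologicalComplex.homologyMap ((cochainsFunctor k Γ).map f) n +
      HomologicalComplex.homologyMap ((cochainsFunctor k Γ).map g) n
  rw [Functor.map_add, HomologicalComplex.homologyMap_add]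

instance functor_additive {Γ : Type} [Group Γ] (n : ℕ) :
    (groupCohomology.functor k Γ n).Additive where
  map_add := functor_map_add _ _ n

/-- `Hⁿ(Γ, -)` on morphisms (abbreviation for `groupCohomology.map (MonoidHom.id Γ)`). -/
abbrev cmap {Γ : Type} [Group Γ] {X Y : Rep.{0} k Γ} (f : X ⟶ Y) (n : ℕ) :
    groupCohomology X n ⟶ groupCohomology Y n :=
  groupCohomology.map (MonoidHom.id Γ) f n

lemma cmap_sum {Γ : Type} [Group Γ] {X Y : Rep.{0} k Γ} {ι : Type} (s : Finset ι)
    (φ : ι → (X ⟶ Y)) (n : ℕ) : cmap (∑ i ∈ s, φ i) n = ∑ i ∈ s, cmap (φ i) n :=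
  (groupCohomology.functor k Γ n).map_sum φ s

lemma cmap_zero {Γ : Type} [Group Γ] {X Y : Rep.{0} k Γ} (n : ℕ) :
    cmap (0 : X ⟶ Y) n = 0 :=
  (groupCohomology.functor k Γ n).map_zero X Y

lemma cmap_id {Γ : Type} [Group Γ] (X : Rep.{0} k Γ) (n : ℕ) : cmap (𝟙 X) n = 𝟙 _ :=
  groupCohomology.map_id (n := n)

lemma cmap_comp {Γ : Type} [Group Γ] {X Y Z : Rep.{0} k Γ} (f : X ⟶ Y) (g : Y ⟶ Z) (n : ℕ) :
    cmap (f ≫ g) n = cmap f n ≫ cmap g n :=
  groupCohomology.map_id_comp f g n

section Bicone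

variable {Γ : Type} [Group Γ] {ι : Type} [Fintype ι] {P : Rep.{0} k Γ} {B : ι → Rep.{0} k Γ}
  (π : ∀ i, P ⟶ B i) (j : ∀ i, B i ⟶ P)

/-- The map `Hⁿ(Γ, P) → ∏_i Hⁿ(Γ, B i)`. -/
def bcProj (n : ℕ) : groupCohomology P n →ₗ[k] (∀ i, groupCohomology (B i) n) :=
  LinearMap.pi fun i => (cmap (π i) n).hom

/-- The map `∏_i Hⁿ(Γ, B i) → Hⁿ(Γ, P)`. -/
def bcIncl (n : ℕ) : (∀ i, groupCohomology (B i) n) →ₗ[k] groupCohomology P n :=
  ∑ i, (cmap (j i) n).hom ∘ₗ LinearMap.proj i

lemma bcIncl_bcProj (h3 : ∑ i, π i ≫ j i = 𝟙 P) (n : ℕ) (v : groupCohomology P n) :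
    bcIncl j n (bcProj π n v) = v := by
  have h := congrArg (fun φ => cmap φ n) h3
  simp only [cmap_sum, cmap_comp, cmap_id] at h
  have h2' := congrArg (fun φ => φ.hom v) h
  simp only [ModuleCat.hom_sum, LinearMap.sum_apply, ModuleCat.hom_comp, ModuleCat.hom_id,
    LinearMap.id_coe, id_eq, LinearMap.comp_apply] at h2'
  rw [bcIncl, LinearMap.sum_apply]
  exact h2'

lemma bcProj_bcIncl (h1 : ∀ i, j i ≫ π i = 𝟙 _) (h2 : ∀ i i', i ≠ i' → j i ≫ π i' = 0)
    (n : ℕ) (w : ∀ i, groupCohomology (B i) n) :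
    bcProj π n (bcIncl j n w) = w := by
  classical
  funext i'
  rw [bcIncl, LinearMap.sum_apply]
  simp only [bcProj, LinearMap.pi_apply, map_sum, LinearMap.comp_apply]
  have key : ∀ i, (cmap (π i') n).hom ((cmap (j i) n).hom (w i)) =
      if i = i' then w i' else 0 := by
    intro i
    have hc : (cmap (π i') n).hom ((cmap (j i) n).hom (w i)) =
        (cmap (j i ≫ π i') n).hom (w i) := by
      rw [cmap_comp]; rfl
    rw [hc]
    split_ifs with hij
    · subst hij
      rw [h1, cmap_id]; rfl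
    · rw [h2 i i' hij, cmap_zero]; rfl
  refine (Finset.sum_congr rfl (fun i _ => key i)).trans ?_
  simp

/-- Cohomology commutes with finite direct sums, in "bicone" form: if `P` is the biproduct of the
`B i` (via `π`, `j`), then `Hⁿ(Γ, P) ≃ ∏_i Hⁿ(Γ, B i)`. -/
def equivOfBicone (h1 : ∀ i, j i ≫ π i = 𝟙 _) (h2 : ∀ i i', i ≠ i' → j i ≫ π i' = 0)
    (h3 : ∑ i, π i ≫ j i = 𝟙 P) (n : ℕ) :
    groupCohomology P n ≃ₗ[k] (∀ i, groupCohomology (B i) n) where
  __ := bcProj π n
  invFun := bcIncl j n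
  left_inv := bcIncl_bcProj π j h3 n
  right_inv := bcProj_bcIncl π j h1 h2 n

end Bicone

/-! ### Finite products of representations -/

section Pi

variable {Γ : Type} [Group Γ] {ι : Type} [Fintype ι] (B : ι → Rep.{0} k Γ)

/-- The product representation on `∀ i, B i`. -/
def piRepresentation : Representation k Γ (∀ i, (B i).V) where
  toFun g := LinearMap.pi fun i => (B i).ρ g ∘ₗ LinearMap.proj i
  map_one' := by ext v i; simp
  map_mul' g h := by ext v i; simp

/-- The product of a family of representations. -/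
abbrev piRep : Rep.{0} k Γ := Rep.of (piRepresentation B)

/-- The projection `∏ B → B i`. -/
def piProj (i : ι) : piRep B ⟶ B i :=
  Rep.ofHom ⟨LinearMap.proj i, fun g => by ext v; rfl⟩

/-- The inclusion `B i → ∏ B`. -/
def piIncl [DecidableEq ι] (i : ι) : B i ⟶ piRep B :=
  Rep.ofHom ⟨LinearMap.single k (fun i => (B i).V) i, fun g => by
    ext v i'
    show (Pi.single i ((B i).ρ g v) : ∀ i, (B i).V) i' = (B i').ρ g ((Pi.single i v : ∀ i, (B i).V) i')
    by_cases h : i' = i
    · subst h; simp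
    · simp [Pi.single_eq_of_ne h]⟩

/-- `Hⁿ(Γ, ∏_i B i) ≃ ∏_i Hⁿ(Γ, B i)` for a finite family. -/
def piRepEquiv (n : ℕ) : groupCohomology (piRep B) n ≃ₗ[k] (∀ i, groupCohomology (B i) n) := by
  classical
  refine equivOfBicone (piProj B) (piIncl B) ?_ ?_ ?_ n
  · intro i
    ext v
    show (Pi.single i v : ∀ i, (B i).V) i = v
    simp
  · intro i i' h
    ext v
    show (Pi.single i v : ∀ i, (B i).V) i' = 0
    simp [Pi.single_eq_of_ne (Ne.symm h)]
  · apply Rep.hom_ext
    rw [Rep.sum_hom]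
    apply Representation.IntertwiningMap.ext
    apply LinearMap.ext
    intro v
    funext i'
    show ((∑ i, (piProj B i ≫ piIncl B i).hom) v) i' = v i'
    rw [Representation.IntertwiningMap.sum_apply, Finset.sum_apply]
    show ∑ i, (Pi.single i (v i) : ∀ i, (B i).V) i' = v i'
    rw [Finset.sum_eq_single i']
    · simp
    · intro b _ hb
      simp [Pi.single_eq_of_ne (Ne.symm hb)]
    · simp

end Pi

variable {ι : Type} [Fintype ι] (x : ι → G) (hx : ∀ g : G, ∃! i, InDC H D (x i) g) (n : ℕ)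

omit [Fintype ι] in
include hx in
lemma incl_proj_ne (i i' : ι) (h : i ≠ i') :
    incl H D A (x i) ≫ proj H D A (x i') = 0 := by
  refine incl_proj_of_not H D A ?_
  intro hh
  obtain ⟨i₀, -, hu⟩ := hx (x i')
  exact h ((hu i hh).trans (hu i' (inDC_self H D (x i'))).symm)

/-- **Mackey decomposition in cohomology** (first form):
`Hⁿ(H, Res_H Coind_D^G A) ≃ ∏_i Hⁿ(H, Coind_{K_i}^H A_i)`. -/
def mackeyEquiv₀ : groupCohomology (resCoind H D A) n ≃ₗ[k]
    (∀ i, groupCohomology (piece H D A (x i)) n) :=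
  equivOfBicone (fun i => proj H D A (x i)) (fun i => incl H D A (x i))
    (fun i => incl_proj_self H D A (x i)) (incl_proj_ne H D A x hx)
    (sum_proj_incl H D A x hx) n

/-- **Mackey + Shapiro**: `Hⁿ(H, Res_H Coind_D^G A) ≃ ∏_i Hⁿ(K_i, A_i)`, where
`K_i = H ∩ x_i⁻¹ D x_i` acts on `A_i = A` through `h ↦ x_i h x_i⁻¹`. -/
def mackeyEquiv : groupCohomology (resCoind H D A) n ≃ₗ[k]
    (∀ i, groupCohomology (Rep.res (psi H D (x i)) A) n) :=
  (mackeyEquiv₀ H D A x hx n).trans
    (LinearEquiv.piCongrRight fun i =>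
      (groupCohomology.coindIso (Rep.res (psi H D (x i)) A) n).toLinearEquiv)

/-! ### Form with subgroups of `D` -/

lemma psi_injective (x : G) : Function.Injective (psi H D x) := by
  intro a b hab
  have h := congrArg (fun d : D => (d : G)) hab
  simp only [psi_coe] at h
  have h' : ((a : H) : G) = ((b : H) : G) := by
    have := congrArg (fun g => x⁻¹ * g * x) h
    simpa [mul_assoc] using this
  exact Subtype.ext (Subtype.ext h')

/-- `D_x = D ∩ x H x⁻¹`, as a subgroup of `D`. -/
def dsub (x : G) : Subgroup D := (psi H D x).range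

lemma mem_dsub {x : G} {d : D} : d ∈ dsub H D x ↔ x⁻¹ * (d : G) * x ∈ H := by
  constructor
  · rintro ⟨κ, rfl⟩
    have : x⁻¹ * ((psi H D x κ : D) : G) * x = ((κ : H) : G) := by
      rw [psi_coe]; simp [mul_assoc]
    rw [this]; exact (κ : H).2
  · intro hd
    have hmem : (⟨x⁻¹ * (d : G) * x, hd⟩ : H) ∈ stab H D x := by
      rw [mem_stab]
      have : x * (x⁻¹ * (d : G) * x) * x⁻¹ = d := by simp [mul_assoc]
      show x * (x⁻¹ * (d : G) * x) * x⁻¹ ∈ D
      rw [this]; exact d.2
    refine ⟨⟨⟨x⁻¹ * (d : G) * x, hd⟩, hmem⟩, Subtype.ext ?_⟩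
    rw [psi_coe]; simp [mul_assoc]

/-- `Hⁿ(K_x, A_x) ≅ Hⁿ(D_x, A)`. -/
def pieceIso (x : G) (n : ℕ) :
    groupCohomology (Rep.res (psi H D x) A) n ≅
      groupCohomology (Rep.res (dsub H D x).subtype A) n :=
  groupCohomology.mapIso (A := Rep.res (dsub H D x).subtype A) (B := Rep.res (psi H D x) A)
    (MonoidHom.ofInjective (psi_injective H D x)) (LinearEquiv.refl k A.V)
    (fun _ => rfl) n

/-- **Mackey + Shapiro**, form with subgroups of `D`:
`Hⁿ(H, Res_H Coind_D^G A) ≃ ∏_i Hⁿ(D ∩ x_i H x_i⁻¹, A)`. -/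
def mackeyEquiv' : groupCohomology (resCoind H D A) n ≃ₗ[k]
    (∀ i, groupCohomology (Rep.res (dsub H D (x i)).subtype A) n) :=
  (mackeyEquiv H D A x hx n).trans
    (LinearEquiv.piCongrRight fun i => (pieceIso H D A (x i) n).toLinearEquiv)

include hx in
/-- If `Hⁿ(D', A) = 0` for all subgroups `D' ≤ D`, then `Hⁿ(H, Coind_D^G A) = 0`. -/
theorem isZero_resCoind
    (h0 : ∀ D' : Subgroup D, Limits.IsZero (groupCohomology (Rep.res D'.subtype A) n)) :
    Limits.IsZero (groupCohomology (resCoind H D A) n) := by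
  rw [ModuleCat.isZero_iff_subsingleton]
  have : ∀ i, Subsingleton (groupCohomology (Rep.res (dsub H D (x i)).subtype A) n) :=
    fun i => ModuleCat.isZero_iff_subsingleton.1 (h0 _)
  exact (mackeyEquiv' H D A x hx n).toEquiv.subsingleton

include hx in
/-- `|Hⁿ(H, Coind_D^G A)| = ∏_i |Hⁿ(D ∩ x_i H x_i⁻¹, A)|`. -/
theorem card_resCoind :
    Nat.card (groupCohomology (resCoind H D A) n) =
      ∏ i, Nat.card (groupCohomology (Rep.res (dsub H D (x i)).subtype A) n) := by
  rw [Nat.card_congr (mackeyEquiv' H D A x hx n).toEquiv, Nat.card_pi]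

end Cohomology

/-! ## Canonical representatives -/

section Canonical

/-- Representatives of the double cosets `D \ G / H`. -/
def reps : DoubleCoset.Quotient (D : Set G) (H : Set G) → G := Quotient.out

lemma inDC_iff_mem_doubleCoset {x g : G} :
    InDC H D x g ↔ g ∈ DoubleCoset.doubleCoset x (D : Set G) (H : Set G) := by
  rw [DoubleCoset.mem_doubleCoset]
  constructor
  · rintro ⟨d, h, rfl⟩
    exact ⟨d, d.2, h, h.2, rfl⟩
  · rintro ⟨d, hd, h, hh, rfl⟩
    exact ⟨⟨d, hd⟩, ⟨h, hh⟩, rfl⟩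

lemma reps_spec (g : G) : ∃! q, InDC H D (reps H D q) g := by
  refine ⟨DoubleCoset.mk D H g, ?_, ?_⟩
  · show InDC H D (reps H D (DoubleCoset.mk D H g)) g
    rw [inDC_iff_mem_doubleCoset]
    exact (DoubleCoset.mem_quotToDoubleCoset_iff _ g).2 rfl
  · intro q hq
    have hq' : InDC H D (reps H D q) g := hq
    rw [inDC_iff_mem_doubleCoset] at hq'
    exact ((DoubleCoset.mem_quotToDoubleCoset_iff q g).1 hq').symm

instance [Finite G] : Finite (DoubleCoset.Quotient (D : Set G) (H : Set G)) :=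
  Quotient.finite _

/-- **Mackey + Shapiro**, canonical representatives (`D \ G / H` finite):
`Hⁿ(H, Res_H Coind_D^G A) ≃ ∏_{q ∈ D\G/H} Hⁿ(D ∩ x_q H x_q⁻¹, A)`. -/
def mackeyShapiro [Finite (DoubleCoset.Quotient (D : Set G) (H : Set G))] (n : ℕ) :
    groupCohomology (resCoind H D A) n ≃ₗ[k]
      (∀ q : DoubleCoset.Quotient (D : Set G) (H : Set G),
        groupCohomology (Rep.res (dsub H D (reps H D q)).subtype A) n) :=
  letI := Fintype.ofFinite (DoubleCoset.Quotient (D : Set G) (H : Set G))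
  mackeyEquiv' H D A (reps H D) (reps_spec H D) n

/-- If `Hⁿ(D', A) = 0` for every subgroup `D' ≤ D`, then `Hⁿ(H, Coind_D^G A) = 0` for every
subgroup `H ≤ G` (`D \ G / H` finite). -/
theorem isZero_resCoind_of_forall [Finite (DoubleCoset.Quotient (D : Set G) (H : Set G))] (n : ℕ)
    (h0 : ∀ D' : Subgroup D, Limits.IsZero (groupCohomology (Rep.res D'.subtype A) n)) :
    Limits.IsZero (groupCohomology (resCoind H D A) n) :=
  letI := Fintype.ofFinite (DoubleCoset.Quotient (D : Set G) (H : Set G))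
  isZero_resCoind H D A (reps H D) (reps_spec H D) n h0

/-- `|Hⁿ(H, Coind_D^G A)| = ∏_{q ∈ D\G/H} |Hⁿ(D ∩ x_q H x_q⁻¹, A)|`. -/
theorem card_resCoind_eq_prod [Fintype (DoubleCoset.Quotient (D : Set G) (H : Set G))] (n : ℕ) :
    Nat.card (groupCohomology (resCoind H D A) n) =
      ∏ q : DoubleCoset.Quotient (D : Set G) (H : Set G),
        Nat.card (groupCohomology (Rep.res (dsub H D (reps H D q)).subtype A) n) :=
  card_resCoind H D A (reps H D) (reps_spec H D) n

/-- Spec-style summary (for consumers in layers L, G, D): Mackey–Shapiro for finite groups. -/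
def MackeyShapiroSpec : Prop :=
  ∀ (k G : Type) [CommRing k] [Group G] [Finite G] (H D : Subgroup G) (A : Rep.{0} k D) (n : ℕ),
    ∃ (ι : Type) (_ : Fintype ι) (x : ι → G),
      (∀ g : G, ∃! i, ∃ d : D, ∃ h : H, g = d * x i * h) ∧
      Nonempty (groupCohomology (Rep.res H.subtype (Rep.coind D.subtype A)) n ≃ₗ[k]
        (∀ i, groupCohomology
          (Rep.res ((H.map (MulAut.conj (x i)).toMonoidHom).subgroupOf D).subtype A) n))

lemma dsub_eq (x : G) : dsub H D x = (H.map (MulAut.conj x).toMonoidHom).subgroupOf D := by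
  ext d
  rw [mem_dsub, Subgroup.mem_subgroupOf, Subgroup.mem_map]
  constructor
  · intro h
    exact ⟨x⁻¹ * d * x, h, by simp [mul_assoc]⟩
  · rintro ⟨h, hh, e⟩
    have : x⁻¹ * (d : G) * x = h := by
      rw [← e]; simp [mul_assoc]
    rw [this]; exact hh

theorem mackeyShapiroSpec : MackeyShapiroSpec := by
  intro k G _ _ _ H D A n
  let _ := Fintype.ofFinite (DoubleCoset.Quotient (D : Set G) (H : Set G))
  refine ⟨_, inferInstance, reps H D, reps_spec H D, ?_⟩
  have e := mackeyEquiv' H D A (reps H D) (reps_spec H D) n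
  have hd : ∀ q, dsub H D (reps H D q) =
      (H.map (MulAut.conj (reps H D q)).toMonoidHom).subgroupOf D := fun q => dsub_eq H D _
  have aux : ∀ {S T : Subgroup D}, S = T →
      Nonempty (groupCohomology (Rep.res S.subtype A) n ≃ₗ[k]
        groupCohomology (Rep.res T.subtype A) n) := by
    intro S T h; subst h; exact ⟨LinearEquiv.refl _ _⟩
  exact ⟨e.trans (LinearEquiv.piCongrRight fun q => (aux (hd q)).some)⟩

end Canonical

end

end Fermat.Agent.S55.T.H243
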