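import Fermat.Agent.S55.T.Spec

/-!
# S55, layer T, leaf T7 (bridges): Tate cohomology in degree `0` is `A^G / N_G A`

`tateZeroEquivHat0 A : tateCohomology A 0 ≃ₗ[k] hat0 A` for every `A : Rep k G`, `G` finite.
Mathlib-only (plus the vocabulary of `Spec.lean`).
-/

set_option autoImplicit false

namespace Fermat.Agent.S55.T.H539

open CategoryTheory groupCohomology groupHomology

variable {k G : Type} [CommRing k] [Group G] [Fintype G] (A : Rep.{0} k G)

/-- The concrete short complex `A --N_G--> A --d₀₁--> (G → A)`. -/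
noncomputable def normSc : ShortComplex (ModuleCat.{0} k) :=
  ShortComplex.mk (Rep.Hom.toModuleCatHom A.norm) (d₀₁ A) (Rep.norm_comp_d_eq_zero A)

/-- The degree-`0` part of the Tate complex is the concrete short complex `normSc`. -/
noncomputable def tateScZeroIso : (tateComplex A).sc' (-1) 0 1 ≅ normSc A :=
  ShortComplex.isoMk (chainsIso₀ A) (cochainsIso₀ A) (cochainsIso₁ A)
    (by
      change (chainsIso₀ A).hom ≫ Rep.Hom.toModuleCatHom A.norm =
        A.tateNorm ≫ (cochainsIso₀ A).hom
      simp [Rep.tateNorm])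
    (by
      change (cochainsIso₀ A).hom ≫ d₀₁ A =
        (inhomogeneousCochains A).d 0 1 ≫ (cochainsIso₁ A).hom
      exact comp_d₀₁_eq A)

/-- Tate cohomology in degree `0` is the homology of `normSc`. -/
noncomputable def tateZeroIsoHomology : tateCohomology A 0 ≅ (normSc A).homology :=
  (tateComplex A).homologyIsoSc' (-1) 0 1 (by simp) (by simp) ≪≫
    ShortComplex.homologyMapIso (tateScZeroIso A)

/-- The kernel of `d₀₁` is the module of invariants. -/
noncomputable def kerEquivInvariants :
    ↥(LinearMap.ker (normSc A).g.hom) ≃ₗ[k] ↥A.ρ.invariants :=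
  LinearEquiv.ofEq _ _ (d₀₁_ker_eq_invariants A)

theorem map_range_toCycles :
    Submodule.map (kerEquivInvariants A : ↥(LinearMap.ker (normSc A).g.hom) →ₗ[k] ↥A.ρ.invariants)
        (LinearMap.range (normSc A).moduleCatToCycles) =
      (LinearMap.range A.ρ.norm).comap A.ρ.invariants.subtype := by
  ext x
  simp only [Submodule.mem_map, LinearMap.mem_range, Submodule.mem_comap, Submodule.subtype_apply]
  constructor
  · rintro ⟨y, ⟨a, rfl⟩, rfl⟩
    exact ⟨a, rfl⟩
  · rintro ⟨a, ha⟩
    refine ⟨(normSc A).moduleCatToCycles a, ⟨a, rfl⟩, ?_⟩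
    apply Subtype.ext
    exact ha

/-- The homology of `normSc` is `A^G / N_G A`. -/
noncomputable def homologyEquivHat0 : (normSc A).homology ≃ₗ[k] hat0 A :=
  ((normSc A).moduleCatHomologyIso).toLinearEquiv ≪≫ₗ
    Submodule.Quotient.equiv _ _ (kerEquivInvariants A) (map_range_toCycles A)

/-- **T7.**  `Ĥ⁰(G, A) ≃ A^G / N_G A`. -/
noncomputable def tateZeroEquivHat0 : tateCohomology A 0 ≃ₗ[k] hat0 A :=
  (tateZeroIsoHomology A).toLinearEquiv ≪≫ₗ homologyEquivHat0 A

/-- `tateZeroEquivHat0` as an additive equivalence (avoids the `Module ℤ` diamond for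
consumers working over `ℤ`). -/
noncomputable def tateZeroAddEquivHat0 : tateCohomology A 0 ≃+ hat0 A :=
  (tateZeroEquivHat0 A).toAddEquiv

/-- An isomorphism in `ModuleCat k` as an additive equivalence (generic in `k`, so that no
`Module ℤ` instance is re-synthesised at `k = ℤ`). -/
noncomputable def moduleIsoToAddEquiv {R : Type} [Ring R] {X Y : ModuleCat.{0} R} (e : X ≅ Y) :
    X ≃+ Y :=
  e.toLinearEquiv.toAddEquiv

end Fermat.Agent.S55.T.H539
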