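import Fermat.Agent.S55.T.Hat0H539

/-!
# S55, layer T, leaf T7 (bridges): Tate cohomology in degree `-1` is `ker N_G / I_G A`,
and the cardinalities `hat0Card`, `hatNeg1Card` of `Spec.lean` are the cardinalities of
`Ĥ⁰` and `Ĥ⁻¹`.
-/

set_option autoImplicit false

namespace Fermat.Agent.S55.T.H539

open CategoryTheory groupCohomology groupHomology

variable {k G : Type} [CommRing k] [Group G] [Fintype G] (A : Rep.{0} k G)

/-- `I_G A = ∑_g (g - 1) A`, in the form used by `hatNeg1Card`. -/
noncomputable abbrev augSub : Submodule k A.V := ⨆ g : G, LinearMap.range (A.ρ g - 1)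

/-- `Ĥ⁻¹(G, A) = ker N_G / I_G A` as a `k`-module (elementary form). -/
abbrev hatNeg1 : Type :=
  ↥(LinearMap.ker A.ρ.norm) ⧸ (augSub A).comap (LinearMap.ker A.ρ.norm).subtype

omit [Fintype G] in
theorem augSub_eq_coinvariantsKer : augSub A = Representation.Coinvariants.ker A.ρ := by
  apply le_antisymm
  · refine iSup_le fun g => ?_
    rintro _ ⟨x, rfl⟩
    exact Representation.Coinvariants.mem_ker_of_eq g x _ (by simp)
  · rw [Representation.Coinvariants.ker, Submodule.span_le]
    rintro _ ⟨⟨g, x⟩, rfl⟩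
    exact Submodule.mem_iSup_of_mem g ⟨x, by simp⟩

omit [Fintype G] in
theorem range_d₁₀_eq_augSub : LinearMap.range (d₁₀ A).hom = augSub A := by
  rw [range_d₁₀_eq_coinvariantsKer, augSub_eq_coinvariantsKer]

/-- The concrete short complex `(G →₀ A) --d₁₀--> A --N_G--> A`. -/
noncomputable def normScNeg : ShortComplex (ModuleCat.{0} k) :=
  ShortComplex.mk (d₁₀ A) (Rep.Hom.toModuleCatHom A.norm) (Rep.comp_eq_zero A)

/-- The degree-`(-1)` part of the Tate complex is the concrete short complex `normScNeg`. -/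
noncomputable def tateScNegOneIso : (tateComplex A).sc' (-2) (-1) 0 ≅ normScNeg A :=
  ShortComplex.isoMk (chainsIso₁ A) (chainsIso₀ A) (cochainsIso₀ A)
    (by
      change (chainsIso₁ A).hom ≫ d₁₀ A = (inhomogeneousChains A).d 1 0 ≫ (chainsIso₀ A).hom
      exact comp_d₁₀_eq A)
    (by
      change (chainsIso₀ A).hom ≫ Rep.Hom.toModuleCatHom A.norm =
        A.tateNorm ≫ (cochainsIso₀ A).hom
      simp [Rep.tateNorm])

/-- Tate cohomology in degree `-1` is the homology of `normScNeg`. -/
noncomputable def tateNegOneIsoHomology : tateCohomology A (-1) ≅ (normScNeg A).homology :=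
  (tateComplex A).homologyIsoSc' (-2) (-1) 0 (by simp) (by simp) ≪≫
    ShortComplex.homologyMapIso (tateScNegOneIso A)

theorem range_toCycles_neg :
    LinearMap.range (normScNeg A).moduleCatToCycles =
      (augSub A).comap (LinearMap.ker A.ρ.norm).subtype := by
  ext x
  rw [← range_d₁₀_eq_augSub]
  simp only [LinearMap.mem_range]
  constructor
  · rintro ⟨a, rfl⟩
    exact ⟨a, rfl⟩
  · rintro ⟨a, ha⟩
    exact ⟨a, Subtype.ext ha⟩

/-- The homology of `normScNeg` is `ker N_G / I_G A`. -/
noncomputable def homologyEquivHatNeg1 : (normScNeg A).homology ≃ₗ[k] hatNeg1 A :=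
  ((normScNeg A).moduleCatHomologyIso).toLinearEquiv ≪≫ₗ
    Submodule.Quotient.equiv _ _ (LinearEquiv.refl k _)
      (by rw [range_toCycles_neg]; exact Submodule.map_id _)

/-- **T7.**  `Ĥ⁻¹(G, A) ≃ ker N_G / I_G A`. -/
noncomputable def tateNegOneEquivHatNeg1 : tateCohomology A (-1) ≃ₗ[k] hatNeg1 A :=
  (tateNegOneIsoHomology A).toLinearEquiv ≪≫ₗ homologyEquivHatNeg1 A

/-- `tateNegOneEquivHatNeg1` as an additive equivalence. -/
noncomputable def tateNegOneAddEquivHatNeg1 : tateCohomology A (-1) ≃+ hatNeg1 A :=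
  (tateNegOneEquivHatNeg1 A).toAddEquiv

/-! ### Cardinalities -/

omit [Group G] [Fintype G] in
/-- For submodules `P ≤ Q`, the relative index of `P` in `Q` is the cardinality of
`Q ⧸ (P.comap Q.subtype)`. -/
theorem relIndex_eq_card_quotient {M : Type} [AddCommGroup M] [Module k M] (P Q : Submodule k M) :
    P.toAddSubgroup.relIndex Q.toAddSubgroup = Nat.card (↥Q ⧸ P.comap Q.subtype) := by
  rw [AddSubgroup.relIndex, AddSubgroup.index]
  exact Nat.card_congr (Equiv.refl _)

theorem hat0Card_eq_card : hat0Card A = Nat.card (hat0 A) :=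
  relIndex_eq_card_quotient _ _

theorem hatNeg1Card_eq_card : hatNeg1Card A = Nat.card (hatNeg1 A) :=
  relIndex_eq_card_quotient _ _

/-- `|Ĥ⁰(G, A)| = [A^G : N_G A]`. -/
theorem card_tateZero : Nat.card (tateCohomology A 0) = hat0Card A := by
  rw [hat0Card_eq_card]
  exact Nat.card_congr (tateZeroEquivHat0 A).toEquiv

/-- `|Ĥ⁻¹(G, A)| = [ker N_G : I_G A]`. -/
theorem card_tateNegOne : Nat.card (tateCohomology A (-1)) = hatNeg1Card A := by
  rw [hatNeg1Card_eq_card]
  exact Nat.card_congr (tateNegOneEquivHatNeg1 A).toEquiv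

end Fermat.Agent.S55.T.H539
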