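import Fermat.Agent.S55.T.Spec2

/-!
# S55, layer T, leaf T6b : `LatticeDualitySpec`   (helper724)

`theorem latticeDuality : Fermat.Agent.S55.T.LatticeDualitySpec`.

Elementary duality in degree `0` for a `G`-lattice `M` (`G` finite of order `n`,
`N = ∑_g g` the norm):

* `norm_mem_iff` : an invariant `r` is a norm iff `n ∣ f r` for every invariant `f : M →+ ℤ`.
  Proof of `⇐`: the invariant functionals are exactly the `φ ∘ N`, `φ : N M →+ ℤ`; taking for
  `φ` the coordinates of a `ℤ`-basis of the (free) group `N M`, the hypothesis says that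
  `N r = n r` is `n` times an element `p` of `N M`; `M` is torsion free, so `r = p`.
* `functional_norm_iff` : an invariant `f : M →+ ℤ` is of the form `x ↦ ∑_g ψ (g⁻¹ x)` iff
  `n ∣ f r` for every invariant `r`.
  Proof of `⇐`: `M^G` is saturated in `M`, hence a direct summand (`M / M^G` is finitely
  generated and torsion free, hence projective); let `π : M → M^G` be a retraction and put
  `ψ x = f (π x) / n`.

The abstract core (`lattice_duality_core`) is stated for an additive action
`a : G → M →+ M` on an additive group with the canonical `ℤ`-module structure; the `Rep` form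
follows since any two `ℤ`-module structures agree.
-/

set_option autoImplicit false

namespace Fermat.Agent.S55.T.H724

open Fermat.Agent.S55.T

section Core

variable {G : Type*} [Group G] [Fintype G] {M : Type*} [AddCommGroup M]
variable (a : G → M →+ M)

/-- The norm `∑_g a g`. -/
noncomputable def normHom : M →+ M := ∑ g : G, a g

omit [Group G] in
lemma normHom_apply (x : M) : normHom a x = ∑ g : G, a g x := by
  simp [normHom]

variable {a}

lemma act_normHom (hmul : ∀ g h x, a (g * h) x = a g (a h x)) (h : G) (x : M) :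
    a h (normHom a x) = normHom a x := by
  rw [normHom_apply, map_sum]
  simp_rw [← hmul]
  exact Fintype.sum_equiv (Equiv.mulLeft h) _ _ (fun g => rfl)

lemma normHom_act (hmul : ∀ g h x, a (g * h) x = a g (a h x)) (h : G) (x : M) :
    normHom a (a h x) = normHom a x := by
  rw [normHom_apply, normHom_apply]
  simp_rw [← hmul]
  exact Fintype.sum_equiv (Equiv.mulRight h) _ _ (fun g => rfl)

lemma normHom_of_inv {r : M} (hr : ∀ g, a g r = r) :
    normHom a r = (Fintype.card G : ℤ) • r := by
  rw [normHom_apply]
  simp_rw [hr]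
  rw [Finset.sum_const, Finset.card_univ, natCast_zsmul]

lemma apply_normHom {f : M →+ ℤ} (hf : ∀ g x, f (a g x) = f x) (x : M) :
    f (normHom a x) = (Fintype.card G : ℤ) * f x := by
  rw [normHom_apply, map_sum]
  simp_rw [hf]
  rw [Finset.sum_const, Finset.card_univ, nsmul_eq_mul]

lemma sum_inv_eq_normHom (x : M) : ∑ g : G, a g⁻¹ x = normHom a x := by
  rw [normHom_apply]
  exact Fintype.sum_equiv (Equiv.inv G) _ _ (fun g => rfl)

lemma card_ne_zero724 : (Fintype.card G : ℤ) ≠ 0 := by
  exact_mod_cast Fintype.card_ne_zero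

variable [Module.Free ℤ M] [Module.Finite ℤ M]

/-- An invariant element is a norm iff every invariant functional takes a value divisible by
`|G|` on it. -/
theorem norm_mem_iff (hmul : ∀ g h x, a (g * h) x = a g (a h x)) (r : M)
    (hr : ∀ g, a g r = r) :
    (∃ s : M, r = ∑ g : G, a g s) ↔
      ∀ f : M →+ ℤ, (∀ g x, f (a g x) = f x) → (Fintype.card G : ℤ) ∣ f r := by
  constructor
  · rintro ⟨s, rfl⟩ f hf
    rw [← normHom_apply, apply_normHom hf]
    exact dvd_mul_right _ _
  · intro h
    -- the image of the norm, as a (free, finitely generated) `ℤ`-module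
    let NL : M →ₗ[ℤ] M := (normHom a).toIntLinearMap
    let P : Submodule ℤ M := LinearMap.range NL
    let N' : M →ₗ[ℤ] P := NL.rangeRestrict
    let b := Module.Free.chooseBasis ℤ P
    -- coordinates of `N r` are divisible by `|G|`
    have hcoord : ∀ i, (Fintype.card G : ℤ) ∣ b.repr (N' r) i := by
      intro i
      let f : M →+ ℤ := ((b.coord i).comp N').toAddMonoidHom
      have hf : ∀ g x, f (a g x) = f x := by
        intro g x
        show b.coord i (N' (a g x)) = b.coord i (N' x)
        congr 1
        apply Subtype.ext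
        show normHom a (a g x) = normHom a x
        exact normHom_act hmul g x
      exact h f hf
    choose c hc using hcoord
    -- hence `N r = |G| • p` with `p ∈ P`
    have hp : N' r = (Fintype.card G : ℤ) • ∑ i, c i • b i := by
      conv_lhs => rw [← b.sum_repr (N' r)]
      rw [Finset.smul_sum]
      refine Finset.sum_congr rfl (fun i _ => ?_)
      rw [hc i, mul_smul]
    have hp' : normHom a r = (Fintype.card G : ℤ) • ((∑ i, c i • b i : P) : M) := by
      have h1 : ((N' r : P) : M) = normHom a r := rfl
      rw [← h1, hp, Submodule.coe_smul]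
    rw [normHom_of_inv hr] at hp'
    have hreq : r = ((∑ i, c i • b i : P) : M) :=
      (smul_right_injective M (card_ne_zero724 (G := G))) hp'
    obtain ⟨s, hs⟩ := (∑ i, c i • b i : P).2
    refine ⟨s, ?_⟩
    rw [hreq, ← hs]
    exact normHom_apply a s

/-- An invariant functional is a norm iff it takes values divisible by `|G|` on the
invariants. -/
theorem functional_norm_iff
    (hmul : ∀ g h x, a (g * h) x = a g (a h x)) (f : M →+ ℤ)
    (hf : ∀ g x, f (a g x) = f x) :
    (∃ ψ : M →+ ℤ, ∀ x, f x = ∑ g : G, ψ (a g⁻¹ x)) ↔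
      ∀ r : M, (∀ g, a g r = r) → (Fintype.card G : ℤ) ∣ f r := by
  constructor
  · rintro ⟨ψ, hψ⟩ r hr
    rw [hψ r]
    simp_rw [hr]
    rw [Finset.sum_const, Finset.card_univ, nsmul_eq_mul]
    exact dvd_mul_right _ _
  · intro h
    -- the invariants, a saturated submodule
    let I : Submodule ℤ M :=
      { carrier := {x | ∀ g, a g x = x}
        add_mem' := fun {x y} hx hy g => by rw [map_add, hx g, hy g]
        zero_mem' := fun g => map_zero _
        smul_mem' := fun c x hx g => by
          show a g (c • x) = c • x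
          rw [map_zsmul, hx g] }
    have hImem : ∀ x, x ∈ I ↔ ∀ g, a g x = x := fun x => Iff.rfl
    have : Module.IsTorsionFree ℤ (M ⧸ I) := by
      refine ⟨fun k hk => ?_⟩
      have hk0 : k ≠ 0 := hk.ne_zero
      intro q₁ q₂ hq
      obtain ⟨x, rfl⟩ := Submodule.Quotient.mk_surjective I q₁
      obtain ⟨y, rfl⟩ := Submodule.Quotient.mk_surjective I q₂
      have hq' : k • Submodule.Quotient.mk (p := I) x = k • Submodule.Quotient.mk (p := I) y := hq
      rw [← Submodule.Quotient.mk_smul, ← Submodule.Quotient.mk_smul,
        Submodule.Quotient.eq, ← smul_sub] at hq'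
      rw [Submodule.Quotient.eq, hImem]
      intro g
      have h1 := (hImem _).1 hq' g
      rw [map_zsmul] at h1
      exact smul_right_injective M hk0 h1
    -- a section of the quotient map
    obtain ⟨σ, hσ⟩ := Module.projective_lifting_property I.mkQ (LinearMap.id : (M ⧸ I) →ₗ[ℤ] M ⧸ I)
      (Submodule.mkQ_surjective I)
    have hσ' : ∀ q, I.mkQ (σ q) = q := fun q => by
      have := LinearMap.congr_fun hσ q
      simpa using this
    -- the retraction onto the invariants
    let π : M →ₗ[ℤ] M := LinearMap.id - σ.comp I.mkQ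
    have hπ_mem : ∀ x, π x ∈ I := by
      intro x
      rw [← Submodule.Quotient.mk_eq_zero I]
      show I.mkQ (x - σ (I.mkQ x)) = 0
      rw [map_sub, hσ', sub_self]
    have hπ_fix : ∀ x, x ∈ I → π x = x := by
      intro x hx
      show x - σ (I.mkQ x) = x
      have : I.mkQ x = 0 := (Submodule.Quotient.mk_eq_zero I).2 hx
      rw [this, map_zero, sub_zero]
    have hdvd : ∀ x, (Fintype.card G : ℤ) ∣ f (π x) := fun x => h _ ((hImem _).1 (hπ_mem x))
    let ψ : M →+ ℤ := AddMonoidHom.mk' (fun x => f (π x) / (Fintype.card G : ℤ)) (by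
      intro x y
      show f (π (x + y)) / (Fintype.card G : ℤ) = _
      rw [map_add, map_add, Int.add_ediv_of_dvd_left (hdvd x)])
    refine ⟨ψ, fun x => ?_⟩
    rw [← map_sum, sum_inv_eq_normHom]
    show f x = f (π (normHom a x)) / (Fintype.card G : ℤ)
    rw [hπ_fix _ ((hImem _).2 (fun g => act_normHom hmul g x)), apply_normHom hf,
      Int.mul_ediv_cancel_left _ (card_ne_zero724 (G := G))]

/-- **Lattice duality in degree `0`**, abstract form. -/
theorem lattice_duality_core
    (hmul : ∀ g h x, a (g * h) x = a g (a h x)) :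
    (∀ r : M, (∀ g : G, a g r = r) →
      ((∃ s : M, r = ∑ g : G, a g s) ↔
        ∀ f : M →+ ℤ, (∀ (g : G) (x : M), f (a g x) = f x) →
          (Fintype.card G : ℤ) ∣ f r)) ∧
    (∀ f : M →+ ℤ, (∀ (g : G) (x : M), f (a g x) = f x) →
      ((∃ ψ : M →+ ℤ, ∀ x, f x = ∑ g : G, ψ (a g⁻¹ x)) ↔
        ∀ r : M, (∀ g : G, a g r = r) → (Fintype.card G : ℤ) ∣ f r)) :=
  ⟨fun r hr => norm_mem_iff hmul r hr, fun f hf => functional_norm_iff hmul f hf⟩

end Core

/-- **T6b** (`LatticeDualitySpec`) in the exact form of the frozen interface. -/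
theorem latticeDuality : LatticeDualitySpec := by
  intro G _ _ R hfree hfin
  have hinst : R.hV2 = AddCommGroup.toIntModule R.V := Subsingleton.elim _ _
  have : Module.Free ℤ R.V := hinst ▸ hfree
  have : Module.Finite ℤ R.V := hinst ▸ hfin
  exact lattice_duality_core (a := fun g => (R.ρ g).toAddMonoidHom)
    (fun g h x => by simp)

end Fermat.Agent.S55.T.H724
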