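import Fermat.Agent.S55.T.Spec2
import Fermat.Agent.S55.H572.DimShift
import Fermat.Agent.S55.H119.ResCoresCor

/-!
# S55, layer T, leaf T6a (Nakayama) — basic facts on cohomological triviality (helper719)

* `isCohTriv_of_iso` : cohomological triviality is invariant under isomorphisms;
* `isCohTriv_X₁/X₂/X₃` : two-out-of-three in short exact sequences;
* `exists_shift_one` : dimension shifting of Tate cohomology to degree `1`, for all subgroups
  simultaneously;
* `isZero_H1_iff` : concrete description of `H¹ = 0`;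
* `card_nsmul_tate_eq_zero` : `|H|` kills `Ĥⁿ(H, A)` for every `n : ℤ`.
-/

set_option autoImplicit false
set_option linter.style.haveILetI false

open CategoryTheory Limits groupCohomology Rep

namespace Fermat.Agent.S55.T.H719

open Fermat.Agent.S55.H572

noncomputable section

variable {k G : Type} [CommRing k] [Group G]

/-! ## Invariance under isomorphism -/

theorem isZero_tate_of_iso [Fintype G] {A B : Rep.{0} k G} (e : A ≅ B) (n : ℤ)
    (h : IsZero (tateCohomology A n)) : IsZero (tateCohomology B n) :=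
  IsZero.of_iso h ((tateCohomologyFunctor n).mapIso e.symm)

theorem isCohTriv_of_iso [Finite G] {A B : Rep.{0} k G} (e : A ≅ B) (h : IsCohTriv A) :
    IsCohTriv B := by
  intro H _ n
  exact IsZero.of_iso (h H n)
    ((tateCohomologyFunctor n).mapIso ((resFunctor H.subtype).mapIso e.symm))

/-! ## Two out of three -/

section TwoOfThree

variable [Fintype G] {S : ShortComplex (Rep.{0} k G)} (hS : S.ShortExact)

include hS

theorem isZero_tate_X₂ (n : ℤ) (h₁ : IsZero (tateCohomology S.X₁ n))
    (h₃ : IsZero (tateCohomology S.X₃ n)) : IsZero (tateCohomology S.X₂ n) :=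
  ((TateCohomology.map_tateComplexFunctor_shortExact hS).homology_exact₂ n).isZero_of_both_isZero
    h₁ h₃

theorem isZero_tate_X₃ (n : ℤ) (h₂ : IsZero (tateCohomology S.X₂ n))
    (h₁ : IsZero (tateCohomology S.X₁ (n + 1))) : IsZero (tateCohomology S.X₃ n) :=
  (TateCohomology.exact₃ hS n).isZero_of_both_isZero h₂ h₁

theorem isZero_tate_X₁ (n : ℤ) (h₃ : IsZero (tateCohomology S.X₃ n))
    (h₂ : IsZero (tateCohomology S.X₂ (n + 1))) : IsZero (tateCohomology S.X₁ (n + 1)) :=
  (TateCohomology.exact₁ hS n).isZero_of_both_isZero h₃ h₂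

end TwoOfThree

section TwoOfThreeCT

variable [Finite G] {S : ShortComplex (Rep.{0} k G)} (hS : S.ShortExact)

include hS

theorem isCohTriv_X₂ (h₁ : IsCohTriv S.X₁) (h₃ : IsCohTriv S.X₃) : IsCohTriv S.X₂ := by
  intro H _ n
  exact isZero_tate_X₂ ((Rep.shortExact_res H.subtype).2 hS) n (h₁ H n) (h₃ H n)

theorem isCohTriv_X₃ (h₁ : IsCohTriv S.X₁) (h₂ : IsCohTriv S.X₂) : IsCohTriv S.X₃ := by
  intro H _ n
  exact isZero_tate_X₃ ((Rep.shortExact_res H.subtype).2 hS) n (h₂ H n) (h₁ H (n + 1))

theorem isCohTriv_X₁ (h₂ : IsCohTriv S.X₂) (h₃ : IsCohTriv S.X₃) : IsCohTriv S.X₁ := by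
  intro H _ n
  have := isZero_tate_X₁ ((Rep.shortExact_res H.subtype).2 hS) (n - 1) (h₃ H (n - 1))
    (by rw [sub_add_cancel]; exact h₂ H n)
  rwa [sub_add_cancel] at this

end TwoOfThreeCT

/-! ## Dimension shifting to degree `1` -/

/-- Dimension shifting: for every `n : ℤ` there is `A'` such that `Ĥⁿ(H, A) ≅ Ĥ¹(H, A')` for all
subgroups `H` simultaneously. -/
theorem exists_shift_one [Finite G] (n : ℤ) (A : Rep.{0} k G) :
    ∃ A' : Rep.{0} k G, ∀ (H : Subgroup G) [Fintype H],
      Nonempty (tateCohomology (res H.subtype A) n ≅ tateCohomology (res H.subtype A') 1) := by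
  letI : Fintype G := Fintype.ofFinite G
  revert A
  induction n using Int.inductionOn' (b := 1) with
  | zero => exact fun A => ⟨A, fun H _ => ⟨Iso.refl _⟩⟩
  | succ k _ ih =>
    intro A
    obtain ⟨A', hA'⟩ := ih (up A)
    refine ⟨A', fun H _ => ?_⟩
    obtain ⟨e⟩ := hA' H
    exact ⟨(tateUpIso H A k).symm ≪≫ e⟩
  | pred k _ ih =>
    intro A
    obtain ⟨A', hA'⟩ := ih (down A)
    refine ⟨A', fun H _ => ?_⟩
    obtain ⟨e⟩ := hA' H
    have e1 := tateDownIso H A (k - 1)
    rw [sub_add_cancel] at e1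
    exact ⟨e1 ≪≫ e⟩

/-! ## Concrete description of `H¹ = 0` -/

/-- Every `1`-cocycle is a coboundary (concrete form of `H¹(K, B) = 0`). -/
def H1Triv {K : Type} [Group K] (B : Rep.{0} k K) : Prop :=
  ∀ c : K → B.V, (∀ g h : K, c (g * h) = B.ρ g (c h) + c g) →
    ∃ y : B.V, ∀ g : K, c g = B.ρ g y - y

theorem isZero_H1_iff {K : Type} [Group K] (B : Rep.{0} k K) :
    IsZero (groupCohomology B 1) ↔ H1Triv B := by
  constructor
  · intro h c hc
    have hmem : c ∈ cocycles₁ B := (mem_cocycles₁_iff c).2 hc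
    have h0 : H1π B ⟨c, hmem⟩ = 0 := (ModuleCat.isZero_iff_subsingleton.1 h).elim _ _
    rw [H1π_eq_zero_iff] at h0
    obtain ⟨y, hy⟩ := h0
    refine ⟨y, fun g => ?_⟩
    have := congrFun hy g
    simpa [d₀₁_hom_apply] using this.symm
  · intro h
    rw [ModuleCat.isZero_iff_subsingleton]
    refine ⟨fun x y => ?_⟩
    suffices ∀ z : H1 B, z = 0 by rw [this x, this y]
    intro z
    induction z using H1_induction_on with
    | h c =>
      rw [H1π_eq_zero_iff]
      obtain ⟨y, hy⟩ := h c (fun g h => (mem_cocycles₁_iff (c : K → B.V)).1 c.2 g h)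
      refine ⟨y, funext fun g => ?_⟩
      rw [d₀₁_hom_apply]
      exact (hy g).symm

theorem isZero_tate_one_iff {K : Type} [Group K] [Fintype K] (B : Rep.{0} k K) :
    IsZero (tateCohomology B 1) ↔ H1Triv B := by
  rw [← isZero_H1_iff]
  exact ⟨fun h => IsZero.of_iso h ((TateCohomology.isoGroupCohomology 1).app B).symm,
    fun h => IsZero.of_iso h ((TateCohomology.isoGroupCohomology 1).app B)⟩

/-! ## `|H|` kills Tate cohomology -/

theorem card_nsmul_tate_one_eq_zero {K : Type} [Group K] [Fintype K] (B : Rep.{0} k K)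
    (x : tateCohomology B 1) : Nat.card K • x = 0 := by
  let e := (TateCohomology.isoGroupCohomology 1).app B
  have h1 : e.hom.hom (Nat.card K • x) = 0 := by
    rw [map_nsmul]
    exact Fermat.Agent.S55.H119.card_nsmul_eq_zero_one B _
  have h2 : e.inv.hom (e.hom.hom (Nat.card K • x)) = Nat.card K • x := by
    simp
  rw [← h2, h1, map_zero]

theorem card_nsmul_tate_eq_zero [Finite G] (A : Rep.{0} k G) (H : Subgroup G) [Fintype H]
    (n : ℤ) (x : tateCohomology (res H.subtype A) n) : Nat.card H • x = 0 := by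
  obtain ⟨A', hA'⟩ := exists_shift_one n A
  obtain ⟨e⟩ := hA' H
  have h1 : e.hom.hom (Nat.card H • x) = 0 := by
    rw [map_nsmul]
    exact card_nsmul_tate_one_eq_zero _ _
  have h2 : e.inv.hom (e.hom.hom (Nat.card H • x)) = Nat.card H • x := by
    simp
  rw [← h2, h1, map_zero]

end

end Fermat.Agent.S55.T.H719
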