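import Fermat.Agent.S55.T.NakHomH719

/-!
# S55, layer T, leaf T6a (Nakayama) — torsion-free covers and reduction mod `p` (helper719)

* `PTorsionFree p M` : multiplication by `p` is injective on `M`;
* `coverSC X : 0 → K → coind₁ (k^(X)) → X → 0`, with `K` and the middle term torsion-free
  (if `k` is);
* `pSC A p : 0 → A → A → A/p → 0` for `p`-torsion-free `A`.
-/

set_option autoImplicit false
set_option linter.style.haveILetI false

open CategoryTheory Limits groupCohomology Rep

namespace Fermat.Agent.S55.T.H719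

open Fermat.Agent.S55.H572

noncomputable section

variable {k G : Type} [CommRing k] [Group G]

/-- Multiplication by `p` is injective. -/
def PTorsionFree (p : ℕ) (M : Type) [AddCommGroup M] : Prop := ∀ x : M, p • x = 0 → x = 0

theorem pTorsionFree_of_injective {p : ℕ} {M N : Type} [AddCommGroup M] [AddCommGroup N]
    (f : M →+ N) (hf : Function.Injective f) (hN : PTorsionFree p N) : PTorsionFree p M := by
  intro x hx
  apply hf
  rw [map_zero]
  apply hN
  rw [← map_nsmul, hx, map_zero]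

theorem pTorsionFree_ihom {p : ℕ} (R X : Rep.{0} k G) (hX : PTorsionFree p X.V) :
    PTorsionFree p ((Rep.ihom R).obj X).V := by
  intro φ hφ
  apply LinearMap.ext
  intro r
  apply hX
  have := congrArg (fun χ : R.V →ₗ[k] X.V => χ r) hφ
  exact this

theorem pTorsionFree_coind₁ {p : ℕ} (A : Rep.{0} k G) (hA : PTorsionFree p A.V) :
    PTorsionFree p (coind₁ A).V := by
  intro f hf
  apply Subtype.ext
  funext x
  apply hA
  have := congrArg (fun χ : (coind₁ A).V => χ.1 x) hf
  simpa using this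

theorem pTorsionFree_finsupp {p : ℕ} (hk : PTorsionFree p k) (ι : Type) :
    PTorsionFree p (ι →₀ k) := by
  intro f hf
  apply Finsupp.ext
  intro i
  apply hk
  have := congrArg (fun χ : ι →₀ k => χ i) hf
  simpa using this

/-! ## The free cover -/

section Cover

variable [Fintype G]

/-- The coefficient module of the cover: the free `k`-module on the set `X`, with trivial
action. -/
abbrev coverCoeff (X : Rep.{0} k G) : Rep.{0} k G := Rep.trivial k G (X.V →₀ k)

/-- Underlying linear map of `coverπ`. -/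
def coverπLin (X : Rep.{0} k G) : (coind₁ (coverCoeff X)).V →ₗ[k] X.V where
  toFun f := ∑ x : G, X.ρ x⁻¹ (Finsupp.linearCombination k (id : X.V → X.V) (f.1 x))
  map_add' f g := by
    rw [← Finset.sum_add_distrib]
    refine Finset.sum_congr rfl fun x _ => ?_
    rw [← map_add, ← map_add]
    rfl
  map_smul' r f := by
    rw [RingHom.id_apply, Finset.smul_sum]
    refine Finset.sum_congr rfl fun x _ => ?_
    rw [← map_smul, ← map_smul]
    rfl

/-- The cover `coind₁ (k^(X)) ⟶ X`. -/
def coverπ (X : Rep.{0} k G) : coind₁ (coverCoeff X) ⟶ X :=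
  Rep.ofHom (ρ := (coind₁ (coverCoeff X)).ρ) (σ := X.ρ) ⟨coverπLin X, fun g => by
    apply LinearMap.ext
    intro f
    change ∑ x : G, X.ρ x⁻¹ (Finsupp.linearCombination k (id : X.V → X.V) (f.1 (x * g))) =
      X.ρ g (∑ x : G, X.ρ x⁻¹ (Finsupp.linearCombination k (id : X.V → X.V) (f.1 x)))
    rw [map_sum]
    refine Fintype.sum_equiv (Equiv.mulRight g) _ _ fun x => ?_
    change X.ρ x⁻¹ _ = X.ρ g (X.ρ (x * g)⁻¹ _)
    rw [← Module.End.mul_apply, ← map_mul, mul_inv_rev, mul_inv_cancel_left]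
    rfl⟩

theorem coverπ_hom_apply (X : Rep.{0} k G) (f : (coind₁ (coverCoeff X)).V) :
    (coverπ X).hom f =
      ∑ x : G, X.ρ x⁻¹ (Finsupp.linearCombination k (id : X.V → X.V) (f.1 x)) := rfl

instance coverπ_epi (X : Rep.{0} k G) : Epi (coverπ X) := by
  classical
  rw [Rep.epi_iff_surjective]
  intro a
  refine ⟨mkCoind (res (⊥ : Subgroup G).subtype (coverCoeff X))
    (fun x => if x = 1 then Finsupp.single a 1 else 0), ?_⟩
  rw [coverπ_hom_apply]
  rw [Finset.sum_eq_single (1 : G)]
  · simp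
  · intro x _ hx
    simp [hx]
  · intro h; exact absurd (Finset.mem_univ _) h

/-- The short exact sequence `0 → K → coind₁ (k^(X)) → X → 0`. -/
def coverSC (X : Rep.{0} k G) : ShortComplex (Rep.{0} k G) :=
  ShortComplex.mk (kernel.ι (coverπ X)) (coverπ X) (kernel.condition _)

theorem coverSC_shortExact (X : Rep.{0} k G) : (coverSC X).ShortExact where
  exact := ShortComplex.exact_of_f_is_kernel _ (kernelIsKernel _)
  mono_f := equalizer.ι_mono
  epi_g := coverπ_epi X

theorem pTorsionFree_coverSC_X₂ {p : ℕ} (hk : PTorsionFree p k) (X : Rep.{0} k G) :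
    PTorsionFree p (coverSC X).X₂.V :=
  pTorsionFree_coind₁ _ (pTorsionFree_finsupp hk _)

theorem pTorsionFree_coverSC_X₁ {p : ℕ} (hk : PTorsionFree p k) (X : Rep.{0} k G) :
    PTorsionFree p (coverSC X).X₁.V :=
  pTorsionFree_of_injective (coverSC X).f.hom.toLinearMap.toAddMonoidHom
    ((Rep.mono_iff_injective _).1 (coverSC_shortExact X).mono_f) (pTorsionFree_coverSC_X₂ hk X)

end Cover

/-! ## Reduction mod `p` -/

theorem nsmul_id_hom_apply (A : Rep.{0} k G) (p : ℕ) (x : A.V) :
    (p • 𝟙 A : A ⟶ A).hom x = p • x := by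
  rw [← Nat.cast_smul_eq_nsmul k p (𝟙 A), Rep.smul_hom]
  change (p : k) • x = p • x
  exact Nat.cast_smul_eq_nsmul k p x

/-- The short complex `A --p--> A --> A/p`. -/
def pSC (A : Rep.{0} k G) (p : ℕ) : ShortComplex (Rep.{0} k G) :=
  ShortComplex.mk (p • 𝟙 A) (cokernel.π (p • 𝟙 A)) (cokernel.condition _)

theorem pSC_shortExact (A : Rep.{0} k G) (p : ℕ) (hA : PTorsionFree p A.V) :
    (pSC A p).ShortExact where
  exact := ShortComplex.exact_of_g_is_cokernel _ (cokernelIsCokernel _)
  mono_f := by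
    rw [Rep.mono_iff_injective]
    intro (x : A.V) (y : A.V) h
    have h' : (p • 𝟙 A : A ⟶ A).hom x = (p • 𝟙 A : A ⟶ A).hom y := h
    rw [nsmul_id_hom_apply, nsmul_id_hom_apply] at h'
    have h2 : p • (x - y) = 0 := by rw [smul_sub, h', sub_self]
    exact sub_eq_zero.1 (hA _ h2)
  epi_g := coequalizer.π_epi

theorem pSC_X₃_nsmul (A : Rep.{0} k G) (p : ℕ) (v : (pSC A p).X₃.V) : p • v = 0 := by
  obtain ⟨(a : A.V), rfl⟩ :=
    (Rep.epi_iff_surjective (cokernel.π (p • 𝟙 A : A ⟶ A))).1 coequalizer.π_epi v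
  have h1 : (cokernel.π (p • 𝟙 A : A ⟶ A)).hom ((p • 𝟙 A : A ⟶ A).hom a) = 0 :=
    congrArg (fun f : A ⟶ cokernel (p • 𝟙 A : A ⟶ A) => f.hom a)
      (cokernel.condition (p • 𝟙 A : A ⟶ A))
  rw [nsmul_id_hom_apply, map_nsmul] at h1
  exact h1

end

end Fermat.Agent.S55.T.H719
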