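import Fermat.Agent.S55.T.NakH837.Main

/-!
# S55, layer T, leaf T6 (helper837): `TateNakayamaSpec`

`tateNakayama_of : SplitModuleSpec → NakayamaSpec → TateNakayamaSpec`.

The proof uses no cup products: it is a diagram chase with two-step extensions
(`R → coind₁ R → up R → coind₁ (up R) → up (up R)` against `C → X → I → P → ℤ`), naturality of
the connecting homomorphisms, the norm trick for weakly projective modules, and the elementary
lattice duality in degree `0` (proved in `NakH837/LatDual.lean`, so `LatticeDualitySpec` is not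
needed as an input).
-/

set_option autoImplicit false
set_option linter.unusedSectionVars false
set_option linter.style.haveILetI false

open CategoryTheory groupCohomology

namespace Fermat.Agent.S55.T.H837

open Fermat.Agent.S55.H572

noncomputable section

/-- A morphism given pointwise by the norm formula is a norm. -/
lemma eq_normHom_of_apply {k G : Type} [CommRing k] [Group G] [Fintype G] {A B : Rep.{0} k G}
    (f : A ⟶ B) (ψ : A.V →ₗ[k] B.V)
    (h : ∀ a : A.V, f.hom a = ∑ g : G, B.ρ g (ψ (A.ρ g⁻¹ a))) : f = normHom ψ := by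
  apply Rep.hom_ext
  apply Representation.IntertwiningMap.ext
  apply LinearMap.ext
  intro a
  change f.hom a = (normHom ψ).hom a
  rw [h a, normHom_hom_apply]

/-- An additive map between `ℤ`-modules (with arbitrary module instances) is linear. -/
def linOfAdd {M N : Type} [AddCommGroup M] [AddCommGroup N] (iM : Module ℤ M) (iN : Module ℤ N)
    (ψ : M →+ N) : @LinearMap ℤ ℤ _ _ (RingHom.id ℤ) M N _ _ iM iN :=
  @LinearMap.mk ℤ ℤ _ _ (RingHom.id ℤ) M N _ _ iM iN ⟨ψ, ψ.map_add⟩ (fun c x => by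
    have h1 : @HSMul.hSMul ℤ M M (@instHSMul ℤ M iM.toSMul) c x = c • x :=
      int_smul_eq_zsmul iM c x
    have h2 : @HSMul.hSMul ℤ N N (@instHSMul ℤ N iN.toSMul) c (ψ x) = c • ψ x :=
      int_smul_eq_zsmul iN c (ψ x)
    change ψ (@HSMul.hSMul ℤ M M (@instHSMul ℤ M iM.toSMul) c x) =
      @HSMul.hSMul ℤ N N (@instHSMul ℤ N iN.toSMul) c (ψ x)
    rw [h1, h2, map_zsmul])

lemma linOfAdd_apply {M N : Type} [AddCommGroup M] [AddCommGroup N] (iM : Module ℤ M)
    (iN : Module ℤ N) (ψ : M →+ N) (x : M) :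
    (linOfAdd iM iN ψ : @LinearMap ℤ ℤ _ _ (RingHom.id ℤ) M N _ _ iM iN) x = ψ x := rfl

/-- **T6.**  Tate–Nakayama for lattices, from the splitting module and Nakayama's theorem. -/
theorem tateNakayama_of (hS : SplitModuleSpec) (hN : NakayamaSpec) : TateNakayamaSpec := by
  intro G _ _ C γ hC R hfree hfin
  obtain ⟨X, I, P, i, π, j, ε, w₁, w₂, hA, hB, hX, hP⟩ := hS G C γ hC
  haveI : @Module.Free ℤ R.V _ _ R.hV2 := hfree
  haveI : @Module.Finite ℤ R.V _ _ R.hV2 := hfin
  have hn : ((Fintype.card G : ℕ) : ℤ) ≠ 0 := by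
    exact_mod_cast Fintype.card_ne_zero
  refine ⟨fun φ => ?_, fun f => ⟨fun hf => ?_, fun hψ => ?_⟩⟩
  · obtain ⟨f, hf⟩ := exists_hom_coeffMap_eq hA hB hn hX hP R (linOfAdd _ _ φ)
    exact ⟨f, fun x => hf x⟩
  · have hNX := hN G X R hfree hfin hX
    have hNP := hN G P (up R) (free_up R) (finite_up R) hP
    obtain ⟨ψ, hψ⟩ := exists_normHom_of_coeffMap_eq_zero hA hB hn hX hP R hNX hNP f hf
    refine ⟨ψ.toAddMonoidHom, fun r => ?_⟩
    rw [hψ, normHom_hom_apply]
    rfl
  · obtain ⟨ψ, hψ⟩ := hψ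
    have hf : f = normHom (linOfAdd R.hV2 C.hV2 ψ) :=
      eq_normHom_of_apply f (linOfAdd R.hV2 C.hV2 ψ) (fun r => hψ r)
    intro x
    rw [hf, coeffMap_normHom_eq_zero]
    rfl

end

end Fermat.Agent.S55.T.H837
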