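import Fermat.Agent.S55.T.NakCoverH719

/-!
# S55, layer T, leaf T6a (Nakayama) — modules over `p`-groups killed by `p` (helper719)

* `exists_fixed_ne_zero` : a nonzero module killed by `p` over a finite `p`-group has a nonzero
  fixed vector;
* `exists_iso_coind₁_of_pGroup` : if moreover `H¹(P, V) = 0` (and the invariants are a direct
  summand as `k`-module, automatic for `k = ℤ`), then `V ≅ coind₁ (V^P)`.
-/

set_option autoImplicit false
set_option linter.style.haveILetI false

open CategoryTheory Limits groupCohomology Rep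

namespace Fermat.Agent.S55.T.H719

open Fermat.Agent.S55.H572

noncomputable section

variable {k : Type} [CommRing k]

/-- **Fixed point lemma**: a nonzero module killed by `p` over a finite `p`-group has a nonzero
fixed vector. -/
theorem exists_fixed_ne_zero {P : Type} [Group P] [Finite P] {p : ℕ} [Fact p.Prime]
    (hP : IsPGroup p P) (M : Rep.{0} k P) (hpM : ∀ m : M.V, p • m = 0) (hM : Nontrivial M.V) :
    ∃ m : M.V, m ≠ 0 ∧ ∀ g : P, M.ρ g m = m := by
  obtain ⟨m₀, hm₀⟩ := exists_ne (0 : M.V)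
  let S : Set M.V := Set.range (fun g : P => M.ρ g m₀)
  haveI : Finite S := Set.finite_range _
  let M₀ : AddSubgroup M.V := AddSubgroup.closure S
  have hstable : ∀ (g : P) (m : M.V), m ∈ M₀ → M.ρ g m ∈ M₀ := by
    intro g m hm
    induction hm using AddSubgroup.closure_induction with
    | mem x hx =>
      obtain ⟨h, rfl⟩ := hx
      apply AddSubgroup.subset_closure
      refine ⟨g * h, ?_⟩
      change M.ρ (g * h) m₀ = M.ρ g (M.ρ h m₀)
      rw [map_mul]
      rfl
    | zero => rw [map_zero]; exact M₀.zero_mem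
    | add x y _ _ hx hy => rw [map_add]; exact M₀.add_mem hx hy
    | neg x _ hx => rw [map_neg]; exact M₀.neg_mem hx
  letI : MulAction P M₀ :=
    { smul := fun g m => ⟨M.ρ g m.1, hstable g m.1 m.2⟩
      one_smul := fun m => by
        apply Subtype.ext
        change M.ρ 1 m.1 = m.1
        rw [map_one]
        rfl
      mul_smul := fun g h m => by
        apply Subtype.ext
        change M.ρ (g * h) m.1 = M.ρ g (M.ρ h m.1)
        rw [map_mul]
        rfl }
  have hsmul : ∀ (g : P) (m : M₀), ((g • m : M₀) : M.V) = M.ρ g m.1 := fun _ _ => rfl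
  have hfin : Finite M₀ := by
    haveI : AddGroup.FG M₀ := AddGroup.closure_finite_fg S
    apply AddCommGroup.finite_of_fg_isAddTorsion
    intro m
    rw [isOfFinAddOrder_iff_nsmul_eq_zero]
    refine ⟨p, (Fact.out : p.Prime).pos, ?_⟩
    apply Subtype.ext
    rw [AddSubgroup.coe_nsmul]
    exact hpM _
  have hm₀mem : m₀ ∈ M₀ := by
    apply AddSubgroup.subset_closure
    refine ⟨1, ?_⟩
    change M.ρ 1 m₀ = m₀
    rw [map_one]
    rfl
  have hpg : IsPGroup p (Multiplicative M₀) := by
    intro x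
    refine ⟨1, ?_⟩
    rw [pow_one]
    change Multiplicative.ofAdd (p • Multiplicative.toAdd x) = 1
    have : p • Multiplicative.toAdd x = 0 := by
      apply Subtype.ext
      rw [AddSubgroup.coe_nsmul]
      exact hpM _
    rw [this]
    rfl
  have hcard : p ∣ Nat.card M₀ := by
    haveI : Finite (Multiplicative M₀) := hfin
    rcases hpg.card_eq_or_dvd with h1 | h1
    · exfalso
      have h2 : Nat.card M₀ = 1 := h1
      rw [Nat.card_eq_one_iff_unique] at h2
      obtain ⟨hs, _⟩ := h2
      have := hs.elim (⟨m₀, hm₀mem⟩ : M₀) 0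
      exact hm₀ (congrArg Subtype.val this)
    · exact h1
  have h0 : (0 : M₀) ∈ MulAction.fixedPoints P M₀ := by
    intro g
    apply Subtype.ext
    rw [hsmul]
    exact map_zero _
  obtain ⟨b, hb, hb0⟩ := hP.exists_fixed_point_of_prime_dvd_card_of_fixed_point M₀ hcard h0
  refine ⟨b.1, ?_, fun g => ?_⟩
  · intro h
    apply hb0
    apply Subtype.ext
    exact h.symm
  · have := hb g
    exact congrArg Subtype.val this

/-! ## Structure of `p`-torsion modules with vanishing `H¹` over a `p`-group -/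

section Structure

variable {P : Type} [Group P]

/-- The coefficient module `V^P` with trivial action. -/
abbrev invCoeff (V : Rep.{0} k P) : Rep.{0} k P := Rep.trivial k P V.ρ.invariants

/-- The comparison map `V ⟶ coind₁ (V^P)`, `v ↦ (x ↦ π (x v))`, attached to a `k`-linear
retraction `π : V → V^P`. -/
def toCoindInv (V : Rep.{0} k P) (π : V.V →ₗ[k] V.ρ.invariants) : V ⟶ coind₁ (invCoeff V) :=
  Rep.ofHom (ρ := V.ρ) (σ := (coind₁ (invCoeff V)).ρ)
    ⟨coind₁Pi (invCoeff V) (fun x => π ∘ₗ V.ρ x), fun g => by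
      apply LinearMap.ext
      intro v
      apply Subtype.ext
      funext x
      change π (V.ρ x (V.ρ g v)) = π (V.ρ (x * g) v)
      rw [map_mul]
      rfl⟩

theorem toCoindInv_hom_apply (V : Rep.{0} k P) (π : V.V →ₗ[k] V.ρ.invariants) (v : V.V)
    (x : P) : ((toCoindInv V π).hom v).1 x = π (V.ρ x v) := rfl

theorem toCoindInv_injective [Finite P] {p : ℕ} [Fact p.Prime] (hP : IsPGroup p P)
    (V : Rep.{0} k P) (hpV : ∀ v : V.V, p • v = 0) (π : V.V →ₗ[k] V.ρ.invariants)
    (hπ : ∀ w : V.ρ.invariants, π w = w) : Function.Injective (toCoindInv V π).hom := by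
  obtain ⟨φ, hφ⟩ : ∃ φ : V ⟶ coind₁ (invCoeff V), φ = toCoindInv V π := ⟨_, rfl⟩
  have hφapp : ∀ (v : V.V) (x : P), (φ.hom v).1 x = π (V.ρ x v) := by
    subst hφ
    exact toCoindInv_hom_apply V π
  rw [← hφ]
  have hex : (ShortComplex.mk (kernel.ι φ) φ (kernel.condition φ)).Exact :=
    ShortComplex.exact_of_f_is_kernel _ (kernelIsKernel _)
  rw [rep_exact_iff] at hex
  have hinj : Function.Injective (kernel.ι φ).hom :=
    (Rep.mono_iff_injective _).1 equalizer.ι_mono
  have hsub : Subsingleton (kernel φ).V := by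
    by_contra hns
    rw [not_subsingleton_iff_nontrivial] at hns
    have hpN : ∀ n : (kernel φ).V, p • n = 0 := by
      intro n
      apply hinj
      rw [map_nsmul, map_zero]
      exact hpV _
    obtain ⟨n, hn0, hnfix⟩ := exists_fixed_ne_zero hP (kernel φ) hpN hns
    have hv : ∀ g : P, V.ρ g ((kernel.ι φ).hom n) = (kernel.ι φ).hom n := by
      intro g
      rw [← Rep.hom_comm_apply, hnfix g]
    have hφv : φ.hom ((kernel.ι φ).hom n) = 0 := by
      have := congrArg (fun f : kernel φ ⟶ coind₁ (invCoeff V) => f.hom n) (kernel.condition φ)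
      exact this
    have h1 : (φ.hom ((kernel.ι φ).hom n)).1 1 = π ((kernel.ι φ).hom n) := by
      rw [hφapp, map_one]
      rfl
    have h2 : π ((kernel.ι φ).hom n) = ⟨(kernel.ι φ).hom n, hv⟩ := hπ ⟨_, hv⟩
    rw [hφv] at h1
    have h3 : (⟨(kernel.ι φ).hom n, hv⟩ : V.ρ.invariants) = 0 := by
      rw [← h2, ← h1]
      rfl
    have h4 : (kernel.ι φ).hom n = 0 := congrArg Subtype.val h3
    apply hn0
    apply hinj
    rw [h4, map_zero]
  intro x y hxy
  have h0 : φ.hom (x - y) = 0 := by rw [map_sub, hxy, sub_self]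
  obtain ⟨n, hn⟩ := hex (x - y) h0
  have : n = 0 := Subsingleton.elim _ _
  rw [this, map_zero] at hn
  exact sub_eq_zero.1 hn.symm

theorem toCoindInv_surjective [Finite P] {p : ℕ} [Fact p.Prime] (hP : IsPGroup p P)
    (V : Rep.{0} k P) (hpV : ∀ v : V.V, p • v = 0) (hH1 : H1Triv V)
    (π : V.V →ₗ[k] V.ρ.invariants) (hπ : ∀ w : V.ρ.invariants, π w = w) :
    Function.Surjective (toCoindInv V π).hom := by
  have hinj := toCoindInv_injective hP V hpV π hπ
  obtain ⟨φ, hφ⟩ : ∃ φ : V ⟶ coind₁ (invCoeff V), φ = toCoindInv V π := ⟨_, rfl⟩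
  have hφapp : ∀ (v : V.V) (x : P), (φ.hom v).1 x = π (V.ρ x v) := by
    subst hφ
    exact toCoindInv_hom_apply V π
  rw [← hφ] at hinj ⊢
  have hex : (ShortComplex.mk φ (cokernel.π φ) (cokernel.condition φ)).Exact :=
    ShortComplex.exact_of_g_is_cokernel _ (cokernelIsCokernel _)
  rw [rep_exact_iff] at hex
  have hsurj : Function.Surjective (cokernel.π φ).hom :=
    (Rep.epi_iff_surjective _).1 coequalizer.π_epi
  have hqφ : ∀ v : V.V, (cokernel.π φ).hom (φ.hom v) = 0 := fun v =>
    congrArg (fun f : V ⟶ cokernel φ => f.hom v) (cokernel.condition φ)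
  -- elements of `coind₁ (V^P)` are killed by `p`
  have hpW : ∀ f : (coind₁ (invCoeff V)).V, p • f = 0 := by
    intro f
    apply Subtype.ext
    funext x
    change p • f.1 x = 0
    apply Subtype.ext
    rw [Submodule.coe_smul_of_tower]
    exact hpV _
  have hsub : Subsingleton (cokernel φ).V := by
    by_contra hns
    rw [not_subsingleton_iff_nontrivial] at hns
    have hpC : ∀ c : (cokernel φ).V, p • c = 0 := by
      intro c
      obtain ⟨f, rfl⟩ := hsurj c
      rw [← map_nsmul, hpW, map_zero]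
    obtain ⟨c, hc0, hcfix⟩ := exists_fixed_ne_zero hP (cokernel φ) hpC hns
    obtain ⟨f, rfl⟩ := hsurj c
    have hker : ∀ g : P, (cokernel.π φ).hom ((coind₁ (invCoeff V)).ρ g f - f) = 0 := by
      intro g
      rw [map_sub, Rep.hom_comm_apply, hcfix g, sub_self]
    have hex' : ∀ g : P, ∃ v : V.V, φ.hom v = (coind₁ (invCoeff V)).ρ g f - f :=
      fun g => hex _ (hker g)
    choose c₁ hc₁ using hex'
    have hcoc : ∀ g h : P, c₁ (g * h) = V.ρ g (c₁ h) + c₁ g := by
      intro g h
      apply hinj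
      have e1 : (coind₁ (invCoeff V)).ρ (g * h) f =
          (coind₁ (invCoeff V)).ρ g ((coind₁ (invCoeff V)).ρ h f) := by
        rw [map_mul]
        rfl
      rw [hc₁ (g * h), map_add, Rep.hom_comm_apply, hc₁ h, hc₁ g, map_sub, e1]
      abel
    obtain ⟨y, hy⟩ := hH1 c₁ hcoc
    have hfix : ∀ g : P, (coind₁ (invCoeff V)).ρ g (f - φ.hom y) = f - φ.hom y := by
      intro g
      have h1 : φ.hom (V.ρ g y - y) = (coind₁ (invCoeff V)).ρ g f - f := by
        rw [← hy, hc₁]
      rw [map_sub, Rep.hom_comm_apply] at h1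
      rw [map_sub]
      rw [sub_eq_sub_iff_add_eq_add] at h1 ⊢
      rw [← h1]
      abel
    have hconst : ∀ x : P, (f - φ.hom y).1 x = (f - φ.hom y).1 1 := by
      intro x
      have h5 := congrArg (fun F : (coind₁ (invCoeff V)).V => F.1 1) (hfix x)
      have h6 : ((coind₁ (invCoeff V)).ρ x (f - φ.hom y)).1 1 = (f - φ.hom y).1 (1 * x) :=
        coind_ρ_coe _ x _ 1
      rw [one_mul] at h6
      rw [← h6]
      exact h5
    have hw : φ.hom (((f - φ.hom y).1 1 : V.ρ.invariants) : V.V) = f - φ.hom y := by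
      apply Subtype.ext
      funext x
      rw [hφapp, hconst x]
      have h3 : V.ρ x (((f - φ.hom y).1 1 : V.ρ.invariants) : V.V) =
          (((f - φ.hom y).1 1 : V.ρ.invariants) : V.V) := ((f - φ.hom y).1 1).2 x
      rw [h3]
      exact hπ _
    have hf : f = φ.hom (y + (((f - φ.hom y).1 1 : V.ρ.invariants) : V.V)) := by
      rw [map_add, hw]
      abel
    apply hc0
    rw [hf]
    exact hqφ _
  intro f
  exact hex f (Subsingleton.elim _ _)

/-- **Structure theorem**: over a finite `p`-group `P`, a module `V` killed by `p` with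
`H¹(P, V) = 0` whose invariants have a `k`-linear retraction is coinduced:
`V ≅ coind₁ (V^P)`. -/
theorem exists_iso_coind₁_of_pGroup [Finite P] {p : ℕ} [Fact p.Prime] (hP : IsPGroup p P)
    (V : Rep.{0} k P) (hpV : ∀ v : V.V, p • v = 0) (hH1 : H1Triv V)
    (hret : ∃ π : V.V →ₗ[k] V.ρ.invariants, ∀ w : V.ρ.invariants, π w = w) :
    Nonempty (V ≅ coind₁ (invCoeff V)) := by
  obtain ⟨π, hπ⟩ := hret
  haveI : Mono (toCoindInv V π) :=
    (Rep.mono_iff_injective _).2 (toCoindInv_injective hP V hpV π hπ)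
  haveI : Epi (toCoindInv V π) :=
    (Rep.epi_iff_surjective _).2 (toCoindInv_surjective hP V hpV hH1 π hπ)
  haveI : IsIso (toCoindInv V π) := isIso_of_mono_of_epi _
  exact ⟨asIso (toCoindInv V π)⟩

end Structure

end

end Fermat.Agent.S55.T.H719
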