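import Fermat.Agent.S55.T.PermH904
import Fermat.Agent.S55.Mackey.Shapiro
import Fermat.Agent.S55.T.H415.DirectSum
import Fermat.Agent.S55.T.RecipH539

/-!
# S55, layer T, leaves T8', T10, T10' (helper904): unconditional forms

* `shapiroRecognition : ShapiroRecognitionSpec`, `shapiroExplicit : ShapiroExplicitSpec`
  (adapters of helper61's landed `Mackey.shapiro_bijective_of_bijective`, `shapiro_bijective`);
* `perm : PermSpec`, `permH1 : PermH1Spec` (from `PermH904.perm_of`, helper415's
  `directSum : DirectSumSpec` and helper539's `h1TrivInt`).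
-/

set_option autoImplicit false

open CategoryTheory groupCohomology

namespace Fermat.Agent.S55.T.H904

/-- **T8'** Shapiro, recognition form. -/
theorem shapiroRecognition : ShapiroRecognitionSpec := by
  intro k G _ _ S A B π h n
  refine Mackey.shapiro_bijective_of_bijective π ⟨?_, ?_⟩ n
  · intro b b' hbb'
    obtain ⟨b0, -, huniq⟩ := h ((Mackey.coindLift π).hom b).1 ((Mackey.coindLift π).hom b).2
    have e1 := huniq b (fun g => rfl)
    have e2 := huniq b' (fun g => by
      rw [hbb']
      rfl)
    exact e1.trans e2.symm
  · intro f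
    obtain ⟨b, hb, -⟩ := h f.1 f.2
    exact ⟨b, Subtype.ext (funext hb)⟩

/-- **T8** Shapiro, explicit form. -/
theorem shapiroExplicit : ShapiroExplicitSpec := by
  intro k G _ _ S A n
  have h : coindEv S A = Mackey.shapiroEv S A := by
    refine Rep.hom_ext (DFunLike.ext _ _ fun f => ?_)
    rfl
  rw [h]
  exact Mackey.shapiro_bijective S A n

/-- **T10** permutation modules. -/
theorem perm : PermSpec := perm_of shapiroRecognition H415.directSum

/-- **T10'** `H¹(G, ℤ[X]) = 0`. -/
theorem permH1 : PermH1Spec := permH1_of shapiroRecognition H415.directSum H539.h1TrivInt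

end Fermat.Agent.S55.T.H904
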