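import Fermat.Agent.S55.T.Spec3

/-!
# S55, layer T, piece T10 (helper652): permutation modules

`permSpec_of : ShapiroRecognitionSpec → DirectSumSpec → PermSpec` and
`permH1Spec_of : ShapiroRecognitionSpec → DirectSumSpec → PermH1Spec`.
-/

set_option autoImplicit false

open CategoryTheory groupCohomology

namespace Fermat.Agent.S55.T.H652

open Fermat.Agent.S55.T

section Basic

variable {k G : Type} [CommRing k] [Group G]

/-- `groupCohomology.map` of the zero morphism is zero. -/
lemma map_zero_h652 {H : Type} [Group H] {A : Rep.{0} k H} {B : Rep.{0} k G} (f : G →* H) (n : ℕ) :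
    groupCohomology.map f (0 : Rep.res f A ⟶ B) n = 0 := by
  unfold groupCohomology.map
  rw [groupCohomology.cochainsMap_zero]
  exact HomologicalComplex.homologyMap_zero _ _ _

variable {X : Type} [MulAction G X]

/-- The inclusion `k[O] → k[X]` of the permutation module of an orbit, as a linear map. -/
noncomputable def incLin (k : Type) [CommRing k] (ω : MulAction.orbitRel.Quotient G X) :
    MonoidAlgebra k ω.orbit →ₗ[k] MonoidAlgebra k X :=
  (MonoidAlgebra.coeffLinearEquiv k).symm.toLinearMap ∘ₗ
    Finsupp.lmapDomain k k (Subtype.val : ω.orbit → X) ∘ₗ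
      (MonoidAlgebra.coeffLinearEquiv k).toLinearMap

lemma incLin_single (ω : MulAction.orbitRel.Quotient G X) (y : ω.orbit) (r : k) :
    incLin k ω (MonoidAlgebra.single y r) = MonoidAlgebra.single (y : X) r := by
  apply MonoidAlgebra.ext
  simp [incLin, MonoidAlgebra.coeff_single]

/-- The projection `k[X] → k[O]` onto the permutation module of an orbit. -/
noncomputable def projLin (k : Type) [CommRing k] (ω : MulAction.orbitRel.Quotient G X) :
    MonoidAlgebra k X →ₗ[k] MonoidAlgebra k ω.orbit :=
  (MonoidAlgebra.coeffLinearEquiv k).symm.toLinearMap ∘ₗ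
    Finsupp.lcomapDomain (Subtype.val : ω.orbit → X) Subtype.val_injective ∘ₗ
      (MonoidAlgebra.coeffLinearEquiv k).toLinearMap

lemma projLin_coeff (ω : MulAction.orbitRel.Quotient G X) (v : MonoidAlgebra k X) (y : ω.orbit) :
    (projLin k ω v).coeff y = v.coeff (y : X) := by
  simp [projLin]

lemma projLin_incLin (ω : MulAction.orbitRel.Quotient G X) (v : MonoidAlgebra k ω.orbit) :
    projLin k ω (incLin k ω v) = v := by
  induction v using MonoidAlgebra.induction_linear with
  | zero => simp
  | add x y hx hy => simp [hx, hy]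
  | single y r =>
    apply MonoidAlgebra.ext
    ext z
    classical
    rw [incLin_single, projLin_coeff, MonoidAlgebra.coeff_single, MonoidAlgebra.coeff_single,
      Finsupp.single_apply, Finsupp.single_apply]
    simp only [Subtype.ext_iff]

lemma projLin_incLin_of_ne {ω ω' : MulAction.orbitRel.Quotient G X} (h : ω' ≠ ω)
    (v : MonoidAlgebra k ω'.orbit) : projLin k ω (incLin k ω' v) = 0 := by
  induction v using MonoidAlgebra.induction_linear with
  | zero => simp
  | add x y hx hy => simp [hx, hy]
  | single y r =>
    apply MonoidAlgebra.ext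
    ext z
    classical
    rw [incLin_single, projLin_coeff, MonoidAlgebra.coeff_single, Finsupp.single_apply]
    have hne : (y : X) ≠ (z : X) := by
      intro hyz
      apply h
      have hy := MulAction.orbitRel.Quotient.mem_orbit.1 y.2
      have hz := MulAction.orbitRel.Quotient.mem_orbit.1 z.2
      rw [← hy, ← hz, hyz]
    simp [hne]

/-- The inclusion `k[O] ⟶ k[X]` as a morphism of representations. -/
noncomputable def inc (k : Type) [CommRing k] (ω : MulAction.orbitRel.Quotient G X) :
    Rep.ofMulAction k G ω.orbit ⟶ Rep.ofMulAction k G X :=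
  Rep.ofHom
    { toLinearMap := incLin k ω
      isIntertwining' := fun g => by
        refine MonoidAlgebra.lhom_ext' fun y => LinearMap.ext_ring ?_
        simp only [LinearMap.comp_apply, MonoidAlgebra.lsingle_apply]
        rw [Representation.ofMulAction_single, incLin_single, incLin_single,
          Representation.ofMulAction_single]
        rfl }

lemma inc_hom_apply (ω : MulAction.orbitRel.Quotient G X) (v : MonoidAlgebra k ω.orbit) :
    (inc k ω).hom v = incLin k ω v := rfl

section DirectSumDecomposition

variable (k G X)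

/-- `k[X]` is the internal direct sum of the `k[O]`, `O` running over the orbits. -/
lemma toModule_inc_bijective [DecidableEq (MulAction.orbitRel.Quotient G X)] :
    Function.Bijective
      (DirectSum.toModule k (MulAction.orbitRel.Quotient G X) (Rep.ofMulAction k G X).V
        (fun ω => (inc k ω).hom.toLinearMap)) := by
  constructor
  · rw [injective_iff_map_eq_zero]
    intro d hd
    have key : ∀ ω : MulAction.orbitRel.Quotient G X,
        (projLin k ω) ∘ₗ (DirectSum.toModule k (MulAction.orbitRel.Quotient G X)
          (Rep.ofMulAction k G X).V (fun ω => (inc k ω).hom.toLinearMap)) =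
        DirectSum.component k (MulAction.orbitRel.Quotient G X)
          (fun ω => (Rep.ofMulAction k G ω.orbit).V) ω := by
      intro ω
      apply DirectSum.linearMap_ext
      intro ω'
      refine LinearMap.ext fun v => ?_
      simp only [LinearMap.comp_apply, DirectSum.toModule_lof, DirectSum.component.of]
      by_cases h : ω' = ω
      · subst h
        simp only [dif_pos]
        exact projLin_incLin ω' v
      · rw [dif_neg h]
        exact projLin_incLin_of_ne h v
    apply DFinsupp.ext
    intro ω
    have := congrArg (fun L => L d) (key ω)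
    simp only [LinearMap.comp_apply, hd, map_zero] at this
    exact this.symm
  · intro v
    induction v using MonoidAlgebra.induction_linear with
    | zero => exact ⟨0, map_zero _⟩
    | add x y hx hy =>
      obtain ⟨a, ha⟩ := hx
      obtain ⟨b, hb⟩ := hy
      exact ⟨a + b, by rw [map_add, ha, hb]⟩
    | single x r =>
      refine ⟨DirectSum.lof k _ _ (Quotient.mk'' x : MulAction.orbitRel.Quotient G X)
        (MonoidAlgebra.single ⟨x, MulAction.orbitRel.Quotient.mem_orbit.2 rfl⟩ r), ?_⟩
      rw [DirectSum.toModule_lof]
      exact incLin_single _ _ r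

end DirectSumDecomposition

lemma incLin_coeff (ω : MulAction.orbitRel.Quotient G X) (v : MonoidAlgebra k ω.orbit)
    (y : ω.orbit) : (incLin k ω v).coeff (y : X) = v.coeff y := by
  rw [← projLin_coeff, projLin_incLin]

lemma incLin_coeff_of_notMem (ω : MulAction.orbitRel.Quotient G X) (v : MonoidAlgebra k ω.orbit)
    (x : X) (hx : x ∉ ω.orbit) : (incLin k ω v).coeff x = 0 := by
  induction v using MonoidAlgebra.induction_linear with
  | zero => simp
  | add a b ha hb => simp [ha, hb]
  | single y r =>
    classical
    rw [incLin_single, MonoidAlgebra.coeff_single, Finsupp.single_apply]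
    have : (y : X) ≠ x := fun h => hx (h ▸ y.2)
    simp [this]

lemma permCoeffLin_apply (x : X) (w : MonoidAlgebra k X) : permCoeffLin k X x w = w.coeff x := by
  simp [permCoeffLin]

/-- The localisation morphism `k[O] ⟶ k` at a point `x`, equivariant for the stabiliser. -/
noncomputable def piMor (k : Type) [CommRing k] (ω : MulAction.orbitRel.Quotient G X) (x : X) :
    Rep.res (MulAction.stabilizer G x).subtype (Rep.ofMulAction k G ω.orbit) ⟶
      Rep.trivial k (MulAction.stabilizer G x) k :=
  (Rep.resFunctor (MulAction.stabilizer G x).subtype).map (inc k ω) ≫ permCoeff X x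

lemma piMor_hom_apply (ω : MulAction.orbitRel.Quotient G X) (x : X)
    (v : MonoidAlgebra k ω.orbit) :
    (piMor k ω x).hom v = (incLin k ω v).coeff x := by
  rw [← permCoeffLin_apply]
  rfl

lemma piMor_eq_zero (ω : MulAction.orbitRel.Quotient G X) (x : X) (hx : x ∉ ω.orbit) :
    piMor k ω x = 0 := by
  apply Rep.hom_ext
  rw [Rep.zero_hom]
  refine DFunLike.ext _ _ fun v => ?_
  rw [piMor_hom_apply, incLin_coeff_of_notMem ω v x hx]
  rfl

/-- Factorisation of the localisation map through the orbit of the point. -/
lemma coeffMap_inc_comp_permLoc (ω : MulAction.orbitRel.Quotient G X) (x : X) (n : ℕ) :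
    coeffMap (inc k ω) n ≫ permLoc X x n =
      groupCohomology.map (MulAction.stabilizer G x).subtype (piMor k ω x) n := by
  have h := groupCohomology.map_comp (A := Rep.ofMulAction k G ω.orbit)
    (B := Rep.ofMulAction k G X) (C := Rep.trivial k (MulAction.stabilizer G x) k)
    (MonoidHom.id G) (MulAction.stabilizer G x).subtype
    (inc k ω) (permCoeff X x) n
  exact h.symm

end Basic

section Finite

variable {k G : Type} [CommRing k] [Group G] [Finite G] {X : Type} [MulAction G X]

lemma finite_orbit_h652 (ω : MulAction.orbitRel.Quotient G X) : Finite ω.orbit := by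
  obtain ⟨x, hx⟩ : ∃ x : X, x ∈ ω.orbit := by
    rcases Quotient.exists_rep ω with ⟨x, rfl⟩
    exact ⟨x, MulAction.orbitRel.Quotient.mem_orbit.2 rfl⟩
  exact Finite.of_surjective (fun g : G => g • (⟨x, hx⟩ : ω.orbit))
    (MulAction.exists_smul_eq G _)

/-- The hypothesis of Shapiro's lemma (recognition form) for the orbit module `k[O]`. -/
lemma shapiro_hyp (ω : MulAction.orbitRel.Quotient G X) (x : X) (hx : x ∈ ω.orbit)
    (f : G → (Rep.trivial k (MulAction.stabilizer G x) k).V)
    (hf : ∀ (s : MulAction.stabilizer G x) (g : G),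
      f (s * g) = (Rep.trivial k (MulAction.stabilizer G x) k).ρ s (f g)) :
    ∃! b : (Rep.ofMulAction k G ω.orbit).V,
      ∀ g : G, (piMor k ω x).hom ((Rep.ofMulAction k G ω.orbit).ρ g b) = f g := by
  have := finite_orbit_h652 ω
  set xO : ω.orbit := ⟨x, hx⟩ with hxO
  have hkey : ∀ (g : G) (b : MonoidAlgebra k ω.orbit),
      (piMor k ω x).hom ((Rep.ofMulAction k G ω.orbit).ρ g b) = b.coeff (g⁻¹ • xO) := by
    intro g b
    rw [piMor_hom_apply]
    have h1 := incLin_coeff ω ((Rep.ofMulAction k G ω.orbit).ρ g b) xO
    rw [show ((xO : ω.orbit) : X) = x from rfl] at h1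
    rw [h1]
    simp
  have hf' : ∀ (g g' : G), g⁻¹ • xO = g'⁻¹ • xO → f g = f g' := by
    intro g g' h
    have hs : (g * g'⁻¹) • x = x := by
      have h2 : g • (g'⁻¹ • xO) = xO := by rw [← h, smul_inv_smul]
      have h3 := congrArg (Subtype.val) h2
      simpa [mul_smul] using h3
    have := hf ⟨g * g'⁻¹, hs⟩ g'
    simp only [inv_mul_cancel_right] at this
    rw [this]
    simp
  have hex : ∀ y : ω.orbit, ∃ g : G, g⁻¹ • xO = y := by
    intro y
    obtain ⟨h, hh⟩ := MulAction.exists_smul_eq G xO y
    exact ⟨h⁻¹, by rw [inv_inv]; exact hh⟩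
  choose gy hgy using hex
  refine ⟨MonoidAlgebra.ofCoeff (Finsupp.equivFunOnFinite.symm (fun y => f (gy y))), ?_, ?_⟩
  · intro g
    rw [hkey, MonoidAlgebra.coeff_ofCoeff]
    simp only [Finsupp.equivFunOnFinite_symm_apply_apply]
    exact hf' _ _ (hgy _)
  · intro b' hb'
    apply MonoidAlgebra.ext
    ext y
    rw [MonoidAlgebra.coeff_ofCoeff]
    simp only [Finsupp.equivFunOnFinite_symm_apply_apply]
    have := hb' (gy y)
    rw [hkey, hgy] at this
    exact this

omit [Finite G] in
lemma exists_mem_orbit_h652 (ω : MulAction.orbitRel.Quotient G X) : ∃ x : X, x ∈ ω.orbit := by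
  rcases Quotient.exists_rep ω with ⟨x, rfl⟩
  exact ⟨x, MulAction.orbitRel.Quotient.mem_orbit.2 rfl⟩

omit [Finite G] in
lemma notMem_orbit_of_ne {ω ω' : MulAction.orbitRel.Quotient G X} (h : ω' ≠ ω) {x : X}
    (hx : x ∈ ω.orbit) : x ∉ ω'.orbit := by
  intro hx'
  apply h
  rw [← MulAction.orbitRel.Quotient.mem_orbit.1 hx, ← MulAction.orbitRel.Quotient.mem_orbit.1 hx']

end Finite

/-- **T10** from Shapiro (recognition form) and the direct sum spec. -/
theorem permSpec_of (hS : ShapiroRecognitionSpec) (hD : DirectSumSpec) : PermSpec := by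
  intro k G _ _ _ X _ n
  classical
  have hSh : ∀ (ω : MulAction.orbitRel.Quotient G X) (x : X), x ∈ ω.orbit →
      Function.Bijective
        (groupCohomology.map (MulAction.stabilizer G x).subtype (piMor k ω x) n).hom :=
    fun ω x hx => hS k G (MulAction.stabilizer G x) (Rep.trivial k (MulAction.stabilizer G x) k)
      (Rep.ofMulAction k G ω.orbit) (piMor k ω x) (shapiro_hyp ω x hx) n
  have hfac : ∀ (ω : MulAction.orbitRel.Quotient G X) (x : X)
      (v : groupCohomology (Rep.ofMulAction k G ω.orbit) n),
      (permLoc X x n).hom ((coeffMap (inc k ω) n).hom v) =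
        (groupCohomology.map (MulAction.stabilizer G x).subtype (piMor k ω x) n).hom v := by
    intro ω x v
    rw [← coeffMap_inc_comp_permLoc]
    rfl
  have hzero : ∀ (ω : MulAction.orbitRel.Quotient G X) (x : X), x ∉ ω.orbit →
      ∀ v : groupCohomology (Rep.ofMulAction k G ω.orbit) n,
      (permLoc X x n).hom ((coeffMap (inc k ω) n).hom v) = 0 := by
    intro ω x hx v
    rw [hfac, piMor_eq_zero ω x hx, map_zero_h652]
    rfl
  constructor
  · intro c hc
    obtain ⟨d, rfl⟩ := (hD k G (MulAction.orbitRel.Quotient G X)
      (fun ω => Rep.ofMulAction k G ω.orbit) (Rep.ofMulAction k G X) (fun ω => inc k ω)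
      (toModule_inc_bijective k G X) n).2 c
    suffices hd : d = 0 by rw [hd, map_zero]
    apply DFinsupp.ext
    intro ω
    obtain ⟨x, hx⟩ := exists_mem_orbit_h652 ω
    have key : (permLoc X x n).hom.comp
        (DirectSum.toModule k (MulAction.orbitRel.Quotient G X)
          (groupCohomology (Rep.ofMulAction k G X) n)
          (fun ω => (coeffMap (inc k ω) n).hom)) =
        (groupCohomology.map (MulAction.stabilizer G x).subtype (piMor k ω x) n).hom.comp
          (DirectSum.component k (MulAction.orbitRel.Quotient G X)
            (fun ω => groupCohomology (Rep.ofMulAction k G ω.orbit) n) ω) := by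
      apply DirectSum.linearMap_ext
      intro ω'
      refine LinearMap.ext fun v => ?_
      simp only [LinearMap.comp_apply, DirectSum.toModule_lof, DirectSum.component.of]
      by_cases h : ω' = ω
      · subst h
        simp only [dif_pos]
        exact hfac ω' x v
      · rw [dif_neg h, map_zero]
        exact hzero ω' x (notMem_orbit_of_ne h hx) v
    have h1 := congrArg (fun L => L d) key
    simp only [LinearMap.comp_apply] at h1
    rw [hc x] at h1
    have h2 := (hSh ω x hx).1
    apply h2
    rw [DirectSum.zero_apply, map_zero]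
    exact h1.symm
  · intro x y
    set ω : MulAction.orbitRel.Quotient G X := Quotient.mk'' x with hω
    have hx : x ∈ ω.orbit := MulAction.orbitRel.Quotient.mem_orbit.2 rfl
    obtain ⟨c₀, hc₀⟩ := (hSh ω x hx).2 y
    refine ⟨(coeffMap (inc k ω) n).hom c₀, ?_, ?_⟩
    · rw [hfac, hc₀]
    · intro x' hx'
      apply hzero
      rw [hω, MulAction.orbitRel.Quotient.orbit_mk]
      exact hx'

/-- `H¹(S, ℤ) = 0` for a finite group `S` (trivial action). -/
lemma h1_trivial_int_eq_zero (S : Type) [Group S] [Finite S]
    (c : groupCohomology (Rep.trivial ℤ S ℤ) 1) : c = 0 := by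
  have e := groupCohomology.H1IsoOfIsTrivial (Rep.trivial ℤ S ℤ)
  have hsub : Subsingleton (Additive S →+ ℤ) := by
    constructor
    intro a b
    have hz : ∀ φ : Additive S →+ ℤ, φ = 0 := by
      intro φ
      refine AddMonoidHom.ext fun s => ?_
      have hfin : Finite (Additive S) := inferInstanceAs (Finite S)
      obtain ⟨m, hm, hms⟩ := (isOfFinAddOrder_of_finite s).exists_nsmul_eq_zero
      have : m • φ s = 0 := by rw [← map_nsmul, hms, map_zero]
      simpa [hm.ne'] using this
    rw [hz a, hz b]
  have hinj : Function.Injective e.hom.hom := by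
    have := (ConcreteCategory.bijective_of_isIso e.hom).1
    exact this
  apply hinj
  exact Subsingleton.elim _ _

/-- **T10'** from Shapiro (recognition form) and the direct sum spec. -/
theorem permH1Spec_of (hS : ShapiroRecognitionSpec) (hD : DirectSumSpec) : PermH1Spec := by
  intro G _ _ X _
  rw [ModuleCat.isZero_iff_subsingleton]
  have hz : ∀ c : groupCohomology (Rep.ofMulAction ℤ G X) 1, c = 0 := by
    intro c
    apply (permSpec_of hS hD ℤ G X 1).1 c
    intro x
    exact h1_trivial_int_eq_zero _ _
  exact ⟨fun a b => by rw [hz a, hz b]⟩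

end Fermat.Agent.S55.T.H652
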