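import Fermat.Agent.S55.T.Spec3

/-!
# S55, layer T, leaf T10 (helper904): permutation modules

`perm_of : ShapiroRecognitionSpec → DirectSumSpec → PermSpec`
`permH1_of : ShapiroRecognitionSpec → DirectSumSpec → H1TrivIntSpec → PermH1Spec`
-/

set_option autoImplicit false

open CategoryTheory groupCohomology

namespace Fermat.Agent.S55.T.H904

section Abstract

open DirectSum

/-- Abstract detection lemma: if the localisations `loc i` kill the images of the `inc j`,
`j ≠ i`, and are injective on the image of `inc i`, then an element of the direct sum whose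
image has trivial localisations is zero. -/
lemma directSum_eq_zero_of_loc {k ι : Type} [CommRing k] [DecidableEq ι] {M : ι → Type}
    {N : Type} {P : ι → Type} [∀ i, AddCommGroup (M i)] [∀ i, Module k (M i)]
    [AddCommGroup N] [Module k N] [∀ i, AddCommGroup (P i)] [∀ i, Module k (P i)]
    (inc : ∀ i, M i →ₗ[k] N) (loc : ∀ i, N →ₗ[k] P i)
    (h0 : ∀ i j, j ≠ i → ∀ b, loc i (inc j b) = 0)
    (h1 : ∀ i, Function.Injective (fun b => loc i (inc i b)))
    (d : ⨁ i, M i) (hd : ∀ i, loc i (DirectSum.toModule k ι N inc d) = 0) : d = 0 := by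
  have key : ∀ i, (loc i) ∘ₗ (DirectSum.toModule k ι N inc) =
      ((loc i) ∘ₗ (inc i)) ∘ₗ (DirectSum.component k ι M i) := by
    intro i
    refine DirectSum.linearMap_ext k fun j => LinearMap.ext fun b => ?_
    simp only [LinearMap.comp_apply, DirectSum.toModule_lof]
    by_cases hji : j = i
    · subst hji
      rw [DirectSum.component.lof_self]
    · rw [h0 i j hji, DirectSum.component.of, dif_neg hji, map_zero, map_zero]
  refine DFinsupp.ext fun i => ?_
  apply h1 i
  have := congrArg (fun φ => φ d) (key i)
  simp only [LinearMap.comp_apply] at this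
  rw [hd i] at this
  change loc i (inc i (d i)) = loc i (inc i ((0 : ⨁ i, M i) i))
  rw [DirectSum.zero_apply, map_zero, map_zero]
  exact this.symm

end Abstract

section Orbit

variable {k G : Type} [CommRing k] [Group G] {X : Type} [MulAction G X]

/-- The map `k[Y] → k[X]` of permutation modules induced by an equivariant map. -/
noncomputable def permMap {Y : Type} [MulAction G Y] (φ : Y → X)
    (hφ : ∀ (g : G) (y : Y), φ (g • y) = g • φ y) :
    Rep.ofMulAction k G Y ⟶ Rep.ofMulAction k G X :=
  Rep.ofHom
    { toLinearMap := MonoidAlgebra.mapDomainLinearMap (R := k) (S := k) φ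
      isIntertwining' := fun g => by
        refine MonoidAlgebra.lhom_ext' fun y => LinearMap.ext_ring ?_
        simp [Representation.ofMulAction_single, hφ] }

lemma permMap_hom_apply {Y : Type} [MulAction G Y] (φ : Y → X)
    (hφ : ∀ (g : G) (y : Y), φ (g • y) = g • φ y) (b : MonoidAlgebra k Y) :
    (permMap (k := k) φ hφ).hom b = MonoidAlgebra.mapDomainLinearMap k k φ b := rfl

/-- The inclusion `k[G x] → k[X]` of the orbit of `x`. -/
noncomputable def orbInc (x : X) :
    Rep.ofMulAction k G (MulAction.orbit G x) ⟶ Rep.ofMulAction k G X :=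
  permMap (k := k) (Subtype.val : MulAction.orbit G x → X) (fun _ _ => rfl)

lemma coeff_orbInc (x : X) (b : MonoidAlgebra k (MulAction.orbit G x))
    (z : MulAction.orbit G x) :
    ((orbInc (k := k) x).hom b).coeff (z : X) = b.coeff z := by
  change (MonoidAlgebra.mapDomainLinearMap k k Subtype.val b).coeff (z : X) = b.coeff z
  rw [MonoidAlgebra.coeff_mapDomainLinearMap]
  exact Finsupp.mapDomain_apply Subtype.val_injective _ _

lemma coeff_orbInc_of_notMem (x : X) (b : MonoidAlgebra k (MulAction.orbit G x))
    (z : X) (hz : z ∉ MulAction.orbit G x) :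
    ((orbInc (k := k) x).hom b).coeff z = 0 := by
  change (MonoidAlgebra.mapDomainLinearMap k k Subtype.val b).coeff z = 0
  rw [MonoidAlgebra.coeff_mapDomainLinearMap]
  apply Finsupp.mapDomain_of_notMem_range
  rintro ⟨y, rfl⟩
  exact hz y.2

lemma permCoeff_hom_apply (x : X) (v : MonoidAlgebra k X) :
    (permCoeff (k := k) (G := G) X x).hom v = v.coeff x := rfl

/-- The composite `Res k[G x] → Res k[X] → k` (coefficient at `x'`). -/
noncomputable def orbPi (x x' : X) :
    Rep.res (MulAction.stabilizer G x').subtype (Rep.ofMulAction k G (MulAction.orbit G x)) ⟶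
      Rep.trivial k (MulAction.stabilizer G x') k :=
  (Rep.resFunctor (MulAction.stabilizer G x').subtype).map (orbInc (k := k) x) ≫ permCoeff X x'

lemma orbPi_hom_apply (x x' : X) (b : MonoidAlgebra k (MulAction.orbit G x)) :
    (orbPi (k := k) (G := G) x x').hom b = ((orbInc (k := k) (G := G) x).hom b).coeff x' := rfl

lemma orbPi_eq_zero (x x' : X) (hx' : x' ∉ MulAction.orbit G x) :
    orbPi (k := k) (G := G) x x' = 0 := by
  refine Rep.hom_ext (DFunLike.ext _ _ fun b => ?_)
  rw [orbPi_hom_apply, coeff_orbInc_of_notMem x b x' hx']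
  rfl

lemma orbPi_rho (x : X) (g : G) (b : MonoidAlgebra k (MulAction.orbit G x)) :
    (orbPi (k := k) (G := G) x x).hom ((Rep.ofMulAction k G (MulAction.orbit G x)).ρ g b) =
      b.coeff ⟨g⁻¹ • x, MulAction.mem_orbit x g⁻¹⟩ := by
  rw [orbPi_hom_apply, Rep.hom_comm_apply]
  change (Representation.ofMulAction k G X g ((orbInc (k := k) (G := G) x).hom b)).coeff x = _
  rw [Representation.coeff_ofMulAction]
  exact coeff_orbInc x b ⟨g⁻¹ • x, MulAction.mem_orbit x g⁻¹⟩

/-- The recognition hypothesis of `ShapiroRecognitionSpec` for the orbit module `k[G x]`. -/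
lemma orbit_recognition [Finite G] (x : X) (f : G → k)
    (hf : ∀ (s : MulAction.stabilizer G x) (g : G), f (s * g) = f g) :
    ∃! b : MonoidAlgebra k (MulAction.orbit G x),
      ∀ g : G, (orbPi (k := k) (G := G) x x).hom
        ((Rep.ofMulAction k G (MulAction.orbit G x)).ρ g b) = f g := by
  classical
  haveI : Finite (MulAction.orbit G x) := (Set.finite_range _).to_subtype
  have hex : ∀ z : MulAction.orbit G x, ∃ h : G, h • x = (z : X) := fun z => z.2
  choose h hh using hex
  refine ⟨MonoidAlgebra.ofCoeff (Finsupp.equivFunOnFinite.symm (fun z => f (h z)⁻¹)), ?_, ?_⟩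
  · intro g
    rw [orbPi_rho]
    set z : MulAction.orbit G x := ⟨g⁻¹ • x, MulAction.mem_orbit x g⁻¹⟩ with hz
    change f (h z)⁻¹ = f g
    have hs : (g * h z) • x = x := by
      rw [mul_smul, hh z, hz, smul_inv_smul]
    have := hf ⟨g * h z, hs⟩ (h z)⁻¹
    simpa using this.symm
  · intro b hb
    apply MonoidAlgebra.coeff_injective
    ext z
    change b.coeff z = f (h z)⁻¹
    have := hb (h z)⁻¹
    rw [orbPi_rho] at this
    have hz : (⟨((h z)⁻¹)⁻¹ • x, MulAction.mem_orbit x ((h z)⁻¹)⁻¹⟩ : MulAction.orbit G x) = z := by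
      apply Subtype.ext
      simp [hh z]
    rw [hz] at this
    exact this

end Orbit

section Decomp

variable {k G : Type} [CommRing k] [Group G] {X : Type} [MulAction G X]

lemma mem_orbit_out (z : X) :
    z ∈ MulAction.orbit G (Quotient.out (Quotient.mk (MulAction.orbitRel G X) z)) := by
  have h : Quotient.out (Quotient.mk (MulAction.orbitRel G X) z) ∈ MulAction.orbit G z :=
    Quotient.mk_out (s := MulAction.orbitRel G X) z
  rw [MulAction.orbit_eq_iff.2 h]
  exact MulAction.mem_orbit_self z

lemma mk_eq_of_mem_orbit_out (o : MulAction.orbitRel.Quotient G X) (z : X)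
    (hz : z ∈ MulAction.orbit G (Quotient.out o)) :
    Quotient.mk (MulAction.orbitRel G X) z = o := by
  have : Quotient.mk (MulAction.orbitRel G X) z =
      Quotient.mk (MulAction.orbitRel G X) (Quotient.out o) := Quotient.sound hz
  rw [this, Quotient.out_eq]

lemma notMem_orbit_out_of_ne {o o' : MulAction.orbitRel.Quotient G X} (h : o' ≠ o)
    (z : X) (hz : z ∈ MulAction.orbit G (Quotient.out o)) :
    z ∉ MulAction.orbit G (Quotient.out o') := fun hz' =>
  h ((mk_eq_of_mem_orbit_out o' z hz').symm.trans (mk_eq_of_mem_orbit_out o z hz))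

/-- `k[X]` is the direct sum of the orbit modules. -/
lemma orbit_decomposition [DecidableEq (MulAction.orbitRel.Quotient G X)] :
    Function.Bijective
      (DirectSum.toModule k (MulAction.orbitRel.Quotient G X) (MonoidAlgebra k X)
        (fun o => (orbInc (k := k) (G := G) (Quotient.out o)).hom.toLinearMap)) := by
  constructor
  · rw [injective_iff_map_eq_zero]
    intro d hd
    refine directSum_eq_zero_of_loc
      (P := fun o : MulAction.orbitRel.Quotient G X => MulAction.orbit G (Quotient.out o) → k)
      (fun o => (orbInc (k := k) (G := G) (Quotient.out o)).hom.toLinearMap)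
      (fun o => LinearMap.pi fun z => permCoeffLin k X (z : X)) ?_ ?_ d ?_
    · intro o o' h b
      funext z
      exact coeff_orbInc_of_notMem _ b (z : X) (notMem_orbit_out_of_ne h _ z.2)
    · intro o b b' hbb'
      apply MonoidAlgebra.coeff_injective
      ext z
      have := congrFun hbb' z
      change ((orbInc (k := k) (G := G) (Quotient.out o)).hom b).coeff (z : X) =
        ((orbInc (k := k) (G := G) (Quotient.out o)).hom b').coeff (z : X) at this
      rwa [coeff_orbInc, coeff_orbInc] at this
    · intro o
      rw [hd, map_zero]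
  · intro v
    induction v using MonoidAlgebra.induction_linear with
    | zero => exact ⟨0, map_zero _⟩
    | add v w hv hw =>
      obtain ⟨a, rfl⟩ := hv
      obtain ⟨b, rfl⟩ := hw
      exact ⟨a + b, map_add _ _ _⟩
    | single z r =>
      refine ⟨DirectSum.lof k _ _ (Quotient.mk (MulAction.orbitRel G X) z)
        (MonoidAlgebra.single ⟨z, mem_orbit_out z⟩ r), ?_⟩
      rw [DirectSum.toModule_lof]
      change MonoidAlgebra.mapDomainLinearMap k k Subtype.val _ = _
      rw [MonoidAlgebra.mapDomainLinearMap_single]

end Decomp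

section Main

variable {k G : Type} [CommRing k] [Group G] {X : Type} [MulAction G X]

/-- Localising a class coming from the orbit module `k[G x]`. -/
lemma permLoc_coeffMap_orbInc (x x' : X) (n : ℕ)
    (c : groupCohomology (Rep.ofMulAction k G (MulAction.orbit G x)) n) :
    (permLoc (k := k) (G := G) X x' n).hom ((coeffMap (orbInc (k := k) (G := G) x) n).hom c) =
      (groupCohomology.map (MulAction.stabilizer G x').subtype
        (orbPi (k := k) (G := G) x x') n).hom c := by
  have := groupCohomology.map_comp (k := k) (A := Rep.ofMulAction k G (MulAction.orbit G x))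
    (B := Rep.ofMulAction k G X) (MonoidHom.id G)
    (MulAction.stabilizer G x').subtype (orbInc (k := k) (G := G) x)
    (permCoeff (k := k) (G := G) X x') n
  have h2 := congrArg (fun φ => φ.hom c) this
  simp only [ModuleCat.hom_comp, LinearMap.comp_apply] at h2
  exact h2.symm

lemma map_orbPi_bijective (h8 : ShapiroRecognitionSpec) [Finite G] (x : X) (n : ℕ) :
    Function.Bijective (groupCohomology.map (MulAction.stabilizer G x).subtype
        (orbPi (k := k) (G := G) x x) n).hom :=
  h8 k G (MulAction.stabilizer G x) (Rep.trivial k _ k)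
    (Rep.ofMulAction k G (MulAction.orbit G x)) (orbPi x x)
    (fun f hf => orbit_recognition x f (fun s g => hf s g)) n

lemma map_orbPi_eq_zero (x x' : X) (hx' : x' ∉ MulAction.orbit G x) (n : ℕ)
    (c : groupCohomology (Rep.ofMulAction k G (MulAction.orbit G x)) n) :
    (groupCohomology.map (MulAction.stabilizer G x').subtype
        (orbPi (k := k) (G := G) x x') n).hom c = 0 := by
  rw [orbPi_eq_zero x x' hx']
  have : groupCohomology.map (MulAction.stabilizer G x').subtype
      (0 : Rep.res (MulAction.stabilizer G x').subtype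
        (Rep.ofMulAction k G (MulAction.orbit G x)) ⟶
          Rep.trivial k (MulAction.stabilizer G x') k) n = 0 := by
    simp [groupCohomology.map, groupCohomology.cochainsMap_zero]
    rfl
  rw [this]
  rfl

theorem perm_exists (h8 : ShapiroRecognitionSpec) [Finite G] (n : ℕ) (x : X)
    (y : groupCohomology (Rep.trivial k (MulAction.stabilizer G x) k) n) :
    ∃ c : groupCohomology (Rep.ofMulAction k G X) n,
      (permLoc X x n).hom c = y ∧
      ∀ x' : X, x' ∉ MulAction.orbit G x → (permLoc X x' n).hom c = 0 := by
  obtain ⟨c₀, hc₀⟩ := (map_orbPi_bijective (k := k) h8 x n).2 y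
  refine ⟨(coeffMap (orbInc (k := k) (G := G) x) n).hom c₀, ?_, fun x' hx' => ?_⟩
  · rw [permLoc_coeffMap_orbInc, hc₀]
  · rw [permLoc_coeffMap_orbInc, map_orbPi_eq_zero x x' hx']

theorem perm_inj (h8 : ShapiroRecognitionSpec) (h9 : DirectSumSpec) [Finite G] (n : ℕ)
    (c : groupCohomology (Rep.ofMulAction k G X) n)
    (hc : ∀ x : X, (permLoc X x n).hom c = 0) : c = 0 := by
  classical
  have hbij := h9 k G (MulAction.orbitRel.Quotient G X)
    (fun o => Rep.ofMulAction k G (MulAction.orbit G (Quotient.out o)))
    (Rep.ofMulAction k G X) (fun o => orbInc (k := k) (G := G) (Quotient.out o))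
    orbit_decomposition n
  obtain ⟨d, rfl⟩ := hbij.2 c
  have hd : d = 0 := by
    refine directSum_eq_zero_of_loc
      (P := fun o : MulAction.orbitRel.Quotient G X =>
        groupCohomology (Rep.trivial k (MulAction.stabilizer G (Quotient.out o)) k) n)
      (fun o => (coeffMap (orbInc (k := k) (G := G) (Quotient.out o)) n).hom)
      (fun o => (permLoc (k := k) (G := G) X (Quotient.out o) n).hom) ?_ ?_ d (fun o => hc _)
    · intro o o' h y
      rw [permLoc_coeffMap_orbInc]
      exact map_orbPi_eq_zero _ _
        (notMem_orbit_out_of_ne h _ (MulAction.mem_orbit_self (Quotient.out o))) n y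
    · intro o b b' hbb'
      apply (map_orbPi_bijective (k := k) h8 (Quotient.out o) n).1
      simp only [permLoc_coeffMap_orbInc] at hbb'
      exact hbb'
  rw [hd, map_zero]

/-- **T10** (from T8' and T9b). -/
theorem perm_of (h8 : ShapiroRecognitionSpec) (h9 : DirectSumSpec) : PermSpec := by
  intro k G _ _ _ X _ n
  exact ⟨fun c hc => perm_inj h8 h9 n c hc, fun x y => perm_exists h8 n x y⟩

/-- **T10'** (from T8', T9b and `H¹(G, ℤ) = 0`). -/
theorem permH1_of (h8 : ShapiroRecognitionSpec) (h9 : DirectSumSpec) (h1 : H1TrivIntSpec) :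
    PermH1Spec := by
  intro G _ _ X _
  have hzero : ∀ c : groupCohomology (Rep.ofMulAction ℤ G X) 1, c = 0 := by
    intro c
    refine perm_inj h8 h9 1 c fun x => ?_
    haveI : Subsingleton (groupCohomology (Rep.trivial ℤ (MulAction.stabilizer G x) ℤ) 1) :=
      ModuleCat.subsingleton_of_isZero (h1 (MulAction.stabilizer G x))
    exact Subsingleton.elim _ _
  haveI : Subsingleton (groupCohomology (Rep.ofMulAction ℤ G X) 1) :=
    ⟨fun a b => (hzero a).trans (hzero b).symm⟩
  exact ModuleCat.isZero_of_subsingleton _

end Main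

end Fermat.Agent.S55.T.H904
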