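import Fermat.Agent.S55.T.MackeyH243

/-!
# S55, layer T/G: semilocal modules are products of coinduced modules (helper243)

Let `M : Rep k G`, `X` a finite `G`-set and `pr : X → End_k(M)` a complete system of orthogonal
idempotents permuted by `G` (`ρ g ∘ pr x = pr (g • x) ∘ ρ g`).  (Example: `M = (L ⊗ ℚ_q)ˣ`,
`X = ` places of `L` above `q`.)  Then for orbit representatives `x i`

  `Hⁿ(G, M) ≃ ∏_i Hⁿ(Stab(x i), pr (x i) M)`.

Applied to `Res_H M` with `X` as an `H`-set this is the decomposition of `Hⁿ(H, J)` for every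
subgroup `H` (no separate Mackey formula needed).
-/

set_option autoImplicit false

open CategoryTheory

namespace Fermat.Agent.S55.T.H243

noncomputable section

variable {k G : Type} [CommRing k] [Group G] (M : Rep.{0} k G)
  {X : Type} [MulAction G X]

/-- A complete system of orthogonal idempotent endomorphisms of `M`, indexed by a finite `G`-set
and permuted by `G`. -/
structure SemilocalData [Fintype X] where
  /-- the projections -/
  pr : X → (M.V →ₗ[k] M.V)
  idem : ∀ x m, pr x (pr x m) = pr x m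
  orth : ∀ x y m, x ≠ y → pr x (pr y m) = 0
  total : ∀ m, ∑ x, pr x m = m
  equiv : ∀ g x m, M.ρ g (pr x m) = pr (g • x) (M.ρ g m)

variable {M}

namespace SemilocalData

variable [Fintype X] (P : SemilocalData (X := X) M)

/-- The local component `M_x = pr x (M)`. -/
def comp (x : X) : Submodule k M.V := LinearMap.range (P.pr x)

lemma mem_comp_iff {x : X} {m : M.V} : m ∈ P.comp x ↔ P.pr x m = m := by
  constructor
  · rintro ⟨m', rfl⟩; exact P.idem x m'
  · intro h; exact ⟨m, h⟩

lemma pr_mem (x : X) (m : M.V) : P.pr x m ∈ P.comp x := ⟨m, rfl⟩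

lemma pr_of_mem_ne {x y : X} (h : x ≠ y) {m : M.V} (hm : m ∈ P.comp y) : P.pr x m = 0 := by
  obtain ⟨m', rfl⟩ := hm
  exact P.orth x y m' h

lemma smul_mem_comp (g : G) {x : X} {m : M.V} (hm : m ∈ P.comp x) :
    M.ρ g m ∈ P.comp (g • x) := by
  obtain ⟨m', rfl⟩ := hm
  rw [P.equiv]; exact P.pr_mem _ _

/-- The representation of the stabilizer of `x` on the local component `M_x`. -/
def stabRepresentation (x : X) : Representation k (MulAction.stabilizer G x) (P.comp x) where
  toFun d := (M.ρ (d : G)).restrict (fun m hm => by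
    have := P.smul_mem_comp (d : G) hm
    rwa [MulAction.mem_stabilizer_iff.1 d.2] at this)
  map_one' := by ext m; simp
  map_mul' d d' := by ext m; simp

/-- The local component as a representation of the stabilizer. -/
abbrev stabRep (x : X) : Rep.{0} k (MulAction.stabilizer G x) := Rep.of (P.stabRepresentation x)

@[simp] lemma stabRep_ρ_coe (x : X) (d : MulAction.stabilizer G x) (m : P.comp x) :
    (((P.stabRep x).ρ d m : P.comp x) : M.V) = M.ρ (d : G) (m : M.V) := rfl

/-- The coinduced module attached to `x`. -/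
abbrev coindAt (x : X) : Rep.{0} k G :=
  Rep.coind (MulAction.stabilizer G x).subtype (P.stabRep x)

/-- `M → Coind_{Stab x}^G M_x`, `m ↦ (g ↦ pr x (g m))`. -/
def toCoindLin (x : X) : M.V →ₗ[k] (P.coindAt x).V where
  toFun m := ⟨fun g => ⟨P.pr x (M.ρ g m), P.pr_mem _ _⟩, by
    intro d g
    apply Subtype.ext
    show P.pr x (M.ρ ((d : G) * g) m) = M.ρ (d : G) (P.pr x (M.ρ g m))
    rw [P.equiv, MulAction.mem_stabilizer_iff.1 d.2, map_mul]; rfl⟩
  map_add' m m' := by
    apply Subtype.ext; funext g; apply Subtype.ext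
    show P.pr x (M.ρ g (m + m')) = P.pr x (M.ρ g m) + P.pr x (M.ρ g m')
    simp
  map_smul' c m := by
    apply Subtype.ext; funext g; apply Subtype.ext
    show P.pr x (M.ρ g (c • m)) = c • P.pr x (M.ρ g m)
    simp

@[simp] lemma toCoindLin_apply (x : X) (m : M.V) (g : G) :
    (((P.toCoindLin x m).1 g : P.comp x) : M.V) = P.pr x (M.ρ g m) := rfl

/-- `M → Coind_{Stab x}^G M_x` as a morphism of representations. -/
def toCoind (x : X) : M ⟶ P.coindAt x :=
  Rep.ofHom ⟨P.toCoindLin x, fun h => by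
    ext m g
    show P.pr x (M.ρ g (M.ρ h m)) = P.pr x (M.ρ (g * h) m)
    rw [map_mul]; rfl⟩

/-! ### The map back -/

/-- For `y` in the orbit of `x`, an element `g` with `g • y = x`. -/
def mover (x y : X) : G :=
  open Classical in if h : ∃ g : G, g • y = x then h.choose else 1

omit [Fintype X] in
lemma mover_smul {x y : X} (h : ∃ g : G, g • y = x) : (mover (G := G) x y) • y = x := by
  rw [mover, dif_pos h]; exact h.choose_spec

/-- The `y`-component of the image of `f ∈ Coind_{Stab x}^G M_x`: `g_y⁻¹ f(g_y)` if `y ∈ G x`,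
`0` otherwise. -/
def fromTerm (x y : X) (f : (P.coindAt x).V) : M.V :=
  open Classical in
  if ∃ g : G, g • y = x then M.ρ (mover (G := G) x y)⁻¹ ((f.1 (mover (G := G) x y) : P.comp x) : M.V)
  else 0

lemma fromTerm_eq {x y : X} (f : (P.coindAt x).V) (g : G) (hg : g • y = x) :
    P.fromTerm x y f = M.ρ g⁻¹ ((f.1 g : P.comp x) : M.V) := by
  have h : ∃ g : G, g • y = x := ⟨g, hg⟩
  rw [fromTerm, if_pos h]
  set g' := mover (G := G) x y
  have hg' : g' • y = x := mover_smul h
  -- `g = d g'` with `d ∈ Stab x`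
  have hd : g * g'⁻¹ ∈ MulAction.stabilizer G x := by
    rw [MulAction.mem_stabilizer_iff, mul_smul]
    have : g'⁻¹ • x = y := by rw [← hg', inv_smul_smul]
    rw [this, hg]
  have hf := f.2 ⟨g * g'⁻¹, hd⟩ g'
  simp only [Subgroup.subtype_apply, inv_mul_cancel_right] at hf
  rw [hf]
  show M.ρ g'⁻¹ _ = M.ρ g⁻¹ (M.ρ (g * g'⁻¹) ((f.1 g' : P.comp x) : M.V))
  rw [← Module.End.mul_apply, ← map_mul]
  simp

lemma fromTerm_of_not {x y : X} (f : (P.coindAt x).V) (h : ¬ ∃ g : G, g • y = x) :
    P.fromTerm x y f = 0 := by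
  rw [fromTerm, if_neg h]

lemma fromTerm_mem (x y : X) (f : (P.coindAt x).V) : P.fromTerm x y f ∈ P.comp y := by
  by_cases h : ∃ g : G, g • y = x
  · obtain ⟨g, hg⟩ := h
    rw [P.fromTerm_eq f g hg]
    have := P.smul_mem_comp g⁻¹ (f.1 g).2
    have hy : g⁻¹ • x = y := by rw [← hg, inv_smul_smul]
    rw [hy] at this
    exact this
  · rw [P.fromTerm_of_not f h]; exact zero_mem _

lemma fromTerm_add (x y : X) (f f' : (P.coindAt x).V) :
    P.fromTerm x y (f + f') = P.fromTerm x y f + P.fromTerm x y f' := by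
  by_cases h : ∃ g : G, g • y = x
  · obtain ⟨g, hg⟩ := h
    simp only [P.fromTerm_eq _ g hg]
    rw [← map_add]; rfl
  · simp [P.fromTerm_of_not _ h]

lemma fromTerm_smul (x y : X) (c : k) (f : (P.coindAt x).V) :
    P.fromTerm x y (c • f) = c • P.fromTerm x y f := by
  by_cases h : ∃ g : G, g • y = x
  · obtain ⟨g, hg⟩ := h
    simp only [P.fromTerm_eq _ g hg]
    rw [← map_smul]; rfl
  · simp [P.fromTerm_of_not _ h]

lemma fromTerm_equivariant (x y : X) (h : G) (f : (P.coindAt x).V) :
    P.fromTerm x (h • y) ((P.coindAt x).ρ h f) = M.ρ h (P.fromTerm x y f) := by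
  by_cases hy : ∃ g : G, g • y = x
  · obtain ⟨g, hg⟩ := hy
    have hg' : (g * h⁻¹) • (h • y) = x := by rw [mul_smul, inv_smul_smul, hg]
    rw [P.fromTerm_eq _ (g * h⁻¹) hg', P.fromTerm_eq f g hg]
    show M.ρ (g * h⁻¹)⁻¹ ((f.1 (g * h⁻¹ * h) : P.comp x) : M.V) = _
    rw [inv_mul_cancel_right, ← Module.End.mul_apply, ← map_mul]
    simp
  · have hy' : ¬ ∃ g : G, g • (h • y) = x := by
      rintro ⟨g, hg⟩
      exact hy ⟨g * h, by rw [mul_smul, hg]⟩
    rw [P.fromTerm_of_not _ hy', P.fromTerm_of_not _ hy, map_zero]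

/-- `Coind_{Stab x}^G M_x → M`, `f ↦ ∑_{y ∈ G x} g_y⁻¹ f(g_y)`. -/
def fromCoindLin (x : X) : (P.coindAt x).V →ₗ[k] M.V where
  toFun f := ∑ y, P.fromTerm x y f
  map_add' f f' := by
    rw [← Finset.sum_add_distrib]
    exact Finset.sum_congr rfl fun y _ => P.fromTerm_add x y f f'
  map_smul' c f := by
    rw [RingHom.id_apply, Finset.smul_sum]
    exact Finset.sum_congr rfl fun y _ => P.fromTerm_smul x y c f

/-- `Coind_{Stab x}^G M_x → M` as a morphism of representations. -/
def fromCoind (x : X) : P.coindAt x ⟶ M :=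
  Rep.ofHom ⟨P.fromCoindLin x, fun h => by
    ext f
    show ∑ y, P.fromTerm x y ((P.coindAt x).ρ h f) = M.ρ h (∑ y, P.fromTerm x y f)
    rw [map_sum]
    rw [← Equiv.sum_comp (MulAction.toPerm h : X ≃ X)]
    refine Finset.sum_congr rfl fun y _ => ?_
    exact P.fromTerm_equivariant x y h f⟩

/-! ### The bicone identities -/

lemma pr_smul_fromTerm (x x' y : X) (g : G) (f : (P.coindAt x).V) (h : g • y ≠ x') :
    P.pr x' (M.ρ g (P.fromTerm x y f)) = 0 :=
  P.pr_of_mem_ne (Ne.symm h) (P.smul_mem_comp g (P.fromTerm_mem x y f))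

lemma fromCoind_toCoind_self (x : X) : P.fromCoind x ≫ P.toCoind x = 𝟙 _ := by
  classical
  ext f g
  show P.pr x (M.ρ g (∑ y, P.fromTerm x y f)) = ((f.1 g : P.comp x) : M.V)
  rw [map_sum, map_sum, Finset.sum_eq_single (g⁻¹ • x)]
  · have hg : g • (g⁻¹ • x) = x := smul_inv_smul g x
    rw [P.fromTerm_eq f g hg, Representation.self_inv_apply]
    exact P.mem_comp_iff.1 (f.1 g).2
  · intro y _ hy
    refine P.pr_smul_fromTerm x x y g f ?_
    intro h
    exact hy (by rw [← h, inv_smul_smul])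
  · intro h; exact absurd (Finset.mem_univ _) h

lemma fromCoind_toCoind_of_not {x x' : X} (h : ¬ ∃ g : G, g • x' = x) :
    P.fromCoind x ≫ P.toCoind x' = 0 := by
  classical
  ext f g
  show P.pr x' (M.ρ g (∑ y, P.fromTerm x y f)) = 0
  rw [map_sum, map_sum]
  refine Finset.sum_eq_zero fun y _ => ?_
  by_cases hy : ∃ g' : G, g' • y = x
  · refine P.pr_smul_fromTerm x x' y g f ?_
    intro hgy
    obtain ⟨g', hg'⟩ := hy
    exact h ⟨g' * g⁻¹, by rw [mul_smul, ← hgy, inv_smul_smul, hg']⟩
  · rw [P.fromTerm_of_not f hy, map_zero, map_zero]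

lemma fromTerm_toCoindLin (x y : X) (m : M.V) [Decidable (∃ g : G, g • y = x)] :
    P.fromTerm x y (P.toCoindLin x m) = if ∃ g : G, g • y = x then P.pr y m else 0 := by
  split_ifs with h
  · obtain ⟨g, hg⟩ := h
    rw [P.fromTerm_eq _ g hg]
    show M.ρ g⁻¹ (P.pr x (M.ρ g m)) = P.pr y m
    rw [P.equiv, Representation.inv_self_apply]
    have hy : g⁻¹ • x = y := by rw [← hg, inv_smul_smul]
    rw [hy]
  · exact P.fromTerm_of_not _ h

section Reps

variable {ι : Type} [Fintype ι] (x : ι → X) (hx : ∀ y : X, ∃! i, ∃ g : G, g • y = x i)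

include hx in
lemma sum_toCoind_fromCoind :
    ∑ i, P.toCoind (x i) ≫ P.fromCoind (x i) = 𝟙 M := by
  classical
  apply Rep.hom_ext
  rw [Rep.sum_hom]
  apply Representation.IntertwiningMap.ext
  apply LinearMap.ext
  intro m
  show (∑ i, (P.toCoind (x i) ≫ P.fromCoind (x i)).hom) m = m
  rw [Representation.IntertwiningMap.sum_apply]
  have key : ∀ i, (P.toCoind (x i) ≫ P.fromCoind (x i)).hom m =
      ∑ y, if ∃ g : G, g • y = x i then P.pr y m else 0 := by
    intro i
    show ∑ y, P.fromTerm (x i) y (P.toCoindLin (x i) m) = _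
    exact Finset.sum_congr rfl fun y _ => P.fromTerm_toCoindLin (x i) y m
  rw [Finset.sum_congr rfl (fun i _ => key i), Finset.sum_comm]
  conv_rhs => rw [← P.total m]
  refine Finset.sum_congr rfl fun y _ => ?_
  obtain ⟨i, hi, hu⟩ := hx y
  rw [Finset.sum_eq_single i]
  · rw [if_pos hi]
  · intro j _ hj
    rw [if_neg (fun h => hj (hu j h))]
  · intro h; exact absurd (Finset.mem_univ _) h

omit [Fintype ι] in
include hx in
lemma fromCoind_toCoind_ne (i i' : ι) (h : i ≠ i') :
    P.fromCoind (x i) ≫ P.toCoind (x i') = 0 := by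
  refine P.fromCoind_toCoind_of_not ?_
  intro hh
  obtain ⟨i₀, -, hu⟩ := hx (x i')
  exact h ((hu i hh).trans (hu i' ⟨1, one_smul _ _⟩).symm)

/-- **Semilocal Shapiro**: `Hⁿ(G, M) ≃ ∏_i Hⁿ(G, Coind_{Stab(x i)}^G M_{x i})`. -/
def cohEquiv₀ (n : ℕ) : groupCohomology M n ≃ₗ[k]
    (∀ i, groupCohomology (P.coindAt (x i)) n) :=
  equivOfBicone (fun i => P.toCoind (x i)) (fun i => P.fromCoind (x i))
    (fun i => P.fromCoind_toCoind_self (x i)) (P.fromCoind_toCoind_ne x hx)
    (P.sum_toCoind_fromCoind x hx) n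

/-- **Semilocal Shapiro**: `Hⁿ(G, M) ≃ ∏_i Hⁿ(Stab(x i), M_{x i})` for orbit representatives
`x i`. -/
def cohEquiv (n : ℕ) : groupCohomology M n ≃ₗ[k]
    (∀ i, groupCohomology (P.stabRep (x i)) n) :=
  (P.cohEquiv₀ x hx n).trans
    (LinearEquiv.piCongrRight fun i =>
      (groupCohomology.coindIso (P.stabRep (x i)) n).toLinearEquiv)

include hx in
/-- If all local cohomology groups vanish, so does the semilocal one. -/
theorem isZero_of_forall (n : ℕ)
    (h0 : ∀ i, Limits.IsZero (groupCohomology (P.stabRep (x i)) n)) :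
    Limits.IsZero (groupCohomology M n) := by
  rw [ModuleCat.isZero_iff_subsingleton]
  have : ∀ i, Subsingleton (groupCohomology (P.stabRep (x i)) n) :=
    fun i => ModuleCat.isZero_iff_subsingleton.1 (h0 i)
  exact (P.cohEquiv x hx n).toEquiv.subsingleton

include hx in
/-- `|Hⁿ(G, M)| = ∏_i |Hⁿ(Stab(x i), M_{x i})|`. -/
theorem card_eq_prod (n : ℕ) :
    Nat.card (groupCohomology M n) =
      ∏ i, Nat.card (groupCohomology (P.stabRep (x i)) n) := by
  rw [Nat.card_congr (P.cohEquiv x hx n).toEquiv, Nat.card_pi]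

end Reps

/-! ### Canonical orbit representatives -/

section Canonical

variable (G X) in
/-- Representatives of the `G`-orbits on `X`. -/
def orbitReps : MulAction.orbitRel.Quotient G X → X := Quotient.out

omit [Fintype X] in
variable (G X) in
lemma orbitReps_spec (y : X) : ∃! q, ∃ g : G, g • y = orbitReps G X q := by
  refine ⟨Quotient.mk'' y, ?_, ?_⟩
  · have h : (Quotient.mk'' (orbitReps G X (Quotient.mk'' y)) : MulAction.orbitRel.Quotient G X) =
        Quotient.mk'' y := Quotient.out_eq' _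
    have h' := Quotient.exact' h
    rw [MulAction.orbitRel_apply] at h'
    obtain ⟨g, hg⟩ := h'
    exact ⟨g, hg⟩
  · rintro q ⟨g, hg⟩
    have : (Quotient.mk'' (orbitReps G X q) : MulAction.orbitRel.Quotient G X) = q :=
      Quotient.out_eq' _
    rw [← this]
    apply Quotient.sound'
    rw [MulAction.orbitRel_apply]
    exact ⟨g, hg⟩

/-- **Semilocal Shapiro**, canonical representatives. -/
def cohEquivCanonical (n : ℕ) : groupCohomology M n ≃ₗ[k]
    (∀ q : MulAction.orbitRel.Quotient G X,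
      groupCohomology (P.stabRep (orbitReps G X q)) n) :=
  letI := Fintype.ofFinite (MulAction.orbitRel.Quotient G X)
  P.cohEquiv (orbitReps G X) (orbitReps_spec G X) n

end Canonical

/-! ### Restriction to a subgroup -/

section Restrict

variable (H : Subgroup G)

/-- The semilocal structure on `Res_H M` (with `X` as an `H`-set). -/
def restrict : SemilocalData (X := X) (Rep.res H.subtype M) where
  pr := P.pr
  idem := P.idem
  orth := P.orth
  total := P.total
  equiv h x m := P.equiv (h : G) x m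

end Restrict

end SemilocalData

end

end Fermat.Agent.S55.T.H243
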