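import Fermat.Agent.S55.T.SemilocalH243

/-!
# S55, layer G helper: units of a semilocal ring with Galois action (helper243)

`R` a commutative ring with an action `φ : G →* (R ≃+* R)`, `e : X → R` a complete system of
orthogonal idempotents permuted by `G` (`X` a finite `G`-set; e.g. `R = L ⊗ ℚ_q`, `X` = places of
`L` above `q`).  Then `Rˣ` is a semilocal module in the sense of `SemilocalData`, its local
component at `x` is `(R / (1 - e x))ˣ`, and

  `Hⁿ(G, Rˣ) ≃ ∏_i Hⁿ(Stab(x i), (K i)ˣ)`,   `K i = R / (1 - e (x i))`.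
-/

set_option autoImplicit false

open CategoryTheory

namespace Fermat.Agent.S55.T.H243

noncomputable section

/-- A complete system of orthogonal idempotents of `R` indexed by a finite `G`-set `X` and
permuted by the action `φ` of `G` on `R`. -/
structure IdemSystem {R G : Type} [CommRing R] [Group G] (φ : G →* (R ≃+* R))
    (X : Type) [MulAction G X] [Fintype X] where
  /-- the idempotents -/
  e : X → R
  idem : ∀ x, e x * e x = e x
  orth : ∀ x y, x ≠ y → e x * e y = 0
  sum_eq_one : ∑ x, e x = 1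
  perm : ∀ g x, φ g (e x) = e (g • x)

namespace IdemSystem

variable {R G : Type} [CommRing R] [Group G] {φ : G →* (R ≃+* R)}
  {X : Type} [MulAction G X] [Fintype X] (E : IdemSystem φ X)

lemma mul_one_sub (x : X) : E.e x * (1 - E.e x) = 0 := by
  rw [mul_sub, mul_one, E.idem, sub_self]

/-- The unit `e_x u + (1 - e_x)`: equal to `u` at `x` and to `1` elsewhere. -/
def prUnit (x : X) : Rˣ →* Rˣ where
  toFun u := ⟨E.e x * u + (1 - E.e x), E.e x * (u⁻¹ : Rˣ) + (1 - E.e x), by
      have h1 := E.idem x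
      have h2 := E.mul_one_sub x
      have h3 : (u : R) * ((u⁻¹ : Rˣ) : R) = 1 := by simp
      calc (E.e x * u + (1 - E.e x)) * (E.e x * ((u⁻¹ : Rˣ) : R) + (1 - E.e x))
          = (E.e x * E.e x) * ((u : R) * ((u⁻¹ : Rˣ) : R))
            + (E.e x * (1 - E.e x)) * ((u : R) + ((u⁻¹ : Rˣ) : R))
            + (1 - E.e x) * (1 - E.e x) := by ring
        _ = E.e x + (1 - E.e x) * (1 - E.e x) := by rw [h1, h2, h3]; ring
        _ = E.e x + ((1 - E.e x) - E.e x * (1 - E.e x)) := by ring
        _ = 1 := by rw [h2]; ring, by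
      have h1 := E.idem x
      have h2 := E.mul_one_sub x
      have h3 : ((u⁻¹ : Rˣ) : R) * (u : R) = 1 := by simp
      calc (E.e x * ((u⁻¹ : Rˣ) : R) + (1 - E.e x)) * (E.e x * u + (1 - E.e x))
          = (E.e x * E.e x) * (((u⁻¹ : Rˣ) : R) * (u : R))
            + (E.e x * (1 - E.e x)) * ((u : R) + ((u⁻¹ : Rˣ) : R))
            + (1 - E.e x) * (1 - E.e x) := by ring
        _ = E.e x + (1 - E.e x) * (1 - E.e x) := by rw [h1, h2, h3]; ring
        _ = E.e x + ((1 - E.e x) - E.e x * (1 - E.e x)) := by ring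
        _ = 1 := by rw [h2]; ring⟩
  map_one' := by
    apply Units.ext
    show E.e x * ((1 : Rˣ) : R) + (1 - E.e x) = 1
    simp
  map_mul' u v := by
    apply Units.ext
    show E.e x * ((u * v : Rˣ) : R) + (1 - E.e x) =
      (E.e x * u + (1 - E.e x)) * (E.e x * v + (1 - E.e x))
    have h1 := E.idem x
    have h2 := E.mul_one_sub x
    calc E.e x * ((u * v : Rˣ) : R) + (1 - E.e x)
        = E.e x * ((u : R) * v) + ((1 - E.e x) - E.e x * (1 - E.e x)) := by
          rw [h2]; simp
      _ = (E.e x * E.e x) * ((u : R) * v) + (E.e x * (1 - E.e x)) * ((u : R) + v)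
            + ((1 - E.e x) - E.e x * (1 - E.e x)) := by rw [h1, h2]; ring
      _ = (E.e x * u + (1 - E.e x)) * (E.e x * v + (1 - E.e x)) := by ring

@[simp] lemma coe_prUnit (x : X) (u : Rˣ) :
    ((E.prUnit x u : Rˣ) : R) = E.e x * u + (1 - E.e x) := rfl

lemma coe_prUnit' (x : X) (u : Rˣ) :
    ((E.prUnit x u : Rˣ) : R) = 1 + E.e x * ((u : R) - 1) := by
  rw [coe_prUnit]; ring

lemma prUnit_prUnit (x : X) (u : Rˣ) : E.prUnit x (E.prUnit x u) = E.prUnit x u := by
  apply Units.ext
  simp only [coe_prUnit]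
  have h1 := E.idem x
  have h2 := E.mul_one_sub x
  calc E.e x * (E.e x * u + (1 - E.e x)) + (1 - E.e x)
      = (E.e x * E.e x) * u + E.e x * (1 - E.e x) + (1 - E.e x) := by ring
    _ = E.e x * u + (1 - E.e x) := by rw [h1, h2]; ring

lemma prUnit_prUnit_ne {x y : X} (h : x ≠ y) (u : Rˣ) : E.prUnit x (E.prUnit y u) = 1 := by
  apply Units.ext
  simp only [coe_prUnit, Units.val_one]
  have h2 := E.orth x y h
  calc E.e x * (E.e y * u + (1 - E.e y)) + (1 - E.e x)
      = (E.e x * E.e y) * (u - 1) + 1 := by ring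
    _ = 1 := by rw [h2]; ring

lemma prod_one_add_eq (s : Finset X) (a : R) :
    ∏ x ∈ s, (1 + E.e x * a) = 1 + (∑ x ∈ s, E.e x) * a := by
  classical
  induction s using Finset.induction_on with
  | empty => simp
  | insert y s hy ih =>
    rw [Finset.prod_insert hy, Finset.sum_insert hy, ih]
    have h0 : E.e y * ∑ x ∈ s, E.e x = 0 := by
      rw [Finset.mul_sum]
      refine Finset.sum_eq_zero fun x hx => E.orth y x ?_
      rintro rfl; exact hy hx
    calc (1 + E.e y * a) * (1 + (∑ x ∈ s, E.e x) * a)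
        = 1 + (E.e y + ∑ x ∈ s, E.e x) * a + (E.e y * ∑ x ∈ s, E.e x) * (a * a) := by ring
      _ = 1 + (E.e y + ∑ x ∈ s, E.e x) * a := by rw [h0]; ring

lemma prod_prUnit (u : Rˣ) : ∏ x, E.prUnit x u = u := by
  apply Units.ext
  rw [Units.coe_prod]
  simp only [coe_prUnit']
  rw [E.prod_one_add_eq, E.sum_eq_one]
  ring

lemma map_prUnit (g : G) (x : X) (u : Rˣ) :
    Units.map ((φ g : R ≃+* R) : R →* R) (E.prUnit x u) =
      E.prUnit (g • x) (Units.map ((φ g : R ≃+* R) : R →* R) u) := by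
  apply Units.ext
  show φ g (E.e x * u + (1 - E.e x)) = E.e (g • x) * φ g u + (1 - E.e (g • x))
  simp [E.perm]

/-! ### The semilocal structure on `Rˣ` -/

variable (ρ : Representation ℤ G (Additive Rˣ))
  (hρ : ∀ (g : G) (u : Additive Rˣ), (((ρ g u).toMul : Rˣ) : R) = φ g ((u.toMul : Rˣ) : R))

/-- The projection `pr_x` on `Additive Rˣ`. -/
def prAdd (x : X) : Additive Rˣ →ₗ[ℤ] Additive Rˣ :=
  (MonoidHom.toAdditive (E.prUnit x)).toIntLinearMap

@[simp] lemma prAdd_apply (x : X) (u : Additive Rˣ) :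
    E.prAdd x u = Additive.ofMul (E.prUnit x u.toMul) := rfl

omit [MulAction G X] [Fintype X] in
include hρ in
lemma rho_eq (g : G) (u : Additive Rˣ) :
    ρ g u = Additive.ofMul (Units.map ((φ g : R ≃+* R) : R →* R) u.toMul) := by
  apply Additive.toMul.injective
  apply Units.ext
  rw [hρ]; rfl

/-- `Rˣ` is a semilocal `G`-module. -/
def semilocalData : SemilocalData (X := X) (Rep.of ρ) where
  pr := E.prAdd
  idem x u := by
    show Additive.ofMul (E.prUnit x (E.prUnit x u.toMul)) = Additive.ofMul (E.prUnit x u.toMul)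
    rw [E.prUnit_prUnit]
  orth x y u h := by
    show Additive.ofMul (E.prUnit x (E.prUnit y u.toMul)) = 0
    rw [E.prUnit_prUnit_ne h]; rfl
  total u := by
    show ∑ x, Additive.ofMul (E.prUnit x u.toMul) = u
    rw [← ofMul_prod, E.prod_prUnit]; rfl
  equiv g x u := by
    show ρ g (Additive.ofMul (E.prUnit x u.toMul)) = Additive.ofMul (E.prUnit (g • x) (ρ g u).toMul)
    rw [rho_eq ρ hρ, rho_eq ρ hρ]
    show Additive.ofMul _ = Additive.ofMul _
    rw [toMul_ofMul, toMul_ofMul, E.map_prUnit]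
    rfl

/-! ### The local components are the units of the local factors -/

section Local

variable (x : X) {K : Type} [CommRing K] (π : R →+* K) (hsurj : Function.Surjective π)
  (hπe : π (E.e x) = 1) (hker : ∀ r, π r = 0 → E.e x * r = 0)

lemma mem_comp_iff_coe {u : Additive Rˣ} :
    u ∈ (E.semilocalData ρ hρ).comp x ↔
      E.e x * ((u.toMul : Rˣ) : R) + (1 - E.e x) = ((u.toMul : Rˣ) : R) := by
  rw [SemilocalData.mem_comp_iff]
  show Additive.ofMul (E.prUnit x u.toMul) = u ↔ _
  constructor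
  · intro h
    have := congrArg (fun v : Additive Rˣ => ((v.toMul : Rˣ) : R)) h
    simpa using this
  · intro h
    apply Additive.toMul.injective
    apply Units.ext
    simpa using h

/-- The underlying ring element of an element of `Additive Rˣ`. -/
def toR (u : Additive Rˣ) : R := ((@Additive.toMul Rˣ u : Rˣ) : R)

omit [MulAction G X] [Fintype X] in
lemma toR_injective : Function.Injective (toR (R := R)) := by
  intro u v h
  apply Additive.toMul.injective
  exact Units.ext h

/-- The underlying ring element of an element of the local component. -/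
def compVal (u : ↥((E.semilocalData ρ hρ).comp x)) : R := toR (R := R) u.1

lemma compVal_spec (u : ↥((E.semilocalData ρ hρ).comp x)) :
    E.e x * E.compVal ρ hρ x u + (1 - E.e x) = E.compVal ρ hρ x u :=
  (E.mem_comp_iff_coe ρ hρ x).1 u.2

/-- The map `M_x → Kˣ` induced by `π : R → K`. -/
def locHom : ↥((E.semilocalData ρ hρ).comp x) →+ Additive Kˣ :=
  (MonoidHom.toAdditive (Units.map (π : R →* K))).comp
    ((E.semilocalData ρ hρ).comp x).subtype.toAddMonoidHom

lemma coe_locHom (u : ↥((E.semilocalData ρ hρ).comp x)) :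
    toR (R := K) (E.locHom ρ hρ x π u) = π (E.compVal ρ hρ x u) := rfl

include hker in
lemma locHom_injective : Function.Injective (E.locHom ρ hρ x π) := by
  rw [injective_iff_map_eq_zero]
  intro u hu
  have h0 : π (E.compVal ρ hρ x u) = 1 := by
    rw [← coe_locHom, hu]; rfl
  have h1 : π (E.compVal ρ hρ x u - 1) = 0 := by
    rw [map_sub, h0, map_one, sub_self]
  have h2 := hker _ h1
  have h3 := E.compVal_spec ρ hρ x u
  have h4 : E.e x * E.compVal ρ hρ x u = E.e x := by
    rw [mul_sub, mul_one, sub_eq_zero] at h2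
    exact h2
  have h5 : E.compVal ρ hρ x u = 1 := by
    rw [← h3, h4]; ring
  apply Subtype.ext
  exact toR_injective (R := R) h5

include hsurj hπe hker in
lemma locHom_surjective : Function.Surjective (E.locHom ρ hρ x π) := by
  intro v
  obtain ⟨r, hr⟩ := hsurj (toR (R := K) v)
  obtain ⟨r', hr'⟩ := hsurj (toR (R := K) (-v))
  have hvv : toR (R := K) v * toR (R := K) (-v) = 1 := by
    show ((Additive.toMul v : Kˣ) : K) * (((Additive.toMul v)⁻¹ : Kˣ) : K) = 1
    simp
  have h1 := E.idem x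
  have h2 := E.mul_one_sub x
  have hrr : E.e x * (r * r') = E.e x := by
    have : π (r * r' - 1) = 0 := by
      rw [map_sub, map_mul, hr, hr', map_one, hvv, sub_self]
    have := hker _ this
    rw [mul_sub, mul_one, sub_eq_zero] at this
    exact this
  have hinv : (E.e x * r + (1 - E.e x)) * (E.e x * r' + (1 - E.e x)) = 1 := by
    calc (E.e x * r + (1 - E.e x)) * (E.e x * r' + (1 - E.e x))
        = (E.e x * E.e x) * (r * r') + (E.e x * (1 - E.e x)) * (r + r')
          + ((1 - E.e x) - E.e x * (1 - E.e x)) := by ring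
      _ = E.e x * (r * r') + (1 - E.e x) := by rw [h1, h2]; ring
      _ = 1 := by rw [hrr]; ring
  let u : Rˣ := ⟨E.e x * r + (1 - E.e x), E.e x * r' + (1 - E.e x), hinv, by
    rw [mul_comm]; exact hinv⟩
  have hu : Additive.ofMul u ∈ (E.semilocalData ρ hρ).comp x := by
    rw [E.mem_comp_iff_coe ρ hρ x]
    show E.e x * (E.e x * r + (1 - E.e x)) + (1 - E.e x) = E.e x * r + (1 - E.e x)
    calc E.e x * (E.e x * r + (1 - E.e x)) + (1 - E.e x)
        = (E.e x * E.e x) * r + E.e x * (1 - E.e x) + (1 - E.e x) := by ring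
      _ = E.e x * r + (1 - E.e x) := by rw [h1, h2]; ring
  refine ⟨⟨Additive.ofMul u, hu⟩, ?_⟩
  apply toR_injective (R := K)
  show π (E.e x * r + (1 - E.e x)) = toR (R := K) v
  rw [map_add, map_mul, map_sub, map_one, hπe, hr]; ring

/-- `M_x ≃ Kˣ`. -/
def locEquiv : ↥((E.semilocalData ρ hρ).comp x) ≃ₗ[ℤ] Additive Kˣ :=
  (AddEquiv.ofBijective (E.locHom ρ hρ x π)
    ⟨E.locHom_injective ρ hρ x π hker, E.locHom_surjective ρ hρ x π hsurj hπe hker⟩).toIntLinearEquiv

lemma locEquiv_apply (u : ↥((E.semilocalData ρ hρ).comp x)) :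
    E.locEquiv ρ hρ x π hsurj hπe hker u = E.locHom ρ hρ x π u := rfl

variable (ψ : MulAction.stabilizer G x →* (K ≃+* K))
  (hψ : ∀ (d : MulAction.stabilizer G x) (r : R), π (φ (d : G) r) = ψ d (π r))
  (ρK : Representation ℤ (MulAction.stabilizer G x) (Additive Kˣ))
  (hρK : ∀ (d : MulAction.stabilizer G x) (v : Additive Kˣ),
    toR (R := K) (ρK d v) = ψ d (toR (R := K) v))

include hψ hρK in
lemma locEquiv_equivariant (d : MulAction.stabilizer G x)
    (u : ↥((E.semilocalData ρ hρ).comp x)) :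
    E.locEquiv ρ hρ x π hsurj hπe hker (((E.semilocalData ρ hρ).stabRep x).ρ d u) =
      ρK d (E.locEquiv ρ hρ x π hsurj hπe hker u) := by
  apply toR_injective (R := K)
  rw [hρK, locEquiv_apply, locEquiv_apply, coe_locHom, coe_locHom, ← hψ]
  congr 1
  exact hρ (d : G) u.1

/-- `Hⁿ(Stab x, M_x) ≅ Hⁿ(Stab x, Kˣ)`. -/
def locCohIso (n : ℕ) :
    groupCohomology ((E.semilocalData ρ hρ).stabRep x) n ≅ groupCohomology (Rep.of ρK) n :=
  groupCohomology.mapIso (A := Rep.of ρK) (B := (E.semilocalData ρ hρ).stabRep x)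
    (MulEquiv.refl _) (E.locEquiv ρ hρ x π hsurj hπe hker)
    (fun d => LinearMap.ext fun u =>
      E.locEquiv_equivariant ρ hρ x π hsurj hπe hker ψ hψ ρK hρK d u) n

end Local

/-! ### Main statement -/

section Main

variable {ι : Type} [Fintype ι] (x : ι → X) (hx : ∀ y : X, ∃! i, ∃ g : G, g • y = x i)
  {K : ι → Type} [∀ i, CommRing (K i)] (π : ∀ i, R →+* K i)
  (hsurj : ∀ i, Function.Surjective (π i))
  (hπe : ∀ i, π i (E.e (x i)) = 1) (hker : ∀ i r, π i r = 0 → E.e (x i) * r = 0)
  (ψ : ∀ i, MulAction.stabilizer G (x i) →* (K i ≃+* K i))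
  (hψ : ∀ i (d : MulAction.stabilizer G (x i)) (r : R), π i (φ (d : G) r) = ψ i d (π i r))
  (ρK : ∀ i, Representation ℤ (MulAction.stabilizer G (x i)) (Additive (K i)ˣ))
  (hρK : ∀ i (d : MulAction.stabilizer G (x i)) (v : Additive (K i)ˣ),
    toR (R := K i) (ρK i d v) = ψ i d (toR (R := K i) v))

/-- **Cohomology of the units of a semilocal ring**:
`Hⁿ(G, Rˣ) ≃ ∏_i Hⁿ(Stab(x i), (K i)ˣ)`, where `x i` are representatives of the `G`-orbits on the
index set of the idempotents and `K i = R / (1 - e (x i))` is the local factor at `x i`. -/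
def unitsCohEquiv (n : ℕ) :
    groupCohomology (Rep.of ρ) n ≃+ (∀ i, groupCohomology (Rep.of (ρK i)) n) :=
  AddEquiv.mk'
    (((E.semilocalData ρ hρ).cohEquiv x hx n).toEquiv.trans
      (Equiv.piCongrRight fun i =>
        (E.locCohIso ρ hρ (x i) (π i) (hsurj i) (hπe i) (hker i) (ψ i) (hψ i) (ρK i) (hρK i)
          n).toLinearEquiv.toEquiv))
    (fun a b => by
      funext i
      show (E.locCohIso ρ hρ (x i) (π i) (hsurj i) (hπe i) (hker i) (ψ i) (hψ i) (ρK i) (hρK i)
          n).toLinearEquiv (((E.semilocalData ρ hρ).cohEquiv x hx n) (a + b) i) = _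
      rw [map_add, Pi.add_apply, map_add]
      rfl)

include hρ hx hsurj hπe hker hψ hρK in
/-- `|Hⁿ(G, Rˣ)| = ∏_i |Hⁿ(Stab(x i), (K i)ˣ)|`. -/
theorem card_units_eq_prod (n : ℕ) :
    Nat.card (groupCohomology (Rep.of ρ) n) =
      ∏ i, Nat.card (groupCohomology (Rep.of (ρK i)) n) := by
  rw [Nat.card_congr
    (unitsCohEquiv E ρ hρ x hx π hsurj hπe hker ψ hψ ρK hρK n).toEquiv, Nat.card_pi]

end Main

end IdemSystem

end

end Fermat.Agent.S55.T.H243
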