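import Fermat.Agent.S55.T.NakH837
import Fermat.Agent.S55.T.NakayamaH719
import Fermat.Agent.S55.H295.SplitSpecs

/-!
# S55, layer T, leaf T6 (helper837): `TateNakayamaSpec`, unconditional

Assembly of
* `H837.tateNakayama_of : SplitModuleSpec → NakayamaSpec → TateNakayamaSpec` (helper837),
* `H295.splitModule : SplitModuleSpec` (helper295),
* `H719.nakayama : NakayamaSpec` (helper719).
-/

set_option autoImplicit false

namespace Fermat.Agent.S55.T.H837

/-- **T6.**  Tate–Nakayama for lattices (unconditional). -/
theorem tateNakayama : TateNakayamaSpec :=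
  tateNakayama_of Fermat.Agent.S55.H295.splitModule Fermat.Agent.S55.T.H719.nakayama

end Fermat.Agent.S55.T.H837
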