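import Fermat.Agent.S55.T.Spec

/-!
# S55, layer T, leaf T3' : the "ugly lemma"  (helper115)

`ugly_of : ResIndexSpec → CardTorsionSpec → InfRes2Spec → UglySpec`.

Plan:
* `card_dvd_of_exact`    : counting in an exact sequence `X' → X → X''`;
* `card_dvd_of_family`   : Sylow assembly (`X` killed by `m`, maps `r_p : X → Y_p` for `p ∣ m` with
  `r_p x = 0 → (m / p^{v_p m}) • x = 0` and `|Y_p| ∣ p^{v_p m}`);
* `nestedIso`            : `Hⁿ(K, (A|_H)|_K) ≅ Hⁿ(K.map H.subtype, A|_…)` for `K ≤ H ≤ G`;
* p-group case by induction (normal subgroup of index `p` + inflation–restriction);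
* general case by Sylow assembly.
-/

set_option autoImplicit false

open CategoryTheory groupCohomology

namespace Fermat.Agent.S55.T.H115

/-! ## 1. Counting lemmas -/

/-- Counting in a sequence `X' → X → X''` exact at `X` (only `ker g ⊆ range f` is needed). -/
theorem card_dvd_of_exact {X' X X'' : Type} [AddCommGroup X'] [AddCommGroup X] [AddCommGroup X'']
    (f : X' →+ X) (g : X →+ X'') (hex : ∀ x, g x = 0 → ∃ y, f y = x)
    [Finite X'] [Finite X''] (a b : ℕ) (ha : Nat.card X' ∣ a) (hb : Nat.card X'' ∣ b) :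
    Finite X ∧ Nat.card X ∣ a * b := by
  have hker_le : g.ker ≤ f.range := fun x hx => hex x hx
  have : Finite f.range := Set.finite_range f
  have : Finite g.ker := Finite.of_injective (fun x : g.ker => (⟨x.1, hker_le x.2⟩ : f.range))
    (fun x y h => Subtype.ext (congrArg (fun z : f.range => (z : X)) h))
  have : Finite (X ⧸ g.ker) :=
    Finite.of_equiv _ (QuotientAddGroup.quotientKerEquivRange g).symm.toEquiv
  have : Finite X := by
    have e := AddSubgroup.addGroupEquivQuotientProdAddSubgroup (s := g.ker)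
    exact Finite.of_equiv _ e.symm
  refine ⟨inferInstance, ?_⟩
  have h1 : Nat.card X = Nat.card (X ⧸ g.ker) * Nat.card g.ker :=
    AddSubgroup.card_eq_card_quotient_mul_card_addSubgroup g.ker
  have h2 : Nat.card (X ⧸ g.ker) = Nat.card g.range :=
    Nat.card_congr (QuotientAddGroup.quotientKerEquivRange g).toEquiv
  have h3 : Nat.card g.range ∣ Nat.card X'' := AddSubgroup.card_addSubgroup_dvd_card g.range
  have h4 : Nat.card g.ker ∣ Nat.card f.range := AddSubgroup.card_dvd_of_le hker_le
  have h5 : Nat.card f.range ∣ Nat.card X' := AddSubgroup.card_range_dvd f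
  rw [h1, h2, mul_comm a b]
  exact Nat.mul_dvd_mul (h3.trans hb) ((h4.trans h5).trans ha)

/-- Sylow assembly: if `m • X = 0`, and for every prime `p ∣ m` there is a map `r_p : X → Y_p` with
`r_p x = 0 → (m / p ^ v_p(m)) • x = 0` and `|Y_p| ∣ p ^ v_p(m)`, then `|X| ∣ m`. -/
theorem card_dvd_of_family {X : Type} [AddCommGroup X] (m : ℕ) (hm : 0 < m)
    (hkill : ∀ x : X, m • x = 0)
    (Y : ℕ → Type) [∀ p, AddCommGroup (Y p)] (r : ∀ p, X →+ Y p)
    (hY : ∀ p, p.Prime → p ∣ m → Finite (Y p) ∧ Nat.card (Y p) ∣ p ^ m.factorization p)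
    (hr : ∀ p, p.Prime → p ∣ m → ∀ x, r p x = 0 → (m / p ^ m.factorization p) • x = 0) :
    Finite X ∧ Nat.card X ∣ m := by
  have hpf : ∀ p : m.primeFactors, (p : ℕ).Prime ∧ (p : ℕ) ∣ m := fun p =>
    ⟨Nat.prime_of_mem_primeFactors p.2, Nat.dvd_of_mem_primeFactors p.2⟩
  have hfin : ∀ p : m.primeFactors, Finite (Y p) := fun p => (hY p (hpf p).1 (hpf p).2).1
  let Φ : X →+ (∀ p : m.primeFactors, Y p) := AddMonoidHom.pi (fun p => r p)
  have hΦ : Function.Injective Φ := by
    rw [injective_iff_map_eq_zero]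
    intro x hx
    have hx' : ∀ p : m.primeFactors, r p x = 0 := fun p => congrFun hx p
    have h1 : addOrderOf x ∣ m := addOrderOf_dvd_of_nsmul_eq_zero (hkill x)
    by_contra hne
    have hne1 : addOrderOf x ≠ 1 := fun h => hne (AddMonoid.addOrderOf_eq_one_iff.mp h)
    obtain ⟨q, hq, hqd⟩ := Nat.exists_prime_and_dvd hne1
    have hqm : q ∣ m := hqd.trans h1
    have hqmem : q ∈ m.primeFactors := Nat.mem_primeFactors.mpr ⟨hq, hqm, hm.ne'⟩
    have h2 : addOrderOf x ∣ m / q ^ m.factorization q :=
      addOrderOf_dvd_of_nsmul_eq_zero (hr q hq hqm x (hx' ⟨q, hqmem⟩))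
    exact Nat.not_dvd_ordCompl hq hm.ne' (hqd.trans h2)
  have : Finite X := Finite.of_injective Φ hΦ
  refine ⟨this, ?_⟩
  have h1 : Nat.card X ∣ Nat.card (∀ p : m.primeFactors, Y p) :=
    AddSubgroup.card_dvd_of_injective Φ hΦ
  have h2 : Nat.card (∀ p : m.primeFactors, Y p) = ∏ p : m.primeFactors, Nat.card (Y p) :=
    Nat.card_pi
  have h3 : (∏ p : m.primeFactors, Nat.card (Y p)) ∣
      ∏ p : m.primeFactors, (p : ℕ) ^ m.factorization p :=
    Finset.prod_dvd_prod_of_dvd _ _ (fun p _ => (hY p (hpf p).1 (hpf p).2).2)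
  have h4 : (∏ p : m.primeFactors, (p : ℕ) ^ m.factorization p) = m := by
    rw [Finset.prod_coe_sort m.primeFactors (fun p => p ^ m.factorization p)]
    exact Nat.prod_factorization_pow_eq_self hm.ne'
  rw [h2] at h1
  rw [h4] at h3
  exact h1.trans h3

/-! ## 2. Transport for nested subgroups -/

section Nested

variable {k G : Type} [CommRing k] [Group G]

/-- `Hⁿ(K, (A|_H)|_K) ≅ Hⁿ(K.map H.subtype, A|_{K.map H.subtype})` for `K ≤ H ≤ G`. -/
noncomputable def nestedIso (A : Rep.{0} k G) (H : Subgroup G) (K : Subgroup H) (n : ℕ) :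
    groupCohomology (resSub (resSub A H) K) n ≅
      groupCohomology (resSub A (K.map H.subtype)) n :=
  groupCohomology.mapIso (K.equivMapOfInjective H.subtype H.subtype_injective)
    (LinearEquiv.refl k A.V) (fun _ => rfl) n

theorem isZero_nested (A : Rep.{0} k G) (H : Subgroup G) (K : Subgroup H) (n : ℕ)
    (h : Limits.IsZero (groupCohomology (resSub A (K.map H.subtype)) n)) :
    Limits.IsZero (groupCohomology (resSub (resSub A H) K) n) :=
  Limits.IsZero.of_iso h (nestedIso A H K n)

theorem cardDvd_nested (A : Rep.{0} k G) (H : Subgroup G) (K : Subgroup H) (n m : ℕ)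
    (h : CardDvd (groupCohomology (resSub A (K.map H.subtype)) n) m) :
    CardDvd (groupCohomology (resSub (resSub A H) K) n) m := by
  obtain ⟨hfin, hdvd⟩ := h
  have e : (groupCohomology (resSub (resSub A H) K) n) ≃
      (groupCohomology (resSub A (K.map H.subtype)) n) :=
    (nestedIso A H K n).toLinearEquiv.toEquiv
  exact ⟨Finite.of_equiv _ e.symm, by rw [Nat.card_congr e]; exact hdvd⟩

theorem card_map_subtype (H : Subgroup G) (K : Subgroup H) :
    Nat.card (K.map H.subtype) = Nat.card K :=
  (Nat.card_congr (K.equivMapOfInjective H.subtype H.subtype_injective).toEquiv).symm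

end Nested

/-! ## 3. The `p`-group case -/

section PGroup

variable {k G : Type} [CommRing k] [Group G] [Finite G]

theorem cardDvd_of_card_eq_one (hT : CardTorsionSpec) (A : Rep.{0} k G) (hG : Nat.card G = 1)
    (n : ℕ) (hn : 0 < n) : CardDvd (groupCohomology A n) 1 := by
  have hsub : Subsingleton (groupCohomology A n) := by
    refine ⟨fun x y => ?_⟩
    have hx := hT k G A n hn x
    have hy := hT k G A n hn y
    rw [hG, one_smul] at hx hy
    rw [hx, hy]
  exact ⟨inferInstance, by rw [Nat.card_unique]⟩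

theorem cardDvd_of_pgroup (hT : CardTorsionSpec) (hI : InfRes2Spec) (A : Rep.{0} k G)
    (h1 : ∀ H : Subgroup G, Limits.IsZero (groupCohomology (resSub A H) 1))
    (h2 : ∀ (H : Subgroup G) (K : Subgroup H) [K.Normal], (Nat.card (H ⧸ K)).Prime →
      CardDvd (groupCohomology ((resSub A H).quotientToInvariants K) 2) (Nat.card (H ⧸ K)))
    (p : ℕ) (hp : p.Prime) :
    ∀ (a : ℕ) (H : Subgroup G), Nat.card H = p ^ a →
      CardDvd (groupCohomology (resSub A H) 2) (p ^ a) := by
  have : Fact p.Prime := ⟨hp⟩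
  intro a
  induction a with
  | zero =>
    intro H hH
    rw [pow_zero] at hH ⊢
    exact cardDvd_of_card_eq_one hT (resSub A H) hH 2 (by norm_num)
  | succ a ih =>
    intro H hH
    obtain ⟨K, hK⟩ := Sylow.exists_subgroup_card_pow_prime (G := H) p (n := a)
      (by rw [hH]; exact pow_dvd_pow p (Nat.le_succ a))
    have hidx : K.index = p := by
      have h := K.card_mul_index
      rw [hK, hH, pow_succ] at h
      exact Nat.eq_of_mul_eq_mul_left (pow_pos hp.pos a) h
    have hKn : K.Normal := by
      apply Subgroup.normal_of_index_eq_minFac_card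
      rw [hidx, hH, hp.pow_minFac (Nat.succ_ne_zero a)]
    have hquot : Nat.card (H ⧸ K) = p := by rw [← Subgroup.index_eq_card, hidx]
    have hK' : Nat.card (K.map H.subtype) = p ^ a := by rw [card_map_subtype, hK]
    have hc2 : CardDvd (groupCohomology (resSub (resSub A H) K) 2) (p ^ a) :=
      cardDvd_nested A H K 2 _ (ih (K.map H.subtype) hK')
    have hz1 : Limits.IsZero (groupCohomology (resSub (resSub A H) K) 1) :=
      isZero_nested A H K 1 (h1 _)
    obtain ⟨-, -, hex⟩ := hI k H (resSub A H) K hz1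
    have hq := h2 H K (by rw [hquot]; exact hp)
    rw [hquot] at hq
    obtain ⟨hqf, hqd⟩ := hq
    obtain ⟨hcf, hcd⟩ := hc2
    have := card_dvd_of_exact (infMap (resSub A H) K 2).hom.toAddMonoidHom
      (resMap (resSub A H) K 2).hom.toAddMonoidHom (fun x hx => hex x hx) p (p ^ a) hqd hcd
    rw [pow_succ, mul_comm]
    exact this

end PGroup

/-! ## 4. The general case -/

/-- **T3' (ugly lemma).** -/
theorem ugly_of (hR : ResIndexSpec) (hT : CardTorsionSpec) (hI : InfRes2Spec) : UglySpec := by
  intro k G _ _ _ A h1 h2 H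
  have hm : 0 < Nat.card H := Nat.card_pos
  let P : ℕ → Subgroup H := fun p => ((Classical.arbitrary (Sylow p H)) : Subgroup H)
  have hPcard : ∀ p, p.Prime → Nat.card (P p) = p ^ (Nat.card H).factorization p := by
    intro p hp
    have : Fact p.Prime := ⟨hp⟩
    exact Sylow.card_eq_multiplicity (Classical.arbitrary (Sylow p H))
  refine card_dvd_of_family (X := groupCohomology (resSub A H) 2) (Nat.card H) hm
    (hT k H (resSub A H) 2 (by norm_num))
    (fun p => groupCohomology (resSub (resSub A H) (P p)) 2)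
    (fun p => (resMap (resSub A H) (P p) 2).hom.toAddMonoidHom)
    (fun p hp _ => ?_) (fun p hp _ x hx => ?_)
  · have hcard' : Nat.card ((P p).map H.subtype) = p ^ (Nat.card H).factorization p := by
      rw [card_map_subtype, hPcard p hp]
    exact cardDvd_nested A H (P p) 2 _
      (cardDvd_of_pgroup hT hI A h1 h2 p hp _ ((P p).map H.subtype) hcard')
  · have h := hR k H (resSub A H) (P p) 2 (by norm_num) x hx
    have hidx : (P p).index = Nat.card H / p ^ (Nat.card H).factorization p := by
      have h3 := (P p).card_mul_index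
      rw [hPcard p hp] at h3
      exact (Nat.div_eq_of_eq_mul_right (pow_pos hp.pos _) h3.symm).symm
    rw [← hidx]
    exact h

end Fermat.Agent.S55.T.H115
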