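import Fermat.Agent.S55.T.Spec

/-!
# S55, layer T, leaf T3' (`UglySpec`) — helper896

`ugly_of : ResIndexSpec → CardTorsionSpec → InfRes2Spec → UglySpec`.

Proof.  Let `H¹(H, A) = 0` for all `H ≤ G`, and `|H²(H ⧸ K, A^K)| ∣ [H : K]` whenever `K ⊴ H ≤ G`
has prime index.

* `p`-subgroups `H ≤ G`, by induction on `n` with `|H| = p ^ n`:  for `n = 0`, `H²(H, A)` is killed
  by `|H| = 1` (`CardTorsionSpec`).  For `n + 1`, pick `K ≤ H` of order `p ^ n`; it has index
  `p = minFac |H|`, hence is normal; inflation–restriction (`InfRes2Spec`, using `H¹(K, A) = 0`)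
  gives `|H²(H, A)| ∣ |H²(H ⧸ K, A^K)| · |H²(K, A)| ∣ p · p ^ n`.
* general `H ≤ G`: the product of the restriction maps to (chosen) Sylow `p`-subgroups `P_p`,
  `p ∣ |H|`, is injective: if `x` restricts to `0` everywhere, then `[H : P_p] • x = 0` for all
  `p ∣ |H|` (`ResIndexSpec`) and `|H| • x = 0` (`CardTorsionSpec`), so the additive order of `x` has
  no prime factor.  Hence `|H²(H, A)| ∣ ∏_p |H²(P_p, A)| ∣ ∏_p |P_p| = |H|`.

The only transport needed is `Hⁿ(K, (A|_H)|_K) ≅ Hⁿ(K', A|_K')` for `K ≤ H ≤ G` and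
`K' = K.map H.subtype ≤ G` (`subSubIso`, an instance of Mathlib's `groupCohomology.mapIso`).
-/

set_option autoImplicit false

open CategoryTheory groupCohomology

namespace Fermat.Agent.S55.T.H896

variable {k G : Type} [CommRing k] [Group G]

/-- Transport: for `K ≤ H ≤ G`, `Hⁿ(K, (A|_H)|_K) ≅ Hⁿ(K.map H.subtype, A|_{K.map H.subtype})`. -/
noncomputable def subSubIso (A : Rep.{0} k G) (H : Subgroup G) (K : Subgroup H) (n : ℕ) :
    groupCohomology (resSub (resSub A H) K) n ≅
      groupCohomology (resSub A (K.map H.subtype)) n :=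
  groupCohomology.mapIso (K.equivMapOfInjective H.subtype H.subtype_injective)
    (LinearEquiv.refl k A.V) (fun _ => rfl) n

/-- `CardDvd` is invariant under isomorphism. -/
lemma cardDvd_of_iso {X Y : ModuleCat.{0} k} (e : X ≅ Y) {m : ℕ} (h : CardDvd Y m) :
    CardDvd X m := by
  obtain ⟨hf, hd⟩ := h
  have e' : X ≃ Y := e.toLinearEquiv.toEquiv
  exact ⟨Finite.of_equiv _ e'.symm, by rwa [Nat.card_congr e']⟩

/-- If `X → Y → Z` satisfies `ker g ⊆ range f`, `|X| ∣ a` and `|Z| ∣ b`, then `|Y| ∣ a * b`. -/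
lemma cardDvd_of_exact {X Y Z : ModuleCat.{0} k} (f : X ⟶ Y) (g : Y ⟶ Z) (a b : ℕ)
    (hexact : ∀ y, g.hom y = 0 → ∃ x, f.hom x = y)
    (hX : CardDvd X a) (hZ : CardDvd Z b) : CardDvd Y (a * b) := by
  obtain ⟨hXf, hXa⟩ := hX
  obtain ⟨hZf, hZb⟩ := hZ
  let f' : X →+ Y := f.hom.toAddMonoidHom
  let g' : Y →+ Z := g.hom.toAddMonoidHom
  have hker : g'.ker ≤ f'.range := fun y hy => hexact y hy
  have : Finite f'.range := Set.finite_range f'
  have : Finite g'.ker :=
    Finite.of_injective (AddSubgroup.inclusion hker) (AddSubgroup.inclusion_injective hker)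
  have hq : Nat.card (Y ⧸ g'.ker) = Nat.card g'.range :=
    Nat.card_congr (QuotientAddGroup.quotientKerEquivRange g').toEquiv
  have hcard : Nat.card Y = Nat.card g'.range * Nat.card g'.ker := by
    rw [← hq]; exact AddSubgroup.card_eq_card_quotient_mul_card_addSubgroup g'.ker
  have hYfin : Finite Y := by
    apply Nat.finite_of_card_ne_zero
    rw [hcard]
    exact Nat.mul_ne_zero Nat.card_pos.ne' Nat.card_pos.ne'
  refine ⟨hYfin, ?_⟩
  rw [hcard, mul_comm]
  apply Nat.mul_dvd_mul
  · exact ((AddSubgroup.card_dvd_of_le hker).trans (AddSubgroup.card_range_dvd f')).trans hXa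
  · exact (AddSubgroup.card_addSubgroup_dvd_card g'.range).trans hZb

/-- The `p`-group case of the ugly lemma. -/
theorem ugly_pgroup (h2 : CardTorsionSpec) (h3 : InfRes2Spec) [Finite G] (A : Rep.{0} k G)
    (hyp1 : ∀ H : Subgroup G, Limits.IsZero (groupCohomology (resSub A H) 1))
    (hyp2 : ∀ (H : Subgroup G) (K : Subgroup H) [K.Normal], (Nat.card (H ⧸ K)).Prime →
      CardDvd (groupCohomology ((resSub A H).quotientToInvariants K) 2) (Nat.card (H ⧸ K)))
    (p : ℕ) [hp : Fact p.Prime] (n : ℕ) :
    ∀ H : Subgroup G, Nat.card H = p ^ n →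
      CardDvd (groupCohomology (resSub A H) 2) (Nat.card H) := by
  induction n with
  | zero =>
    intro H hH
    have h0 : ∀ x : groupCohomology (resSub A H) 2, x = 0 := fun x => by
      have := h2 k H (resSub A H) 2 (by norm_num) x
      rwa [hH, pow_zero, one_smul] at this
    have hs : Subsingleton (groupCohomology (resSub A H) 2) :=
      ⟨fun x y => by rw [h0 x, h0 y]⟩
    exact ⟨inferInstance, by rw [Nat.card_unique]; exact one_dvd _⟩
  | succ n ih =>
    intro H hH
    obtain ⟨K, hK⟩ := Sylow.exists_subgroup_card_pow_prime (G := H) p (n := n)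
      (by rw [hH]; exact pow_dvd_pow p (Nat.le_succ n))
    have hmul : K.index * Nat.card K = Nat.card H := K.index_mul_card
    have hidx : K.index = p := by
      rw [hK, hH, pow_succ'] at hmul
      exact Nat.eq_of_mul_eq_mul_right (pow_pos hp.out.pos n) hmul
    have hKn : K.Normal := Subgroup.normal_of_index_eq_minFac_card (by
      rw [hidx, hH, Nat.Prime.pow_minFac hp.out (Nat.succ_ne_zero n)])
    have hq : Nat.card (H ⧸ K) = p := by rw [← Subgroup.index_eq_card, hidx]
    have hquot := hyp2 H K (by rw [hq]; exact hp.out)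
    have hK' : Nat.card (K.map H.subtype) = p ^ n := by
      rw [Subgroup.card_map_of_injective H.subtype_injective, hK]
    have hsub : CardDvd (groupCohomology (resSub (resSub A H) K) 2) (Nat.card K) := by
      have := ih (K.map H.subtype) hK'
      rw [hK', ← hK] at this
      exact cardDvd_of_iso (subSubIso A H K 2) this
    have hz : Limits.IsZero (groupCohomology (resSub (resSub A H) K) 1) :=
      (hyp1 (K.map H.subtype)).of_iso (subSubIso A H K 1)
    obtain ⟨-, -, hex⟩ := h3 k H (resSub A H) K hz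
    have := cardDvd_of_exact (infMap (resSub A H) K 2) (resMap (resSub A H) K 2) _ _ hex hquot hsub
    rwa [← Subgroup.index_eq_card, hmul] at this

/-- **T3'.**  The ugly lemma. -/
theorem ugly_of (h1 : ResIndexSpec) (h2 : CardTorsionSpec) (h3 : InfRes2Spec) : UglySpec := by
  intro k G _ _ _ A hyp1 hyp2 H
  classical
  have hN0 : Nat.card H ≠ 0 := Nat.card_pos.ne'
  have hprime : ∀ p : (Nat.card H).primeFactors, Fact (p.1.Prime) :=
    fun p => ⟨Nat.prime_of_mem_primeFactors p.2⟩
  let P : ∀ p : (Nat.card H).primeFactors, Sylow p.1 H := fun _ => default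
  have hX : ∀ p : (Nat.card H).primeFactors,
      CardDvd (groupCohomology (resSub (resSub A H) (P p : Subgroup H)) 2)
        (p.1 ^ (Nat.card H).factorization p.1) := by
    intro p
    have := hprime p
    have hc : Nat.card (P p : Subgroup H) = p.1 ^ (Nat.card H).factorization p.1 :=
      Sylow.card_eq_multiplicity (P p)
    have hc' : Nat.card ((P p : Subgroup H).map H.subtype) =
        p.1 ^ (Nat.card H).factorization p.1 := by
      rw [Subgroup.card_map_of_injective H.subtype_injective, hc]
    have := ugly_pgroup h2 h3 A hyp1 hyp2 p.1 ((Nat.card H).factorization p.1)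
      ((P p : Subgroup H).map H.subtype) hc'
    rw [hc'] at this
    exact cardDvd_of_iso (subSubIso A H (P p : Subgroup H) 2) this
  let Φ : groupCohomology (resSub A H) 2 →+
      ∀ p : (Nat.card H).primeFactors,
        groupCohomology (resSub (resSub A H) (P p : Subgroup H)) 2 :=
    AddMonoidHom.pi (fun p => (resMap (resSub A H) (P p : Subgroup H) 2).hom.toAddMonoidHom)
  have hinj : Function.Injective Φ := by
    rw [injective_iff_map_eq_zero]
    intro x hx
    have hx' : ∀ p : (Nat.card H).primeFactors,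
        (resMap (resSub A H) (P p : Subgroup H) 2).hom x = 0 := fun p => congrFun hx p
    have hord : addOrderOf x ∣ Nat.card H :=
      addOrderOf_dvd_iff_nsmul_eq_zero.mpr (h2 k H (resSub A H) 2 (by norm_num) x)
    rw [← AddMonoid.addOrderOf_eq_one_iff, Nat.eq_one_iff_not_exists_prime_dvd]
    intro q hq hdvd
    have hqN : q ∈ (Nat.card H).primeFactors :=
      Nat.mem_primeFactors.mpr ⟨hq, hdvd.trans hord, hN0⟩
    have := hprime ⟨q, hqN⟩
    have hk := h1 k H (resSub A H) (P ⟨q, hqN⟩ : Subgroup H) 2 (by norm_num) x (hx' ⟨q, hqN⟩)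
    have hdvd' : addOrderOf x ∣ (P ⟨q, hqN⟩ : Subgroup H).index :=
      addOrderOf_dvd_iff_nsmul_eq_zero.mpr hk
    exact Sylow.not_dvd_index (P ⟨q, hqN⟩) (hdvd.trans hdvd')
  have : ∀ p : (Nat.card H).primeFactors,
      Finite (groupCohomology (resSub (resSub A H) (P p : Subgroup H)) 2) := fun p => (hX p).1
  have hfin : Finite (groupCohomology (resSub A H) 2) := Finite.of_injective Φ hinj
  refine ⟨hfin, ?_⟩
  calc Nat.card (groupCohomology (resSub A H) 2)
      ∣ Nat.card (∀ p : (Nat.card H).primeFactors,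
          groupCohomology (resSub (resSub A H) (P p : Subgroup H)) 2) :=
        AddSubgroup.card_dvd_of_injective Φ hinj
    _ = ∏ p : (Nat.card H).primeFactors,
          Nat.card (groupCohomology (resSub (resSub A H) (P p : Subgroup H)) 2) := Nat.card_pi
    _ ∣ ∏ p : (Nat.card H).primeFactors, p.1 ^ (Nat.card H).factorization p.1 :=
        Finset.prod_dvd_prod_of_dvd _ _ (fun p _ => (hX p).2)
    _ = Nat.card H := by
        rw [Finset.prod_coe_sort (Nat.card H).primeFactors
          (fun p => p ^ (Nat.card H).factorization p)]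
        exact Nat.prod_factorization_pow_eq_self hN0

end Fermat.Agent.S55.T.H896
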